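/-
S23 project, module 1: weakly holomorphic periodic functions on the upper half plane and their
Laurent `q`-expansions, as an injective algebra homomorphism into `LaurentSeries ℂ`.
-/
import Mathlib.NumberTheory.ModularForms.QExpansion
import Mathlib.RingTheory.LaurentSeries

set_option autoImplicit false

namespace Fermat.Agent.S23

open UpperHalfPlane Function Filter Complex Topology
open scoped Manifold MatrixGroups

local notation "𝕢" => Periodic.qParam

/-- The function `τ ↦ exp (2 π i τ / h)` on the upper half plane. -/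
noncomputable def qFun (h : ℝ) : ℍ → ℂ := fun τ => 𝕢 h τ

lemma qFun_apply (h : ℝ) (τ : ℍ) : qFun h τ = 𝕢 h τ := rfl

lemma qFun_ne_zero (h : ℝ) (τ : ℍ) : qFun h τ ≠ 0 := Periodic.qParam_ne_zero _

lemma norm_qFun_lt_one {h : ℝ} (hh : 0 < h) (τ : ℍ) : ‖qFun h τ‖ < 1 :=
  Periodic.norm_qParam_lt_one hh τ.im_pos

lemma mdiff_qFun (h : ℝ) : MDiff (qFun h) := by
  rw [UpperHalfPlane.mdifferentiable_iff]
  have h1 : Differentiable ℂ (𝕢 h) := Periodic.differentiable_qParam
  refine h1.differentiableOn.congr fun z hz => ?_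
  simp [qFun, Function.comp_apply, ofComplex_apply_of_im_pos hz]

lemma periodic_of_forall_vadd {h : ℝ} {F : ℍ → ℂ}
    (hF : ∀ τ : ℍ, F (h +ᵥ τ) = F τ) : Periodic (F ∘ ofComplex) h := by
  intro w
  by_cases hw : 0 < im w
  · have hw' : 0 < im (w + h) := by simpa using hw
    simp only [comp_apply, ofComplex_apply_of_im_pos hw', ofComplex_apply_of_im_pos hw]
    rw [← hF ⟨w, hw⟩]
    congr 1
    ext
    simp [add_comm]
  · have hw' : im (w + h) ≤ 0 := by simpa using not_lt.mp hw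
    simp [ofComplex_apply_of_im_nonpos hw', ofComplex_apply_of_im_nonpos (not_lt.mp hw)]

lemma forall_vadd_of_periodic {h : ℝ} {F : ℍ → ℂ}
    (hF : Periodic (F ∘ ofComplex) h) (τ : ℍ) : F (h +ᵥ τ) = F τ := by
  have := hF (τ : ℂ)
  simp only [comp_apply, ofComplex_apply] at this
  rw [← this]
  congr 1
  have hpos : 0 < im ((τ : ℂ) + h) := by simpa using τ.im_pos
  rw [ofComplex_apply_of_im_pos hpos]
  ext
  simp [add_comm]

lemma periodic_qFun (h : ℝ) (hh : h ≠ 0) : Periodic (qFun h ∘ ofComplex) h := by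
  apply periodic_of_forall_vadd
  intro τ
  simp only [qFun, coe_vadd, Periodic.qParam]
  have hh' : (h : ℂ) ≠ 0 := by exact_mod_cast hh
  rw [show 2 * (Real.pi : ℂ) * Complex.I * ((h : ℂ) + (τ : ℂ)) / h =
    2 * Real.pi * Complex.I * τ / h + 2 * Real.pi * Complex.I by
    field_simp; ring, Complex.exp_add, Complex.exp_two_pi_mul_I, mul_one]


lemma isZeroAtImInfty_qFun {h : ℝ} (hh : 0 < h) : IsZeroAtImInfty (qFun h) :=
  qParam_tendsto_atImInfty hh

lemma isBoundedAtImInfty_qFun {h : ℝ} (hh : 0 < h) : IsBoundedAtImInfty (qFun h) :=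
  (isZeroAtImInfty_qFun hh).isBoundedAtImInfty

/-- Analyticity at `0` of the cusp function of a bounded holomorphic periodic function. -/
lemma analyticAt_cusp {h : ℝ} (hh : 0 < h) {F : ℍ → ℂ} (hol : MDiff F)
    (per : Periodic (F ∘ ofComplex) h) (bdd : IsBoundedAtImInfty F) :
    AnalyticAt ℂ (cuspFunction h F) 0 :=
  analyticAt_cuspFunction_zero hh per hol bdd

/-- Uniqueness of `q`-expansion coefficients, for plain functions. -/
lemma qExpansion_coeff_unique' {h : ℝ} {f : ℍ → ℂ} {c : ℕ → ℂ} (hh : 0 < h)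
    (hfanalytic : AnalyticAt ℂ (cuspFunction h f) 0)
    (hf : ∀ τ : ℍ, HasSum (fun m ↦ c m • 𝕢 h τ ^ m) (f τ)) (m : ℕ) :
    c m = (qExpansion h f).coeff m := by
  have h1 := (hasFPowerSeriesOnBall_cuspFunction hh hfanalytic hf).hasFPowerSeriesAt
  have h2 := hfanalytic.hasFPowerSeriesAt
  have := congr_arg (FormalMultilinearSeries.coeff · m) (h1.eq_formalMultilinearSeries h2)
  simpa [qExpansion_coeff, div_eq_mul_inv, mul_comm] using this

lemma qExpansion_qFun {h : ℝ} (hh : 0 < h) : qExpansion h (qFun h) = PowerSeries.X := by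
  have han := analyticAt_cusp hh (mdiff_qFun h) (periodic_qFun h hh.ne')
    (isBoundedAtImInfty_qFun hh)
  ext m
  have key := qExpansion_coeff_unique' (h := h) (f := qFun h)
    (c := fun m => if m = 1 then 1 else 0) hh han (fun τ => by
      have := hasSum_ite_eq (1 : ℕ) (𝕢 h τ)
      have e : (fun m : ℕ => (if m = 1 then (1 : ℂ) else 0) • 𝕢 h τ ^ m) =
          fun b' => if b' = 1 then 𝕢 h ↑τ else 0 := by
        funext n
        split_ifs with hn
        · subst hn; simp
        · simp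
      rw [e]
      exact this) m
  rw [← key, PowerSeries.coeff_X]


/-! ### Weakly holomorphic periodic functions -/

/-- Weakly holomorphic `h`-periodic functions: holomorphic on `ℍ`, `h`-periodic, and
`F * q ^ m` bounded at `i∞` for some `m`. -/
structure IsWH (h : ℝ) (F : ℍ → ℂ) : Prop where
  holo : MDiff F
  per : Periodic (F ∘ ofComplex) h
  bdd : ∃ m : ℕ, IsBoundedAtImInfty (F * qFun h ^ m)

lemma mdiff_mul_qpow {h : ℝ} {F : ℍ → ℂ} (hF : MDiff F) (m : ℕ) : MDiff (F * qFun h ^ m) :=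
  hF.mul ((mdiff_qFun h).pow m)

lemma periodic_mul_qpow {h : ℝ} (hh : h ≠ 0) {F : ℍ → ℂ} (hF : Periodic (F ∘ ofComplex) h)
    (m : ℕ) : Periodic ((F * qFun h ^ m) ∘ ofComplex) h := by
  intro w
  have h1 := hF w
  have h2 := periodic_qFun h hh w
  simp only [comp_apply, Pi.mul_apply, Pi.pow_apply] at h1 h2 ⊢
  rw [h1, h2]

lemma bdd_mul_qFun {h : ℝ} (hh : 0 < h) {F : ℍ → ℂ} (hF : IsBoundedAtImInfty F) :
    IsBoundedAtImInfty (F * qFun h) :=
  BoundedAtFilter.mul hF (isBoundedAtImInfty_qFun hh)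

lemma bdd_qpow_add {h : ℝ} (hh : 0 < h) {F : ℍ → ℂ} {m : ℕ}
    (hF : IsBoundedAtImInfty (F * qFun h ^ m)) (n : ℕ) :
    IsBoundedAtImInfty (F * qFun h ^ (m + n)) := by
  induction n with
  | zero => simpa using hF
  | succ n ih =>
    have := bdd_mul_qFun hh ih
    rwa [mul_assoc, ← pow_succ] at this

lemma bdd_qpow_of_le {h : ℝ} (hh : 0 < h) {F : ℍ → ℂ} {m m' : ℕ}
    (hF : IsBoundedAtImInfty (F * qFun h ^ m)) (hmm : m ≤ m') :
    IsBoundedAtImInfty (F * qFun h ^ m') := by
  obtain ⟨n, rfl⟩ := Nat.exists_eq_add_of_le hmm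
  exact bdd_qpow_add hh hF n

namespace IsWH

variable {h : ℝ} {F G : ℍ → ℂ}

lemma of_bounded (hol : MDiff F) (per : Periodic (F ∘ ofComplex) h)
    (bdd : IsBoundedAtImInfty F) : IsWH h F :=
  ⟨hol, per, 0, by simpa using bdd⟩

lemma const (h : ℝ) (c : ℂ) : IsWH h (fun _ => c) :=
  of_bounded mdifferentiable_const (fun _ => rfl) (Filter.const_boundedAtFilter _ c)

lemma one (h : ℝ) : IsWH h 1 := const h 1

lemma zero (h : ℝ) : IsWH h 0 := const h 0

lemma add (hh : 0 < h) (hF : IsWH h F) (hG : IsWH h G) : IsWH h (F + G) := by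
  obtain ⟨m, hm⟩ := hF.bdd
  obtain ⟨n, hn⟩ := hG.bdd
  refine ⟨hF.holo.add hG.holo, ?_, m + n, ?_⟩
  · intro w
    have h1 := hF.per w
    have h2 := hG.per w
    simp only [comp_apply, Pi.add_apply] at h1 h2 ⊢
    rw [h1, h2]
  · rw [add_mul]
    exact BoundedAtFilter.add (bdd_qpow_add hh hm n)
      (bdd_qpow_of_le hh hn (Nat.le_add_left n m))

lemma mul (hF : IsWH h F) (hG : IsWH h G) : IsWH h (F * G) := by
  obtain ⟨m, hm⟩ := hF.bdd
  obtain ⟨n, hn⟩ := hG.bdd
  refine ⟨hF.holo.mul hG.holo, ?_, m + n, ?_⟩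
  · intro w
    have h1 := hF.per w
    have h2 := hG.per w
    simp only [comp_apply, Pi.mul_apply] at h1 h2 ⊢
    rw [h1, h2]
  · have : F * G * qFun h ^ (m + n) = (F * qFun h ^ m) * (G * qFun h ^ n) := by
      rw [pow_add]; ring
    rw [this]
    exact BoundedAtFilter.mul hm hn

lemma smul (c : ℂ) (hF : IsWH h F) : IsWH h (c • F) := by
  have : c • F = (fun _ => c) * F := by ext τ; simp
  rw [this]
  exact (const h c).mul hF

lemma neg (hF : IsWH h F) : IsWH h (-F) := by
  have : -F = (-1 : ℂ) • F := by simp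
  rw [this]
  exact hF.smul _

lemma sub (hh : 0 < h) (hF : IsWH h F) (hG : IsWH h G) : IsWH h (F - G) := by
  rw [sub_eq_add_neg]
  exact hF.add hh hG.neg

lemma pow (hF : IsWH h F) (n : ℕ) : IsWH h (F ^ n) := by
  induction n with
  | zero => simpa using one h
  | succ n ih => rw [pow_succ]; exact ih.mul hF

lemma qFun (hh : 0 < h) : IsWH h (qFun h) :=
  of_bounded (mdiff_qFun h) (periodic_qFun h hh.ne') (isBoundedAtImInfty_qFun hh)

end IsWH


/-! ### Laurent `q`-expansions -/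

section Laurent

variable {h : ℝ} {F G : ℍ → ℂ}

/-- Laurent expansion computed with a given pole-order bound `m`. -/
noncomputable def qLaurentAt (h : ℝ) (m : ℕ) (F : ℍ → ℂ) : LaurentSeries ℂ :=
  HahnSeries.single (-(m : ℤ)) (1 : ℂ) *
    HahnSeries.ofPowerSeries ℤ ℂ (qExpansion h (F * qFun h ^ m))

lemma qExpansion_mul_qFun (hh : 0 < h) (hol : MDiff F) (per : Periodic (F ∘ ofComplex) h)
    (bdd : IsBoundedAtImInfty F) :
    qExpansion h (F * qFun h) = qExpansion h F * PowerSeries.X := by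
  rw [qExpansion_mul (analyticAt_cusp hh hol per bdd) (analyticAt_cusp hh (mdiff_qFun h)
    (periodic_qFun h hh.ne') (isBoundedAtImInfty_qFun hh)), qExpansion_qFun hh]

lemma qLaurentAt_succ (hh : 0 < h) (hol : MDiff F) (per : Periodic (F ∘ ofComplex) h) {m : ℕ}
    (hb : IsBoundedAtImInfty (F * qFun h ^ m)) : qLaurentAt h (m + 1) F = qLaurentAt h m F := by
  unfold qLaurentAt
  rw [pow_succ, ← mul_assoc, qExpansion_mul_qFun hh (mdiff_mul_qpow hol m)
    (periodic_mul_qpow hh.ne' per m) hb, map_mul, HahnSeries.ofPowerSeries_X,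
    mul_comm (HahnSeries.ofPowerSeries ℤ ℂ _), ← mul_assoc, HahnSeries.single_mul_single]
  have e : (-((m + 1 : ℕ) : ℤ)) + 1 = -(m : ℤ) := by push_cast; ring
  rw [e, mul_one]

open Classical in
/-- The Laurent `q`-expansion (in the variable `q = exp (2 π i τ / h)`) of a weakly holomorphic
periodic function (junk value `0` otherwise). -/
noncomputable def qLaurent (h : ℝ) (F : ℍ → ℂ) : LaurentSeries ℂ :=
  if hb : ∃ m : ℕ, IsBoundedAtImInfty (F * qFun h ^ m) then qLaurentAt h (Nat.find hb) F else 0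

lemma qLaurent_eq (hh : 0 < h) (hF : IsWH h F) {m : ℕ}
    (hb : IsBoundedAtImInfty (F * qFun h ^ m)) : qLaurent h F = qLaurentAt h m F := by
  classical
  have hex : ∃ m : ℕ, IsBoundedAtImInfty (F * qFun h ^ m) := ⟨m, hb⟩
  rw [qLaurent, dif_pos hex]
  obtain ⟨n, hn⟩ := Nat.exists_eq_add_of_le (Nat.find_min' hex hb)
  have key : ∀ n : ℕ, qLaurentAt h (Nat.find hex + n) F = qLaurentAt h (Nat.find hex) F := by
    intro n
    induction n with
    | zero => rfl
    | succ n ih =>
      rw [← add_assoc, qLaurentAt_succ hh hF.holo hF.per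
        (bdd_qpow_add hh (Nat.find_spec hex) n), ih]
  rw [hn, key]

lemma qLaurent_of_bounded (hh : 0 < h) (hol : MDiff F) (per : Periodic (F ∘ ofComplex) h)
    (bdd : IsBoundedAtImInfty F) :
    qLaurent h F = HahnSeries.ofPowerSeries ℤ ℂ (qExpansion h F) := by
  rw [qLaurent_eq hh (IsWH.of_bounded hol per bdd) (m := 0) (by simpa using bdd)]
  simp [qLaurentAt]

lemma qLaurent_add (hh : 0 < h) (hF : IsWH h F) (hG : IsWH h G) :
    qLaurent h (F + G) = qLaurent h F + qLaurent h G := by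
  obtain ⟨m, hm⟩ := hF.bdd
  obtain ⟨n, hn⟩ := hG.bdd
  have hm' := bdd_qpow_add hh hm n
  have hn' := bdd_qpow_of_le hh hn (Nat.le_add_left n m)
  have hmn : IsBoundedAtImInfty ((F + G) * qFun h ^ (m + n)) := by
    rw [add_mul]; exact BoundedAtFilter.add hm' hn'
  rw [qLaurent_eq hh (hF.add hh hG) hmn, qLaurent_eq hh hF hm', qLaurent_eq hh hG hn']
  unfold qLaurentAt
  rw [add_mul, qExpansion_add
    (analyticAt_cusp hh (mdiff_mul_qpow hF.holo _) (periodic_mul_qpow hh.ne' hF.per _) hm')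
    (analyticAt_cusp hh (mdiff_mul_qpow hG.holo _) (periodic_mul_qpow hh.ne' hG.per _) hn'),
    map_add, mul_add]

lemma qLaurent_mul (hh : 0 < h) (hF : IsWH h F) (hG : IsWH h G) :
    qLaurent h (F * G) = qLaurent h F * qLaurent h G := by
  obtain ⟨m, hm⟩ := hF.bdd
  obtain ⟨n, hn⟩ := hG.bdd
  have e : F * G * qFun h ^ (m + n) = (F * qFun h ^ m) * (G * qFun h ^ n) := by
    rw [pow_add]; ring
  have hmn : IsBoundedAtImInfty (F * G * qFun h ^ (m + n)) := by
    rw [e]; exact BoundedAtFilter.mul hm hn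
  rw [qLaurent_eq hh (hF.mul hG) hmn, qLaurent_eq hh hF hm, qLaurent_eq hh hG hn]
  unfold qLaurentAt
  rw [e, qExpansion_mul
    (analyticAt_cusp hh (mdiff_mul_qpow hF.holo _) (periodic_mul_qpow hh.ne' hF.per _) hm)
    (analyticAt_cusp hh (mdiff_mul_qpow hG.holo _) (periodic_mul_qpow hh.ne' hG.per _) hn),
    map_mul]
  have : (HahnSeries.single (-((m + n : ℕ) : ℤ)) (1 : ℂ) : LaurentSeries ℂ) =
      HahnSeries.single (-(m : ℤ)) 1 * HahnSeries.single (-(n : ℤ)) 1 := by
    rw [HahnSeries.single_mul_single, mul_one]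
    have e : (-((m + n : ℕ) : ℤ)) = -(m : ℤ) + -(n : ℤ) := by push_cast; ring
    rw [e]
  rw [this]
  ring

lemma qLaurent_const (hh : 0 < h) (c : ℂ) :
    qLaurent h (fun _ => c) = HahnSeries.C c := by
  rw [qLaurent_of_bounded hh mdifferentiable_const (fun _ => rfl)
    (Filter.const_boundedAtFilter _ c)]
  have h1 : (fun _ : ℍ => c) = c • (1 : ℍ → ℂ) := by ext; simp
  have han : AnalyticAt ℂ (cuspFunction h (1 : ℍ → ℂ)) 0 :=
    analyticAt_cusp hh mdifferentiable_const (fun _ => rfl) (Filter.const_boundedAtFilter _ 1)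
  rw [h1, qExpansion_smul han, qExpansion_one]
  rw [show c • (1 : PowerSeries ℂ) = PowerSeries.C c by
    ext n; simp [PowerSeries.coeff_C, PowerSeries.coeff_one]]
  exact HahnSeries.ofPowerSeries_C c

lemma qLaurent_eq_zero_iff (hh : 0 < h) (hF : IsWH h F) : qLaurent h F = 0 ↔ F = 0 := by
  obtain ⟨m, hm⟩ := hF.bdd
  rw [qLaurent_eq hh hF hm]
  unfold qLaurentAt
  constructor
  · intro H
    have h1 : HahnSeries.ofPowerSeries ℤ ℂ (qExpansion h (F * qFun h ^ m)) = 0 := by
      have hne : (HahnSeries.single (-(m : ℤ)) (1 : ℂ) : LaurentSeries ℂ) ≠ 0 :=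
        HahnSeries.single_ne_zero one_ne_zero
      exact (mul_eq_zero.mp H).resolve_left hne
    have h2 : qExpansion h (F * qFun h ^ m) = 0 := by
      apply HahnSeries.ofPowerSeries_injective (Γ := ℤ)
      rw [h1, map_zero]
    have h3 := (qExpansion_eq_zero_iff hh (periodic_mul_qpow hh.ne' hF.per m)
      (mdiff_mul_qpow hF.holo m) hm).mp h2
    ext τ
    have := congrFun h3 τ
    simp only [Pi.mul_apply, Pi.pow_apply, Pi.zero_apply, mul_eq_zero] at this
    rcases this with h4 | h4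
    · exact h4
    · exact absurd h4 (pow_ne_zero m (qFun_ne_zero h τ))
  · rintro rfl
    simp [qExpansion_zero]

end Laurent

/-! ### Bundled versions -/

/-- The `ℂ`-algebra of weakly holomorphic `h`-periodic functions. -/
def WH (h : ℝ) (hh : 0 < h) : Subalgebra ℂ (ℍ → ℂ) where
  carrier := {F | IsWH h F}
  mul_mem' := fun hF hG => hF.mul hG
  add_mem' := fun hF hG => hF.add hh hG
  algebraMap_mem' := fun c => IsWH.const h c

lemma mem_WH {h : ℝ} {hh : 0 < h} {F : ℍ → ℂ} : F ∈ WH h hh ↔ IsWH h F := Iff.rfl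

/-- The Laurent `q`-expansion as an algebra homomorphism. -/
noncomputable def qL (h : ℝ) (hh : 0 < h) : WH h hh →ₐ[ℂ] LaurentSeries ℂ where
  toFun F := qLaurent h F.1
  map_one' := by
    show qLaurent h (fun _ => (1 : ℂ)) = 1
    rw [qLaurent_const hh 1, map_one]
  map_mul' F G := qLaurent_mul hh F.2 G.2
  map_zero' := by
    show qLaurent h (fun _ => (0 : ℂ)) = 0
    rw [qLaurent_const hh 0, map_zero]
  map_add' F G := qLaurent_add hh F.2 G.2
  commutes' c := by
    show qLaurent h (fun _ => c) = _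
    rw [qLaurent_const hh c, LaurentSeries.algebraMap_apply]

lemma qL_apply {h : ℝ} (hh : 0 < h) (F : WH h hh) : qL h hh F = qLaurent h F.1 := rfl

lemma qL_injective (h : ℝ) (hh : 0 < h) : Function.Injective (qL h hh) := by
  rw [injective_iff_map_eq_zero]
  intro F hF
  exact Subtype.ext ((qLaurent_eq_zero_iff hh F.2).mp hF)

end Fermat.Agent.S23
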