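/-
S23 project: pure algebra of norm polynomials and Lagrange interpolation numerators for a finite
family in a commutative ring.
-/
import Mathlib.Algebra.Polynomial.Eval.Defs
import Mathlib.Algebra.Polynomial.BigOperators
import Mathlib.Algebra.Polynomial.Monic
import Mathlib.Algebra.Polynomial.Eval.Coeff
import Mathlib.Algebra.Polynomial.Degree.Lemmas
import Mathlib.RingTheory.Polynomial.Basic
import Mathlib.Tactic

set_option autoImplicit false
set_option linter.unusedSectionVars false

namespace Fermat.Agent.S23.Coset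

open Polynomial

section Ring

variable {ι : Type*} [Fintype ι] [DecidableEq ι] {R : Type*} [CommRing R]

/-- The norm polynomial `∏ i, (X - a i)`. -/
noncomputable def NP (a : ι → R) : R[X] := ∏ i, (X - C (a i))

/-- The Lagrange interpolation numerator `∑ i, b i * ∏ i' ≠ i, (X - a i')`. -/
noncomputable def IP (a b : ι → R) : R[X] :=
  ∑ i, C (b i) * ∏ i' ∈ Finset.univ.erase i, (X - C (a i'))

theorem NP_monic (a : ι → R) : (NP a).Monic :=
  monic_prod_of_monic _ _ fun i _ => monic_X_sub_C (a i)

theorem NP_natDegree [Nontrivial R] (a : ι → R) : (NP a).natDegree = Fintype.card ι := by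
  rw [NP, natDegree_prod_of_monic _ _ fun i _ => monic_X_sub_C (a i)]
  simp

theorem eval_NP_self (a : ι → R) (i : ι) : (NP a).eval (a i) = 0 := by
  rw [NP, eval_prod]
  exact Finset.prod_eq_zero (Finset.mem_univ i) (by simp)

theorem eval_IP_self (a b : ι → R) (i : ι) :
    (IP a b).eval (a i) = b i * ∏ i' ∈ Finset.univ.erase i, (a i - a i') := by
  rw [IP, eval_finsetSum, Finset.sum_eq_single i]
  · simp [eval_prod]
  · intro j _ hji
    rw [eval_mul, eval_prod, Finset.prod_eq_zero (i := i) (by simp [Ne.symm hji]) (by simp),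
      mul_zero]
  · intro h; exact absurd (Finset.mem_univ i) h

theorem eval_IP_one_self (a : ι → R) (i : ι) :
    (IP a (fun _ => 1)).eval (a i) = ∏ i' ∈ Finset.univ.erase i, (a i - a i') := by
  rw [eval_IP_self, one_mul]

theorem natDegree_IP_lt [Nontrivial R] (a b : ι → R) (hι : 0 < Fintype.card ι) :
    (IP a b).natDegree < Fintype.card ι := by
  rw [IP]
  refine lt_of_le_of_lt (natDegree_sum_le_of_forall_le (n := Fintype.card ι - 1) _ _ ?_)
    (by omega)
  intro i _
  refine le_trans (natDegree_C_mul_le _ _) ?_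
  rw [natDegree_prod_of_monic _ _ fun i _ => monic_X_sub_C (a i)]
  simp [Finset.card_erase_of_mem]

theorem NP_map {S : Type*} [CommRing S] (φ : R →+* S) (a : ι → R) :
    (NP a).map φ = NP (fun i => φ (a i)) := by
  simp [NP, Polynomial.map_prod]

theorem IP_map {S : Type*} [CommRing S] (φ : R →+* S) (a b : ι → R) :
    (IP a b).map φ = IP (fun i => φ (a i)) (fun i => φ (b i)) := by
  simp [IP, Polynomial.map_sum, Polynomial.map_prod]

theorem NP_comp_equiv (e : ι ≃ ι) (a : ι → R) : NP (fun i => a (e i)) = NP a := by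
  rw [NP, NP]
  exact Equiv.prod_comp e (fun i => X - C (a i))

theorem IP_comp_equiv (e : ι ≃ ι) (a b : ι → R) :
    IP (fun i => a (e i)) (fun i => b (e i)) = IP a b := by
  rw [IP, IP, ← Equiv.sum_comp e (fun i => C (b i) * ∏ i' ∈ Finset.univ.erase i, (X - C (a i')))]
  refine Finset.sum_congr rfl fun i _ => ?_
  congr 1
  refine Finset.prod_bij (fun i' _ => e i') ?_ ?_ ?_ ?_
  · intro i' hi'
    simp only [Finset.mem_erase, Finset.mem_univ, and_true] at hi' ⊢
    exact fun h => hi' (e.injective h)
  · intro x _ y _ h; exact e.injective h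
  · intro j hj
    simp only [Finset.mem_erase, Finset.mem_univ, and_true] at hj
    refine ⟨e.symm j, ?_, by simp⟩
    simp only [Finset.mem_erase, Finset.mem_univ, and_true]
    intro h
    exact hj (by rw [← h]; simp)
  · intro i' _; rfl

end Ring

section Field

variable {ι : Type*} [Fintype ι] [DecidableEq ι] {K : Type*} [Field K]

theorem X_sub_C_smul (s : K) (hs : s ≠ 0) (x : K) :
    (X - C (s * x) : K[X]) = C s * (X - C x).comp (C s⁻¹ * X) := by
  have h1 : (C s * C s⁻¹ : K[X]) = 1 := by rw [← C_mul, mul_inv_cancel₀ hs, C_1]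
  simp only [sub_comp, X_comp, C_comp]
  rw [mul_sub, ← mul_assoc, h1, one_mul, C_mul]

theorem NP_smul (s : K) (hs : s ≠ 0) (a : ι → K) :
    NP (fun i => s * a i) = C (s ^ Fintype.card ι) * (NP a).comp (C s⁻¹ * X) := by
  rw [NP, NP, ← Finset.card_univ, map_pow, ← Finset.prod_const, Polynomial.prod_comp,
    ← Finset.prod_mul_distrib]
  exact Finset.prod_congr rfl fun i _ => X_sub_C_smul s hs (a i)

theorem coeff_NP_smul (s : K) (hs : s ≠ 0) (a : ι → K) (j : ℕ) (hj : j ≤ Fintype.card ι) :
    (NP (fun i => s * a i)).coeff j = s ^ (Fintype.card ι - j) * (NP a).coeff j := by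
  rw [NP_smul s hs, coeff_C_mul, comp_C_mul_X_coeff]
  have : s ^ Fintype.card ι = s ^ (Fintype.card ι - j) * s ^ j := by
    rw [← pow_add, Nat.sub_add_cancel hj]
  rw [this, inv_pow]
  field_simp

theorem IP_smul (s t : K) (hs : s ≠ 0) (a b : ι → K) :
    IP (fun i => s * a i) (fun i => t * b i) =
      C (t * s ^ (Fintype.card ι - 1)) * (IP a b).comp (C s⁻¹ * X) := by
  rw [IP, IP, Polynomial.sum_comp, Finset.mul_sum]
  refine Finset.sum_congr rfl fun i _ => ?_
  have hcard : (Finset.univ.erase i).card = Fintype.card ι - 1 := by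
    simp [Finset.card_erase_of_mem]
  rw [mul_comp, C_comp, Polynomial.prod_comp, C_mul, C_mul, ← hcard, map_pow, ← Finset.prod_const]
  simp_rw [X_sub_C_smul s hs]
  rw [Finset.prod_mul_distrib]
  ring

theorem coeff_IP_smul (s t : K) (hs : s ≠ 0) (a b : ι → K) (j : ℕ) (hj : j < Fintype.card ι) :
    (IP (fun i => s * a i) (fun i => t * b i)).coeff j =
      t * s ^ (Fintype.card ι - 1 - j) * (IP a b).coeff j := by
  rw [IP_smul s t hs a b, coeff_C_mul, comp_C_mul_X_coeff]
  have : s ^ (Fintype.card ι - 1) = s ^ (Fintype.card ι - 1 - j) * s ^ j := by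
    rw [← pow_add, Nat.sub_add_cancel (by omega)]
  rw [this, inv_pow]
  field_simp

end Field

end Fermat.Agent.S23.Coset
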