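import Mathlib.NumberTheory.ModularForms.LevelOne.GradedRing

set_option autoImplicit false

open UpperHalfPlane ModularForm ModularFormClass MatrixGroups EisensteinSeries Filter
open scoped Real Manifold

namespace Fermat.Agent.S23

local notation "Δ" => ModularForm.discriminant

/-- constant term of the `q`-expansion of a power of `E₄`. -/
theorem invPoly_E4_pow_coeff_zero (n : ℕ) :
    (qExpansion 1 (E₄.pow n)).coeff 0 = 1 := by
  have h1 : PowerSeries.constantCoeff (qExpansion 1 E₄) = 1 := by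
    rw [← PowerSeries.coeff_zero_eq_constantCoeff_apply]
    exact E_qExpansion_coeff_zero _ ⟨2, rfl⟩
  rw [ModularForm.qExpansion_pow one_pos one_mem_strictPeriods_SL,
    PowerSeries.coeff_zero_eq_constantCoeff_apply, map_pow, h1, one_pow]

theorem invPoly_aux (M : ℕ) : ∀ (k : ℤ) (_ : k = 12 * M) (H : ModularForm 𝒮ℒ k),
    ∃ c : ℕ → ℂ, ∀ z : ℍ,
      H z = ∑ a ∈ Finset.range (M + 1), c a * E₄ z ^ (3 * a) * Δ z ^ (M - a) := by
  induction M with
  | zero =>
    intro k hk H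
    have hk0 : k = 0 := by simpa using hk
    subst hk0
    obtain ⟨c, hc⟩ := levelOne_weight_zero_const H
    refine ⟨fun _ => c, fun z => ?_⟩
    simp [hc]
  | succ M ih =>
    intro k hk H
    have hw : ((3 * (M + 1) : ℕ) : ℤ) * 4 = k := by rw [hk]; push_cast; ring
    set E : ModularForm 𝒮ℒ k := ModularForm.mcast hw (E₄.pow (3 * (M + 1))) with hE
    set c0 : ℂ := (qExpansion 1 H).coeff 0 with hc0
    set G : ModularForm 𝒮ℒ k := H - c0 • E with hG
    have hG0 : (qExpansion 1 G).coeff 0 = 0 := by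
      rw [hG, FunLike.coe_sub, ModularForm.qExpansion_sub one_pos one_mem_strictPeriods_SL,
        FunLike.coe_smul, ModularForm.qExpansion_smul one_pos one_mem_strictPeriods_SL, map_sub,
        PowerSeries.coeff_smul, hE, ModularForm.coe_mcast, invPoly_E4_pow_coeff_zero]
      simp [hc0]
    obtain ⟨c', hc'⟩ := ih (k - 12) (by rw [hk]; push_cast; ring)
      (CuspForm.discriminantEquiv (toCuspForm G hG0))
    refine ⟨fun a => if a = M + 1 then c0 else c' a, fun z => ?_⟩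
    have h1 : H z = c0 * E₄ z ^ (3 * (M + 1)) +
        Δ z * (CuspForm.discriminantEquiv (toCuspForm G hG0)) z := by
      rw [discriminant_mul_discriminantEquiv_apply, toCuspForm_apply, hG]
      have hEz : E z = E₄ z ^ (3 * (M + 1)) := by
        rw [hE, ModularForm.mcast_apply, ModularForm.coe_pow]
        rfl
      change H z = c0 * E₄ z ^ (3 * (M + 1)) + (H z - c0 * E z)
      rw [hEz]
      ring
    rw [h1, hc', Finset.sum_range_succ (n := M + 1), Finset.mul_sum]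
    simp only [if_true, Nat.sub_self, pow_zero, mul_one]
    rw [add_comm]
    congr 1
    apply Finset.sum_congr rfl
    intro a ha
    have ha' : a < M + 1 := Finset.mem_range.mp ha
    rw [if_neg (by omega), show M + 1 - a = (M - a) + 1 by omega, pow_succ]
    ring

/-- Every level one modular form of weight `12 M` is a combination of the `E₄^(3a) Δ^(M-a)`. -/
theorem exists_coeff_of_modularForm_levelOne (M : ℕ) (H : ModularForm 𝒮ℒ ((12 * M : ℕ) : ℤ)) :
    ∃ c : ℕ → ℂ, ∀ z : ℍ,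
      H z = ∑ a ∈ Finset.range (M + 1), c a * E₄ z ^ (3 * a) * Δ z ^ (M - a) :=
  invPoly_aux M _ (by push_cast; ring) H

theorem invPoly_discriminant_smul (γ : SL(2, ℤ)) (z : ℍ) :
    Δ (γ • z) = Δ z * denom γ z ^ (12 : ℕ) := by
  have h1 : (⇑CuspForm.discriminant ∣[(12 : ℤ)] γ) z = Δ z := by
    have h2 := CuspForm.discriminant.slash_action_eq' _ ⟨γ, rfl⟩
    exact congrFun h2 z
  rw [ModularForm.SL_slash_apply] at h1
  have hd : denom γ z ≠ 0 := denom_ne_zero γ z
  rw [← h1, CuspForm.coe_discriminant, zpow_neg, mul_assoc]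
  have : ((denom (γ : GL (Fin 2) ℝ) z) ^ (12 : ℤ))⁻¹ * denom γ z ^ (12 : ℕ) = 1 := by
    rw [← zpow_natCast]
    exact inv_mul_cancel₀ (zpow_ne_zero _ hd)
  rw [this, mul_one]

theorem invPoly_slash (h : ℍ → ℂ) (hinv : ∀ (γ : SL(2, ℤ)) (z : ℍ), h (γ • z) = h z) (M : ℕ)
    (γ : SL(2, ℤ)) :
    (fun z => h z * Δ z ^ M) ∣[((12 * M : ℕ) : ℤ)] γ = fun z => h z * Δ z ^ M := by
  funext z
  have hd : denom γ z ≠ 0 := denom_ne_zero γ z
  rw [ModularForm.SL_slash_apply, hinv, invPoly_discriminant_smul, mul_pow, zpow_neg,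
    zpow_natCast, ← pow_mul]
  field_simp

theorem invPoly_isBoundedAtImInfty (h : ℍ → ℂ) (M : ℕ) (C : ℝ)
    (hgrow : ∀ z : ℍ, 1 ≤ z.im → ‖h z‖ ≤ C * Real.exp (2 * π * M * z.im)) :
    IsBoundedAtImInfty (fun z => h z * Δ z ^ M) := by
  have h1 : (⇑CuspForm.discriminant) =O[atImInfty] fun τ : ℍ => Real.exp (-2 * π * τ.im / 1) :=
    CuspFormClass.exp_decay_atImInfty (h := 1) CuspForm.discriminant one_pos
      one_mem_strictPeriods_SL
  have h2 : (fun z : ℍ => Δ z ^ M) =O[atImInfty]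
      fun τ : ℍ => Real.exp (-2 * π * τ.im / 1) ^ M := h1.pow M
  have h3 : h =O[atImInfty] fun τ : ℍ => Real.exp (2 * π * M * τ.im) := by
    refine Asymptotics.IsBigO.of_bound C ?_
    have hev : ∀ᶠ z : ℍ in atImInfty, 1 ≤ z.im :=
      (Filter.tendsto_comap (f := UpperHalfPlane.im) (x := atTop)).eventually
        (eventually_ge_atTop 1)
    filter_upwards [hev] with z hz
    rw [Real.norm_of_nonneg (Real.exp_pos _).le]
    exact hgrow z hz
  have h4 := h3.mul h2
  rw [IsBoundedAtImInfty, BoundedAtFilter]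
  refine h4.trans (Asymptotics.IsBigO.of_bound 1 (Filter.Eventually.of_forall fun z => ?_))
  rw [← Real.exp_nat_mul, ← Real.exp_add]
  have : 2 * π * M * z.im + M * (-2 * π * z.im / 1) = 0 := by ring
  rw [this]
  simp

/-- The level one modular form `h Δ^M` attached to an invariant function of moderate growth. -/
noncomputable def invPolyForm (h : ℍ → ℂ) (hh : MDifferentiable 𝓘(ℂ) 𝓘(ℂ) h)
    (hinv : ∀ (γ : SL(2, ℤ)) (z : ℍ), h (γ • z) = h z) (M : ℕ) (C : ℝ)
    (hgrow : ∀ z : ℍ, 1 ≤ z.im → ‖h z‖ ≤ C * Real.exp (2 * π * M * z.im)) :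
    ModularForm 𝒮ℒ ((12 * M : ℕ) : ℤ) where
  toFun z := h z * Δ z ^ M
  slash_action_eq' := fun _ ⟨γ, hγ⟩ => hγ ▸ invPoly_slash h hinv M γ
  holo' := hh.mul (CuspForm.discriminant.holo'.pow M)
  bdd_at_cusps' {c} hc := by
    rw [Subgroup.IsArithmetic.isCusp_iff_isCusp_SL2Z] at hc
    rw [OnePoint.isBoundedAt_iff_forall_SL2Z hc]
    intro γ _
    rw [invPoly_slash h hinv M γ]
    exact invPoly_isBoundedAtImInfty h M C hgrow

/-- An `SL(2, ℤ)`-invariant holomorphic function on `ℍ` of exponential growth of order `M` at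
`i∞` is, after multiplication by `Δ^M`, a combination of the `E₄^(3a) Δ^(M-a)`. -/
theorem exists_coeff_of_invariant (h : ℍ → ℂ) (hh : MDifferentiable 𝓘(ℂ) 𝓘(ℂ) h)
    (hinv : ∀ (γ : SL(2, ℤ)) (z : ℍ), h (γ • z) = h z) (M : ℕ) (C : ℝ)
    (hgrow : ∀ z : ℍ, 1 ≤ z.im → ‖h z‖ ≤ C * Real.exp (2 * π * M * z.im)) :
    ∃ c : ℕ → ℂ, ∀ z : ℍ,
      h z * Δ z ^ M = ∑ a ∈ Finset.range (M + 1), c a * E₄ z ^ (3 * a) * Δ z ^ (M - a) :=
  exists_coeff_of_modularForm_levelOne M (invPolyForm h hh hinv M C hgrow)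

/-- An `SL(2, ℤ)`-invariant holomorphic function on `ℍ` of exponential growth of order `M` at
`i∞` is a polynomial of degree at most `M` in `j = E₄^3 / Δ`. -/
theorem exists_polynomial_of_invariant (h : ℍ → ℂ) (hh : MDifferentiable 𝓘(ℂ) 𝓘(ℂ) h)
    (hinv : ∀ (γ : SL(2, ℤ)) (z : ℍ), h (γ • z) = h z) (M : ℕ) (C : ℝ)
    (hgrow : ∀ z : ℍ, 1 ≤ z.im → ‖h z‖ ≤ C * Real.exp (2 * π * M * z.im)) :
    ∃ p : Polynomial ℂ, p.natDegree ≤ M ∧ ∀ z : ℍ, h z = p.eval (E₄ z ^ 3 / Δ z) := by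
  obtain ⟨c, hc⟩ := exists_coeff_of_invariant h hh hinv M C hgrow
  refine ⟨∑ a ∈ Finset.range (M + 1), Polynomial.C (c a) * Polynomial.X ^ a, ?_, fun z => ?_⟩
  · refine Polynomial.natDegree_sum_le_of_forall_le _ _ fun a ha => ?_
    refine (Polynomial.natDegree_C_mul_X_pow_le _ _).trans ?_
    exact Nat.lt_succ_iff.mp (Finset.mem_range.mp ha)
  · have hΔ : Δ z ≠ 0 := discriminant_ne_zero z
    have hΔM : Δ z ^ M ≠ 0 := pow_ne_zero _ hΔ
    rw [Polynomial.eval_finsetSum, eq_comm, ← mul_left_inj' hΔM, hc z, Finset.sum_mul]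
    refine Finset.sum_congr rfl fun a ha => ?_
    have ha' : a ≤ M := Nat.lt_succ_iff.mp (Finset.mem_range.mp ha)
    obtain ⟨b, rfl⟩ := Nat.exists_eq_add_of_le ha'
    simp only [Polynomial.eval_mul, Polynomial.eval_C, Polynomial.eval_pow, Polynomial.eval_X,
      Nat.add_sub_cancel_left]
    rw [div_pow, pow_add, ← pow_mul]
    field_simp

end Fermat.Agent.S23
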