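import Mathlib.NumberTheory.ModularForms.QExpansion
import Mathlib.NumberTheory.ModularForms.CongruenceSubgroups
import Mathlib.NumberTheory.ModularForms.LevelOne.Basic
import Fermat.Prelude.Thm_CongruenceSubgroup_one_mem_strictPeriods_Gamma0

/-!
# S23, package (c): the conjugation calculus

* `Fermat.Agent.S23.Nice φ`: `φ : ℍ → ℂ` is holomorphic, `1`-periodic and bounded at `i∞`.
  On nice functions `qExpansion 1` is an injective ring homomorphism into `PowerSeries ℂ`.
* `Fermat.Agent.S23.IsConj σ φ ψ`: `φ`, `ψ` are nice and the `q`-expansion of `ψ` is the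
  `q`-expansion of `φ` with `σ : ℂ →+* ℂ` applied to every coefficient.
  Closed under `+`, `*`, `-`, powers, finite sums and products, `σ`-twisted scalars.
* `IsConj.of_mul_eq`: the cancellation lemma used in the final step of (P3).
-/

set_option autoImplicit false

open UpperHalfPlane ModularForm CongruenceSubgroup
open scoped MatrixGroups ModularForm Manifold

namespace Fermat.Agent.S23

/-- Holomorphic, `1`-periodic, bounded at `i∞`. -/
structure Nice (φ : ℍ → ℂ) : Prop where
  mdiff : MDiff φ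
  periodic : Function.Periodic (φ ∘ ofComplex) 1
  bdd : IsBoundedAtImInfty φ

namespace Nice

variable {φ ψ : ℍ → ℂ}

theorem analyticAt (h : Nice φ) : AnalyticAt ℂ (cuspFunction 1 φ) 0 :=
  analyticAt_cuspFunction_zero one_pos (by simpa using h.periodic) h.mdiff h.bdd

theorem const (c : ℂ) : Nice (fun _ : ℍ => c) where
  mdiff := mdifferentiable_const
  periodic := fun _ => rfl
  bdd := Filter.const_boundedAtFilter _ c

theorem zero : Nice (0 : ℍ → ℂ) := const 0

theorem one : Nice (1 : ℍ → ℂ) := const 1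

theorem add (h : Nice φ) (h' : Nice ψ) : Nice (φ + ψ) where
  mdiff := h.mdiff.add h'.mdiff
  periodic := h.periodic.add h'.periodic
  bdd := h.bdd.add h'.bdd

theorem mul (h : Nice φ) (h' : Nice ψ) : Nice (φ * ψ) where
  mdiff := h.mdiff.mul h'.mdiff
  periodic := h.periodic.mul h'.periodic
  bdd := h.bdd.mul h'.bdd

theorem smul (c : ℂ) (h : Nice φ) : Nice (c • φ) := by
  have : c • φ = (fun _ : ℍ => c) * φ := by
    funext z
    simp
  rw [this]
  exact (const c).mul h

theorem neg (h : Nice φ) : Nice (-φ) := by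
  have : -φ = (-1 : ℂ) • φ := by
    funext z
    simp
  rw [this]
  exact h.smul _

theorem sub (h : Nice φ) (h' : Nice ψ) : Nice (φ - ψ) := by
  rw [sub_eq_add_neg]
  exact h.add h'.neg

theorem pow (h : Nice φ) (n : ℕ) : Nice (φ ^ n) := by
  induction n with
  | zero => simpa using one
  | succ n ih => rw [pow_succ]; exact ih.mul h

theorem sum {ι : Type*} (s : Finset ι) {F : ι → ℍ → ℂ} (h : ∀ i ∈ s, Nice (F i)) :
    Nice (∑ i ∈ s, F i) := by
  classical
  induction s using Finset.induction_on with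
  | empty => simpa using zero
  | insert a s ha ih =>
    rw [Finset.sum_insert ha]
    exact (h a (Finset.mem_insert_self a s)).add
      (ih fun i hi => h i (Finset.mem_insert_of_mem hi))

theorem prod {ι : Type*} (s : Finset ι) {F : ι → ℍ → ℂ} (h : ∀ i ∈ s, Nice (F i)) :
    Nice (∏ i ∈ s, F i) := by
  classical
  induction s using Finset.induction_on with
  | empty => simpa using one
  | insert a s ha ih =>
    rw [Finset.prod_insert ha]
    exact (h a (Finset.mem_insert_self a s)).mul
      (ih fun i hi => h i (Finset.mem_insert_of_mem hi))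

/-- Modular forms for a group with strict period `1` and cusp `∞` are nice. -/
theorem of_modularForm {F : Type*} [FunLike F ℍ ℂ] {Γ : Subgroup (GL (Fin 2) ℝ)} {k : ℤ}
    [ModularFormClass F Γ k] (h1 : (1 : ℝ) ∈ Γ.strictPeriods) (f : F) :
    Nice (f : ℍ → ℂ) where
  mdiff := ModularFormClass.holo f
  periodic := by
    simpa using SlashInvariantFormClass.periodic_comp_ofComplex (f := f) h1
  bdd :=
    haveI : Fact (IsCusp OnePoint.infty Γ) := ⟨Subgroup.isCusp_of_mem_strictPeriods one_pos h1⟩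
    ModularFormClass.bdd_at_infty f

/-- Level one modular forms are nice. -/
theorem of_levelOne {F : Type*} [FunLike F ℍ ℂ] {k : ℤ} [ModularFormClass F 𝒮ℒ k] (f : F) :
    Nice (f : ℍ → ℂ) :=
  of_modularForm one_mem_strictPeriods_SL f

/-- Modular forms on `Γ₀(N)` are nice. -/
theorem of_Gamma0 {F : Type*} [FunLike F ℍ ℂ] {N : ℕ} {k : ℤ}
    [ModularFormClass F (Gamma0 N) k] (f : F) : Nice (f : ℍ → ℂ) :=
  of_modularForm (CongruenceSubgroup.one_mem_strictPeriods_Gamma0 N) f

/-! ### `qExpansion 1` is a ring homomorphism on nice functions -/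

theorem qExpansion_add (h : Nice φ) (h' : Nice ψ) :
    qExpansion 1 (φ + ψ) = qExpansion 1 φ + qExpansion 1 ψ :=
  UpperHalfPlane.qExpansion_add h.analyticAt h'.analyticAt

theorem qExpansion_mul (h : Nice φ) (h' : Nice ψ) :
    qExpansion 1 (φ * ψ) = qExpansion 1 φ * qExpansion 1 ψ :=
  UpperHalfPlane.qExpansion_mul h.analyticAt h'.analyticAt

theorem qExpansion_smul (c : ℂ) (h : Nice φ) :
    qExpansion 1 (c • φ) = c • qExpansion 1 φ :=
  UpperHalfPlane.qExpansion_smul h.analyticAt c

theorem qExpansion_const (c : ℂ) :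
    qExpansion 1 (fun _ : ℍ => c) = PowerSeries.C c := by
  have h1 : (fun _ : ℍ => c) = c • (1 : ℍ → ℂ) := by
    funext z
    simp
  rw [h1, qExpansion_smul c one, UpperHalfPlane.qExpansion_one, PowerSeries.smul_eq_C_mul,
    mul_one]

theorem qExpansion_eq_zero_iff (h : Nice φ) : qExpansion 1 φ = 0 ↔ φ = 0 :=
  UpperHalfPlane.qExpansion_eq_zero_iff one_pos (by simpa using h.periodic) h.mdiff h.bdd

end Nice

/-- `ψ` is the `σ`-conjugate of `φ`: both are nice and the `q`-expansion of `ψ` is obtained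
from that of `φ` by applying `σ` to all coefficients. -/
structure IsConj (σ : ℂ →+* ℂ) (φ ψ : ℍ → ℂ) : Prop where
  left : Nice φ
  right : Nice ψ
  eq : qExpansion 1 ψ = (qExpansion 1 φ).map σ

namespace IsConj

variable {σ : ℂ →+* ℂ} {φ ψ φ' ψ' : ℍ → ℂ}

theorem const (σ : ℂ →+* ℂ) (c : ℂ) : IsConj σ (fun _ : ℍ => c) (fun _ : ℍ => σ c) where
  left := Nice.const c
  right := Nice.const (σ c)
  eq := by rw [Nice.qExpansion_const, Nice.qExpansion_const, PowerSeries.map_C]

theorem zero (σ : ℂ →+* ℂ) : IsConj σ (0 : ℍ → ℂ) (0 : ℍ → ℂ) := by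
  have h := const σ 0
  rw [map_zero] at h
  exact h

theorem one (σ : ℂ →+* ℂ) : IsConj σ (1 : ℍ → ℂ) (1 : ℍ → ℂ) := by
  have h := const σ 1
  rw [map_one] at h
  exact h

theorem add (h : IsConj σ φ ψ) (h' : IsConj σ φ' ψ') : IsConj σ (φ + φ') (ψ + ψ') where
  left := h.left.add h'.left
  right := h.right.add h'.right
  eq := by
    rw [Nice.qExpansion_add h.right h'.right, Nice.qExpansion_add h.left h'.left, map_add,
      h.eq, h'.eq]

theorem mul (h : IsConj σ φ ψ) (h' : IsConj σ φ' ψ') : IsConj σ (φ * φ') (ψ * ψ') where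
  left := h.left.mul h'.left
  right := h.right.mul h'.right
  eq := by
    rw [Nice.qExpansion_mul h.right h'.right, Nice.qExpansion_mul h.left h'.left, map_mul,
      h.eq, h'.eq]

theorem smul (c : ℂ) (h : IsConj σ φ ψ) : IsConj σ (c • φ) (σ c • ψ) := by
  have h1 : c • φ = (fun _ : ℍ => c) * φ := by
    funext z
    simp
  have h2 : σ c • ψ = (fun _ : ℍ => σ c) * ψ := by
    funext z
    simp
  rw [h1, h2]
  exact (const σ c).mul h

theorem neg (h : IsConj σ φ ψ) : IsConj σ (-φ) (-ψ) := by
  have h1 : -φ = (-1 : ℂ) • φ := by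
    funext z
    simp
  have h2 : -ψ = σ (-1 : ℂ) • ψ := by
    funext z
    simp
  rw [h1, h2]
  exact h.smul _

theorem sub (h : IsConj σ φ ψ) (h' : IsConj σ φ' ψ') : IsConj σ (φ - φ') (ψ - ψ') := by
  rw [sub_eq_add_neg, sub_eq_add_neg]
  exact h.add h'.neg

theorem pow (h : IsConj σ φ ψ) (n : ℕ) : IsConj σ (φ ^ n) (ψ ^ n) := by
  induction n with
  | zero => simpa using one σ
  | succ n ih => rw [pow_succ, pow_succ]; exact ih.mul h

theorem natCast_mul (n : ℕ) (h : IsConj σ φ ψ) :
    IsConj σ ((n : ℂ) • φ) ((n : ℂ) • ψ) := by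
  have := h.smul (n : ℂ)
  rwa [map_natCast] at this

theorem intCast_mul (n : ℤ) (h : IsConj σ φ ψ) :
    IsConj σ ((n : ℂ) • φ) ((n : ℂ) • ψ) := by
  have := h.smul (n : ℂ)
  rwa [map_intCast] at this

theorem sum {ι : Type*} (s : Finset ι) {F G : ι → ℍ → ℂ} (h : ∀ i ∈ s, IsConj σ (F i) (G i)) :
    IsConj σ (∑ i ∈ s, F i) (∑ i ∈ s, G i) := by
  classical
  induction s using Finset.induction_on with
  | empty => simpa using zero σ
  | insert a s ha ih =>
    rw [Finset.sum_insert ha, Finset.sum_insert ha]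
    exact (h a (Finset.mem_insert_self a s)).add
      (ih fun i hi => h i (Finset.mem_insert_of_mem hi))

theorem prod {ι : Type*} (s : Finset ι) {F G : ι → ℍ → ℂ} (h : ∀ i ∈ s, IsConj σ (F i) (G i)) :
    IsConj σ (∏ i ∈ s, F i) (∏ i ∈ s, G i) := by
  classical
  induction s using Finset.induction_on with
  | empty => simpa using one σ
  | insert a s ha ih =>
    rw [Finset.prod_insert ha, Finset.prod_insert ha]
    exact (h a (Finset.mem_insert_self a s)).mul
      (ih fun i hi => h i (Finset.mem_insert_of_mem hi))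

/-- Coefficientwise form of the defining equation. -/
theorem coeff (h : IsConj σ φ ψ) (n : ℕ) :
    (qExpansion 1 ψ).coeff n = σ ((qExpansion 1 φ).coeff n) := by
  rw [h.eq, PowerSeries.coeff_map]

/-- Constructor from the coefficientwise equation. -/
theorem of_coeff (hφ : Nice φ) (hψ : Nice ψ)
    (h : ∀ n : ℕ, (qExpansion 1 ψ).coeff n = σ ((qExpansion 1 φ).coeff n)) : IsConj σ φ ψ where
  left := hφ
  right := hψ
  eq := by
    ext n
    rw [h n, PowerSeries.coeff_map]

/-- A nice function with rational `q`-expansion is its own conjugate. -/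
theorem of_rat (σ : ℂ →+* ℂ) (hφ : Nice φ)
    (hr : ∀ n : ℕ, ∃ r : ℚ, (r : ℂ) = (qExpansion 1 φ).coeff n) : IsConj σ φ φ :=
  of_coeff hφ hφ fun n => by
    obtain ⟨r, hr⟩ := hr n
    rw [← hr, map_ratCast]

/-- The conjugate of `0` is `0`. -/
theorem eq_zero (h : IsConj σ φ ψ) (h0 : φ = 0) : ψ = 0 := by
  rw [← Nice.qExpansion_eq_zero_iff h.right, h.eq, h0, UpperHalfPlane.qExpansion_zero, map_zero]

/-- The conjugate of a non-zero function is non-zero. -/
theorem ne_zero (h : IsConj σ φ ψ) (h0 : φ ≠ 0) : ψ ≠ 0 := by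
  intro hψ
  apply h0
  rw [← Nice.qExpansion_eq_zero_iff h.left]
  ext n
  have h1 := h.coeff n
  rw [hψ, UpperHalfPlane.qExpansion_zero, map_zero] at h1
  rw [map_zero]
  exact (map_eq_zero σ).mp h1.symm

/-- Conjugates are unique. -/
theorem unique (h : IsConj σ φ ψ) (h' : IsConj σ φ ψ') : ψ = ψ' := by
  have h1 : qExpansion 1 (ψ - ψ') = 0 := by
    rw [sub_eq_add_neg, Nice.qExpansion_add h.right h'.right.neg]
    have : -ψ' = (-1 : ℂ) • ψ' := by
      funext z
      simp
    rw [this, Nice.qExpansion_smul _ h'.right, h.eq, h'.eq]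
    simp
  have h2 := (Nice.qExpansion_eq_zero_iff (h.right.sub h'.right)).mp h1
  exact sub_eq_zero.mp h2

/-- Two function equalities transport conjugacy. -/
theorem congr (h : IsConj σ φ ψ) (h1 : φ = φ') (h2 : ψ = ψ') : IsConj σ φ' ψ' := by
  subst h1 h2
  exact h

/-- **Cancellation**: if `f * D = Num`, `g * D' = Num'` with `D'`, `Num'` the conjugates of `D`,
`Num` and `D ≠ 0`, then `g` is the conjugate of `f`. -/
theorem of_mul_eq {f g D D' Num Num' : ℍ → ℂ} (hf : Nice f) (hg : Nice g)
    (hD : IsConj σ D D') (hNum : IsConj σ Num Num') (h1 : f * D = Num) (h2 : g * D' = Num')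
    (hD0 : D ≠ 0) : IsConj σ f g where
  left := hf
  right := hg
  eq := by
    have hD'0 : qExpansion 1 D' ≠ 0 := fun h =>
      hD.ne_zero hD0 ((Nice.qExpansion_eq_zero_iff hD.right).mp h)
    have e1 : qExpansion 1 g * qExpansion 1 D' = qExpansion 1 Num' := by
      rw [← Nice.qExpansion_mul hg hD.right, h2]
    have e2 : (qExpansion 1 f).map σ * qExpansion 1 D' = qExpansion 1 Num' := by
      rw [hD.eq, ← map_mul, ← Nice.qExpansion_mul hf hD.left, h1, hNum.eq]
    exact mul_right_cancel₀ hD'0 (e1.trans e2.symm)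

end IsConj

end Fermat.Agent.S23
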