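/-
S23 project, package (b): coset families.  For a modular form `H` of weight `w` and a cusp form
`f` of weight `2` on `Γ₀(N)`, the norm polynomial of the translates of `f` and the Lagrange
interpolation numerators of `f` (resp. `1`) against the translates of `H` have level one
cusp forms / modular forms as coefficients.
-/
import Mathlib.NumberTheory.ModularForms.NormTrace
import Mathlib.NumberTheory.ModularForms.CongruenceSubgroups
import Fermat.Agent.S23.CosetAlg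

set_option autoImplicit false
set_option linter.unusedSectionVars false

namespace Fermat.Agent.S23

open UpperHalfPlane ModularForm SlashInvariantForm CongruenceSubgroup Matrix.SpecialLinearGroup
  Filter Polynomial
open scoped MatrixGroups Manifold Topology

namespace Coset

/-! ### Holomorphic functions form a domain -/

theorem mdiff_eq_zero_of_eventually {u : ℍ → ℂ} (hu : MDiff u) {z₀ : ℍ}
    (h : ∀ᶠ z in 𝓝 z₀, u z = 0) : u = 0 := by
  have hd : DifferentiableOn ℂ (u ∘ ofComplex) {z : ℂ | 0 < z.im} :=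
    UpperHalfPlane.mdifferentiable_iff.mp hu
  have hopen : IsOpen {z : ℂ | 0 < z.im} := isOpen_lt continuous_const Complex.continuous_im
  have han : AnalyticOnNhd ℂ (u ∘ ofComplex) {z : ℂ | 0 < z.im} := hd.analyticOnNhd hopen
  have hconn : IsPreconnected {z : ℂ | 0 < z.im} := (convex_halfSpace_im_gt 0).isPreconnected
  have hev : (u ∘ ofComplex) =ᶠ[𝓝 (z₀ : ℂ)] 0 := by
    have h1 : Tendsto ofComplex (𝓝 (z₀ : ℂ)) (𝓝 z₀) := by
      have := (UpperHalfPlane.contMDiffAt_ofComplex (n := 0) z₀.im_pos).continuousAt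
      simpa [ContinuousAt, ofComplex_apply] using this
    exact h1.eventually h
  have key := han.eqOn_zero_of_preconnected_of_eventuallyEq_zero hconn z₀.im_pos hev
  funext z
  have := key z.im_pos
  simpa [ofComplex_apply] using this

theorem mdiff_mul_eq_zero {u v : ℍ → ℂ} (hu : MDiff u) (hv : MDiff v)
    (h : ∀ z, u z * v z = 0) : u = 0 ∨ v = 0 := by
  by_cases hv0 : v = 0
  · exact Or.inr hv0
  left
  obtain ⟨z₀, hz₀⟩ : ∃ z, v z ≠ 0 := by
    by_contra hcon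
    push Not at hcon
    exact hv0 (funext hcon)
  have hcont : Continuous v := hv.continuous
  have : ∀ᶠ z in 𝓝 z₀, v z ≠ 0 := hcont.continuousAt.eventually_ne hz₀
  refine mdiff_eq_zero_of_eventually hu (z₀ := z₀) ?_
  filter_upwards [this] with z hz
  exact (mul_eq_zero.mp (h z)).resolve_right hz

/-! ### Level one forms from invariant functions -/

/-- A holomorphic `SL(2, ℤ)`-invariant function of weight `k` bounded at `i∞` is a level one
modular form. -/
noncomputable def mkLevelOne (k : ℤ) (u : ℍ → ℂ) (hol : MDiff u)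
    (hinv : ∀ γ : SL(2, ℤ), u ∣[k] γ = u) (hb : IsBoundedAtImInfty u) : ModularForm 𝒮ℒ k where
  toFun := u
  slash_action_eq' A hA := by
    obtain ⟨γ, rfl⟩ := hA
    exact hinv γ
  holo' := hol
  bdd_at_cusps' hc := by
    rw [OnePoint.isBoundedAt_iff_forall_SL2Z hc]
    intro γ _
    rw [hinv γ]
    exact hb

/-- A holomorphic `SL(2, ℤ)`-invariant function of weight `k` vanishing at `i∞` is a level one
cusp form. -/
noncomputable def mkLevelOneCusp (k : ℤ) (u : ℍ → ℂ) (hol : MDiff u)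
    (hinv : ∀ γ : SL(2, ℤ), u ∣[k] γ = u) (hz : IsZeroAtImInfty u) : CuspForm 𝒮ℒ k where
  toFun := u
  slash_action_eq' A hA := by
    obtain ⟨γ, rfl⟩ := hA
    exact hinv γ
  holo' := hol
  zero_at_cusps' hc := by
    rw [OnePoint.isZeroAt_iff_forall_SL2Z hc]
    intro γ _
    rw [hinv γ]
    exact hz

@[simp] theorem mkLevelOne_apply (k : ℤ) (u : ℍ → ℂ) (hol : MDiff u)
    (hinv : ∀ γ : SL(2, ℤ), u ∣[k] γ = u) (hb : IsBoundedAtImInfty u) (z : ℍ) :
    mkLevelOne k u hol hinv hb z = u z := rfl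

@[simp] theorem mkLevelOneCusp_apply (k : ℤ) (u : ℍ → ℂ) (hol : MDiff u)
    (hinv : ∀ γ : SL(2, ℤ), u ∣[k] γ = u) (hz : IsZeroAtImInfty u) (z : ℍ) :
    mkLevelOneCusp k u hol hinv hz z = u z := rfl

/-! ### The algebra of holomorphic functions bounded at `i∞` -/

/-- Holomorphic functions on `ℍ` bounded at `i∞`. -/
def HB : Subalgebra ℂ (ℍ → ℂ) where
  carrier := {u | MDiff u ∧ IsBoundedAtImInfty u}
  mul_mem' := fun hu hv => ⟨hu.1.mul hv.1, hu.2.mul hv.2⟩
  add_mem' := fun hu hv => ⟨hu.1.add hv.1, hu.2.add hv.2⟩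
  algebraMap_mem' := fun c => ⟨mdifferentiable_const, Filter.const_boundedAtFilter _ c⟩

/-- The ideal of functions vanishing at `i∞`. -/
def HZ : Ideal HB where
  carrier := {u | IsZeroAtImInfty (u : ℍ → ℂ)}
  add_mem' := fun hu hv => ZeroAtFilter.add hu hv
  zero_mem' := zero_zeroAtFilter _
  smul_mem' := fun c u hu => by
    show IsZeroAtImInfty ((c : ℍ → ℂ) * (u : ℍ → ℂ))
    exact BoundedAtFilter.mul_zeroAtFilter c.2.2 hu

/-- Evaluation at a point as a ring homomorphism. -/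
def evAt (z : ℍ) : HB →+* ℂ := (Pi.evalRingHom (fun _ : ℍ => ℂ) z).comp HB.val.toRingHom

@[simp] theorem evAt_apply (z : ℍ) (u : HB) : evAt z u = (u : ℍ → ℂ) z := rfl

theorem coeff_mem_HZ_of_map_eq_X_pow {P : HB[X]} {n : ℕ}
    (h : P.map (Ideal.Quotient.mk HZ) = X ^ n) {j : ℕ} (hj : j ≠ n) : P.coeff j ∈ HZ := by
  have := congrArg (fun p => p.coeff j) h
  simp only [coeff_map, coeff_X_pow, if_neg hj] at this
  exact Ideal.Quotient.eq_zero_iff_mem.mp this

/-! ### Coset families -/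

section Level

variable (N : ℕ) [NeZero N]

/-- The coset space `SL(2, ℤ) / Γ₀(N)` (in Mathlib's `NormTrace` formalism). -/
abbrev Q : Type := 𝒮ℒ ⧸ (Gamma0 N : Subgroup (GL (Fin 2) ℝ)).subgroupOf 𝒮ℒ

/-- An element of `SL(2, ℤ)` as an element of the subgroup `𝒮ℒ` of `GL(2, ℝ)`. -/
def toSL (γ : SL(2, ℤ)) : 𝒮ℒ := ⟨mapGL ℝ γ, ⟨γ, rfl⟩⟩

variable {N} {F : Type*} [FunLike F ℍ ℂ] {k : ℤ}

local notation "Γ" => (Gamma0 N : Subgroup (GL (Fin 2) ℝ))

theorem quotientFunc_smul_apply [SlashInvariantFormClass F Γ k] (θ : F) (γ : SL(2, ℤ))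
    (q : Q N) (z : ℍ) :
    quotientFunc θ q (γ • z) = denom γ z ^ k * quotientFunc θ ((toSL γ)⁻¹ • q) z := by
  have h1 := quotientFunc_smul θ (ℋ := 𝒮ℒ) (h := mapGL ℝ γ) ⟨γ, rfl⟩ q
  have h2 := SL_slash_apply (k := k) (quotientFunc θ q) γ z
  have hd : denom γ z ≠ 0 := denom_ne_zero _ z
  have h3 : quotientFunc θ q ∣[k] γ = quotientFunc θ ((toSL γ)⁻¹ • q) := h1
  rw [h3] at h2
  rw [h2, mul_comm, mul_assoc, ← zpow_add₀ hd]
  simp

theorem quotientFunc_one [SlashInvariantFormClass F Γ k] (θ : F) :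
    quotientFunc θ ((1 : 𝒮ℒ) : Q N) = ⇑θ := by
  have := quotientFunc_mk (𝒢 := Γ) (ℋ := 𝒮ℒ) θ (1 : 𝒮ℒ)
  rw [show ((1 : 𝒮ℒ) : Q N) = ⟦(1 : 𝒮ℒ)⟧ from rfl, this]
  simp

theorem exists_quotientFunc_eq [SlashInvariantFormClass F Γ k] (θ : F) (q : Q N) :
    ∃ g : SL(2, ℤ), quotientFunc θ q = ⇑θ ∣[k] g ∧ (q = ((1 : 𝒮ℒ) : Q N) ↔ g ∈ Gamma0 N) := by
  induction q using Quotient.inductionOn with
  | h r =>
    obtain ⟨g, hg⟩ : ∃ g : SL(2, ℤ), mapGL ℝ g = r.val⁻¹ := (r⁻¹).2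
    refine ⟨g, ?_, ?_⟩
    · rw [quotientFunc_mk, ← hg]; rfl
    · have e1 : ((⟦r⟧ : Q N) = ((1 : 𝒮ℒ) : Q N)) ↔ r ∈ Subgroup.subgroupOf Γ 𝒮ℒ := by
        rw [show ((1 : 𝒮ℒ) : Q N) = ⟦(1 : 𝒮ℒ)⟧ from rfl, eq_comm, Quotient.eq,
          QuotientGroup.leftRel_apply]
        simp
      rw [e1, Subgroup.mem_subgroupOf, Subgroup.mem_map]
      constructor
      · rintro ⟨x, hx, hxr⟩
        have : g = x⁻¹ := by
          apply mapGL_injective (R := ℤ) (S := ℝ) (n := Fin 2)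
          rw [hg, map_inv, hxr]
        rw [this]
        exact inv_mem hx
      · intro hgm
        refine ⟨g⁻¹, inv_mem hgm, ?_⟩
        rw [map_inv, hg, inv_inv]

theorem mdiff_quotientFunc [ModularFormClass F Γ k] (θ : F) (q : Q N) :
    MDiff (quotientFunc θ q) := by
  obtain ⟨g, hg, -⟩ := exists_quotientFunc_eq θ q
  rw [hg]
  exact (ModularFormClass.holo θ).slash k _

theorem isBoundedAtImInfty_quotientFunc [ModularFormClass F Γ k] (θ : F) (q : Q N) :
    IsBoundedAtImInfty (quotientFunc θ q) := by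
  obtain ⟨g, hg, -⟩ := exists_quotientFunc_eq θ q
  rw [hg]
  exact ModularFormClass.bdd_at_infty_slash θ g

theorem isZeroAtImInfty_quotientFunc [CuspFormClass F Γ k] (θ : F) (q : Q N) :
    IsZeroAtImInfty (quotientFunc θ q) := by
  obtain ⟨g, hg, -⟩ := exists_quotientFunc_eq θ q
  rw [hg]
  exact CuspFormClass.zero_at_infty_slash θ g

/-- The translates of a modular form, as elements of `HB`. -/
noncomputable def trHB [ModularFormClass F Γ k] (θ : F) (q : Q N) : HB :=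
  ⟨quotientFunc θ q, mdiff_quotientFunc θ q, isBoundedAtImInfty_quotientFunc θ q⟩

theorem trHB_mem_HZ [CuspFormClass F Γ k] (θ : F) (q : Q N) : trHB θ q ∈ HZ :=
  isZeroAtImInfty_quotientFunc θ q

end Level

/-! ### Invariance of the coefficients -/

section Main

variable {N : ℕ} [NeZero N]

local notation "Γ" => (Gamma0 N : Subgroup (GL (Fin 2) ℝ))

noncomputable local instance instFintypeQ : Fintype (Q N) := Fintype.ofFinite _

open Classical in
noncomputable local instance instDecEqQ : DecidableEq (Q N) := inferInstance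

/-- A family in `HB` indexed by cosets which transforms with weight `k` under `SL(2, ℤ)`. -/
def IsFam (k : ℤ) (a : Q N → HB) : Prop :=
  ∀ (γ : SL(2, ℤ)) (q : Q N) (z : ℍ),
    (a q : ℍ → ℂ) (γ • z) = denom γ z ^ k * (a ((toSL γ)⁻¹ • q) : ℍ → ℂ) z

theorem isFam_trHB {F : Type*} [FunLike F ℍ ℂ] {k : ℤ} [ModularFormClass F Γ k] (θ : F) :
    IsFam k (trHB (N := N) θ) :=
  fun γ q z => quotientFunc_smul_apply θ γ q z

theorem isFam_one : IsFam 0 (fun _ : Q N => (1 : HB)) := by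
  intro γ q z
  simp

theorem coeff_NP_eq (a : Q N → HB) (j : ℕ) (w : ℍ) :
    ((NP a).coeff j : ℍ → ℂ) w = (NP (fun q => (a q : ℍ → ℂ) w)).coeff j := by
  rw [← evAt_apply, ← coeff_map, NP_map]
  rfl

theorem coeff_IP_eq (a b : Q N → HB) (j : ℕ) (w : ℍ) :
    ((IP a b).coeff j : ℍ → ℂ) w =
      (IP (fun q => (a q : ℍ → ℂ) w) (fun q => (b q : ℍ → ℂ) w)).coeff j := by
  rw [← evAt_apply, ← coeff_map, IP_map]
  rfl

theorem coeff_NP_apply_smul {k : ℤ} {a : Q N → HB} (ha : IsFam k a) (γ : SL(2, ℤ)) (z : ℍ)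
    (j : ℕ) (hj : j ≤ Fintype.card (Q N)) :
    ((NP a).coeff j : ℍ → ℂ) (γ • z) =
      (denom γ z ^ k) ^ (Fintype.card (Q N) - j) * ((NP a).coeff j : ℍ → ℂ) z := by
  rw [coeff_NP_eq, coeff_NP_eq]
  have e : (fun q => (a q : ℍ → ℂ) (γ • z)) =
      fun q => (fun q' => denom γ z ^ k * (a q' : ℍ → ℂ) z) (MulAction.toPerm (toSL γ)⁻¹ q) :=
    funext fun q => ha γ q z
  rw [e, NP_comp_equiv (MulAction.toPerm (toSL γ)⁻¹) (fun q' => denom γ z ^ k * (a q' : ℍ → ℂ) z)]
  exact coeff_NP_smul _ (zpow_ne_zero _ (denom_ne_zero _ _)) _ j hj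

theorem coeff_IP_apply_smul {k k' : ℤ} {a b : Q N → HB} (ha : IsFam k a) (hb : IsFam k' b)
    (γ : SL(2, ℤ)) (z : ℍ) (j : ℕ) (hj : j < Fintype.card (Q N)) :
    ((IP a b).coeff j : ℍ → ℂ) (γ • z) =
      denom γ z ^ k' * (denom γ z ^ k) ^ (Fintype.card (Q N) - 1 - j) *
        ((IP a b).coeff j : ℍ → ℂ) z := by
  rw [coeff_IP_eq, coeff_IP_eq]
  have e : (fun q => (a q : ℍ → ℂ) (γ • z)) =
      fun q => (fun q' => denom γ z ^ k * (a q' : ℍ → ℂ) z) (MulAction.toPerm (toSL γ)⁻¹ q) :=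
    funext fun q => ha γ q z
  have e' : (fun q => (b q : ℍ → ℂ) (γ • z)) =
      fun q => (fun q' => denom γ z ^ k' * (b q' : ℍ → ℂ) z) (MulAction.toPerm (toSL γ)⁻¹ q) :=
    funext fun q => hb γ q z
  rw [e, e', IP_comp_equiv (MulAction.toPerm (toSL γ)⁻¹)
    (fun q' => denom γ z ^ k * (a q' : ℍ → ℂ) z) (fun q' => denom γ z ^ k' * (b q' : ℍ → ℂ) z)]
  exact coeff_IP_smul _ _ (zpow_ne_zero _ (denom_ne_zero _ _)) _ _ j hj

theorem slash_coeff_NP {k : ℤ} {a : Q N → HB} (ha : IsFam k a) (γ : SL(2, ℤ))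
    (j : ℕ) (hj : j ≤ Fintype.card (Q N)) :
    ((NP a).coeff j : ℍ → ℂ) ∣[k * ((Fintype.card (Q N) - j : ℕ) : ℤ)] γ =
      ((NP a).coeff j : ℍ → ℂ) := by
  ext z
  have hd : denom γ z ≠ 0 := denom_ne_zero _ z
  rw [SL_slash_apply, coeff_NP_apply_smul ha γ z j hj, ← zpow_natCast, ← zpow_mul, mul_right_comm,
    ← zpow_add₀ hd, add_neg_cancel, zpow_zero, one_mul]

theorem slash_coeff_IP {k k' : ℤ} {a b : Q N → HB} (ha : IsFam k a) (hb : IsFam k' b)
    (γ : SL(2, ℤ)) (j : ℕ) (hj : j < Fintype.card (Q N)) :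
    ((IP a b).coeff j : ℍ → ℂ) ∣[k' + k * ((Fintype.card (Q N) - 1 - j : ℕ) : ℤ)] γ =
      ((IP a b).coeff j : ℍ → ℂ) := by
  ext z
  have hd : denom γ z ≠ 0 := denom_ne_zero _ z
  rw [SL_slash_apply, coeff_IP_apply_smul ha hb γ z j hj, ← zpow_natCast, ← zpow_mul,
    ← zpow_add₀ hd, mul_right_comm, ← zpow_add₀ hd, add_neg_cancel, zpow_zero, one_mul]

theorem coeff_NP_mem_HZ {a : Q N → HB} (ha : ∀ q, a q ∈ HZ) {j : ℕ}
    (hj : j ≠ Fintype.card (Q N)) : (NP a).coeff j ∈ HZ := by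
  refine coeff_mem_HZ_of_map_eq_X_pow (n := Fintype.card (Q N)) ?_ hj
  rw [NP_map (S := HB ⧸ HZ) (Ideal.Quotient.mk HZ) a]
  have : (fun q => Ideal.Quotient.mk HZ (a q)) = fun _ => 0 :=
    funext fun q => Ideal.Quotient.eq_zero_iff_mem.mpr (ha q)
  rw [this, NP]
  simp

theorem coeff_IP_mem_HZ (a : Q N → HB) {b : Q N → HB} (hb : ∀ q, b q ∈ HZ) (j : ℕ) :
    (IP a b).coeff j ∈ HZ := by
  have h : (IP a b).map (Ideal.Quotient.mk HZ) = 0 := by
    rw [IP_map (S := HB ⧸ HZ) (Ideal.Quotient.mk HZ) a b]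
    have : (fun q => Ideal.Quotient.mk HZ (b q)) = fun _ => 0 :=
      funext fun q => Ideal.Quotient.eq_zero_iff_mem.mpr (hb q)
    rw [this, IP]
    simp
  have := congrArg (fun p => p.coeff j) h
  simp only [coeff_map, coeff_zero] at this
  exact Ideal.Quotient.eq_zero_iff_mem.mp this

theorem prod_ne_zero_of_mdiff {ι : Type*} [DecidableEq ι] (s : Finset ι) (u : ι → ℍ → ℂ)
    (hu : ∀ i ∈ s, MDiff (u i)) (hne : ∀ i ∈ s, u i ≠ 0) :
    MDiff (fun z => ∏ i ∈ s, u i z) ∧ (fun z => ∏ i ∈ s, u i z) ≠ 0 := by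
  induction s using Finset.induction_on with
  | empty =>
    refine ⟨by simpa using mdifferentiable_const, fun h => ?_⟩
    have := congrFun h UpperHalfPlane.I
    simp at this
  | insert i s hi ih =>
    obtain ⟨h1, h2⟩ := ih (fun j hj => hu j (Finset.mem_insert_of_mem hj))
      (fun j hj => hne j (Finset.mem_insert_of_mem hj))
    have hi1 := hu i (Finset.mem_insert_self i s)
    have hi2 := hne i (Finset.mem_insert_self i s)
    refine ⟨?_, ?_⟩
    · simp_rw [Finset.prod_insert hi]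
      exact hi1.mul h1
    · intro h
      rcases mdiff_mul_eq_zero hi1 h1 (fun z => by
        have := congrFun h z
        simpa [Finset.prod_insert hi] using this) with h0 | h0
      · exact hi2 h0
      · exact h2 h0

end Main

end Coset

open Coset in
/-- **Coset data.** For a modular form `H` of weight `w` on `Γ₀(N)` whose translates by
`SL(2, ℤ)` outside `Γ₀(N)` differ from `H`, and a cusp form `f` of weight `2` on `Γ₀(N)`:
there are pointwise polynomials `P` (monic of degree `μ`, killing `f`), `L`, `Ψ` (of degree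
`< μ`, with `L(H) = f * Ψ(H)` and `Ψ(H) ≢ 0`) whose coefficient functions are level one
cusp forms / modular forms. -/
theorem exists_coset_data {N : ℕ} [NeZero N] {w : ℤ} (H : ModularForm (Gamma0 N) w)
    (f : CuspForm (Gamma0 N) 2)
    (hsep : ∀ g : SL(2, ℤ), g ∉ Gamma0 N → (⇑H ∣[w] g) ≠ ⇑H) :
    ∃ (μ : ℕ) (P L Ψ : ℍ → Polynomial ℂ), 0 < μ ∧
      (∀ z, (P z).Monic ∧ (P z).natDegree = μ ∧ (P z).eval (f z) = 0) ∧
      (∀ m, m < μ → ∃ e : CuspForm 𝒮ℒ (2 * ((μ - m : ℕ) : ℤ)), ∀ z, e z = (P z).coeff m) ∧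
      (∀ z, (L z).natDegree < μ ∧ (Ψ z).natDegree < μ ∧
        (L z).eval (H z) = f z * (Ψ z).eval (H z)) ∧
      (∀ j, j < μ → ∃ e : CuspForm 𝒮ℒ (2 + w * ((μ - 1 - j : ℕ) : ℤ)),
        ∀ z, e z = (L z).coeff j) ∧
      (∀ j, j < μ → ∃ e : ModularForm 𝒮ℒ (w * ((μ - 1 - j : ℕ) : ℤ)),
        ∀ z, e z = (Ψ z).coeff j) ∧
      (∃ z, (Ψ z).eval (H z) ≠ 0) := by
  classical
  let _ : Fintype (Q N) := Fintype.ofFinite _
  have hμ : 0 < Fintype.card (Q N) := Fintype.card_pos_iff.mpr ⟨((1 : 𝒮ℒ) : Q N)⟩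
  have hH1 : ∀ z, quotientFunc H ((1 : 𝒮ℒ) : Q N) z = H z := fun z => by rw [quotientFunc_one]
  have hf1 : ∀ z, quotientFunc f ((1 : 𝒮ℒ) : Q N) z = f z := fun z => by rw [quotientFunc_one]
  refine ⟨Fintype.card (Q N), fun z => NP (fun q : Q N => quotientFunc f q z),
    fun z => IP (fun q : Q N => quotientFunc H q z) (fun q : Q N => quotientFunc f q z),
    fun z => IP (fun q : Q N => quotientFunc H q z) (fun _ => 1), hμ, ?_, ?_, ?_, ?_, ?_, ?_⟩
  · intro z
    refine ⟨NP_monic _, NP_natDegree _, ?_⟩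
    rw [← hf1 z]
    exact eval_NP_self (fun q : Q N => quotientFunc f q z) _
  · intro m hm
    refine ⟨mkLevelOneCusp _ ((NP (trHB (N := N) f)).coeff m : ℍ → ℂ)
      ((NP (trHB (N := N) f)).coeff m).2.1
      (fun γ => slash_coeff_NP (isFam_trHB f) γ m hm.le)
      (coeff_NP_mem_HZ (fun q => trHB_mem_HZ f q) hm.ne), fun z => ?_⟩
    rw [mkLevelOneCusp_apply, coeff_NP_eq]
    rfl
  · intro z
    refine ⟨natDegree_IP_lt _ _ hμ, natDegree_IP_lt _ _ hμ, ?_⟩
    have e1 := eval_IP_self (fun q : Q N => quotientFunc H q z)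
      (fun q : Q N => quotientFunc f q z) ((1 : 𝒮ℒ) : Q N)
    have e2 := eval_IP_one_self (fun q : Q N => quotientFunc H q z) ((1 : 𝒮ℒ) : Q N)
    simp only [hH1 z, hf1 z] at e1 e2
    rw [e1, e2]
  · intro j hj
    refine ⟨mkLevelOneCusp _ ((IP (trHB (N := N) H) (trHB (N := N) f)).coeff j : ℍ → ℂ)
      ((IP (trHB (N := N) H) (trHB (N := N) f)).coeff j).2.1
      (fun γ => slash_coeff_IP (isFam_trHB H) (isFam_trHB f) γ j hj)
      (coeff_IP_mem_HZ _ (fun q => trHB_mem_HZ f q) j), fun z => ?_⟩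
    rw [mkLevelOneCusp_apply, coeff_IP_eq]
    rfl
  · intro j hj
    refine ⟨mkLevelOne _ ((IP (trHB (N := N) H) (fun _ => 1)).coeff j : ℍ → ℂ)
      ((IP (trHB (N := N) H) (fun _ => 1)).coeff j).2.1
      (fun γ => by
        have := slash_coeff_IP (isFam_trHB H) (isFam_one (N := N)) γ j hj
        rwa [zero_add] at this)
      ((IP (trHB (N := N) H) (fun _ => 1)).coeff j).2.2, fun z => ?_⟩
    rw [mkLevelOne_apply, coeff_IP_eq]
    rfl
  · have key := prod_ne_zero_of_mdiff (Finset.univ.erase (((1 : 𝒮ℒ) : Q N)))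
      (fun q z => H z - quotientFunc H q z)
      (fun q _ => (ModularFormClass.holo H).sub (mdiff_quotientFunc H q))
      (fun q hq => by
        obtain ⟨g, hg, hg1⟩ := exists_quotientFunc_eq H q
        have hq1 : q ≠ ((1 : 𝒮ℒ) : Q N) := (Finset.mem_erase.mp hq).1
        have hgN : g ∉ Gamma0 N := fun h => hq1 (hg1.mpr h)
        intro h0
        apply hsep g hgN
        rw [← hg]
        funext z
        have := congrFun h0 z
        simp only [Pi.zero_apply, sub_eq_zero] at this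
        exact this.symm)
    obtain ⟨z, hz⟩ : ∃ z, ∏ q ∈ Finset.univ.erase (((1 : 𝒮ℒ) : Q N)),
        (H z - quotientFunc H q z) ≠ 0 := by
      by_contra hcon
      push Not at hcon
      exact key.2 (funext hcon)
    refine ⟨z, ?_⟩
    have e2 := eval_IP_one_self (fun q : Q N => quotientFunc H q z) ((1 : 𝒮ℒ) : Q N)
    simp only [hH1 z] at e2
    rw [e2]
    exact hz

end Fermat.Agent.S23
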