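/-
S23 project, wiring part 1: the conjugated coset data.  From `exists_coset_data` (Coset),
level one conjugation (LevelOneConj) and the conjugation calculus (ConjCalc) we produce the
functions `U = Num^σ`, `V = D^σ` and the conjugated norm equation, in exactly the shape needed by
`exists_cuspForm_of_monic_equation'` (QuotCusp) and `IsConj.of_mul_eq` (ConjCalc).
-/
import Fermat.Agent.S23.Coset
import Fermat.Agent.S23.ConjCalc
import Fermat.Agent.S23.LevelOneConj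

set_option autoImplicit false

namespace Fermat.Agent.S23

open UpperHalfPlane ModularForm CongruenceSubgroup Matrix.SpecialLinearGroup Polynomial
open scoped MatrixGroups Manifold Topology

namespace CosetConj

theorem apply_smul_of_slash {F : ℍ → ℂ} {k : ℤ} {γ : SL(2, ℤ)} (h : F ∣[k] γ = F) (z : ℍ) :
    F (γ • z) = denom γ z ^ k * F z := by
  have h1 := congrFun h z
  rw [SL_slash_apply] at h1
  have hd : denom γ z ≠ 0 := denom_ne_zero _ z
  rw [← h1, mul_comm (F (γ • z)), ← mul_assoc, ← zpow_add₀ hd, add_neg_cancel, zpow_zero, one_mul]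

theorem slash_of_apply_smul {F : ℍ → ℂ} {k : ℤ} {γ : SL(2, ℤ)}
    (h : ∀ z, F (γ • z) = denom γ z ^ k * F z) : F ∣[k] γ = F := by
  funext z
  have hd : denom γ z ≠ 0 := denom_ne_zero _ z
  rw [SL_slash_apply, h z, mul_comm (denom γ z ^ k), mul_assoc, ← zpow_add₀ hd, add_neg_cancel,
    zpow_zero, mul_one]

/-- Slash invariance of `∑ j, e j * H ^ j` when `e j` is `SL(2, ℤ)`-invariant of weight
`k₀ + w * (n - j)` and `H` is `γ`-invariant of weight `w`. -/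
theorem slash_sum_mul_pow {n : ℕ} {w k₀ : ℤ} {γ : SL(2, ℤ)} (H : ℍ → ℂ) (hH : H ∣[w] γ = H)
    (e : Fin (n + 1) → ℍ → ℂ)
    (he : ∀ j : Fin (n + 1), e j ∣[k₀ + w * ((n - (j : ℕ) : ℕ) : ℤ)] γ = e j) :
    (∑ j : Fin (n + 1), e j * H ^ (j : ℕ)) ∣[k₀ + w * (n : ℤ)] γ =
      ∑ j : Fin (n + 1), e j * H ^ (j : ℕ) := by
  apply slash_of_apply_smul
  intro z
  have hd : denom γ z ≠ 0 := denom_ne_zero _ z
  simp only [Finset.sum_apply, Pi.mul_apply, Pi.pow_apply]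
  rw [Finset.mul_sum]
  refine Finset.sum_congr rfl fun j _ => ?_
  have hj : (j : ℕ) ≤ n := Nat.lt_succ_iff.mp j.2
  have e1 : k₀ + w * (n : ℤ) = (k₀ + w * ((n - (j : ℕ) : ℕ) : ℤ)) + w * ((j : ℕ) : ℤ) := by
    rw [Nat.cast_sub hj]; ring
  have e2 : denom γ z ^ (k₀ + w * (n : ℤ)) =
      denom γ z ^ (k₀ + w * ((n - (j : ℕ) : ℕ) : ℤ)) * (denom γ z ^ w) ^ (j : ℕ) := by
    rw [e1, zpow_add₀ hd, zpow_mul, zpow_natCast]
  rw [apply_smul_of_slash (he j) z, apply_smul_of_slash hH z, mul_pow, e2]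
  ring

end CosetConj

open CosetConj in
/-- **Conjugated coset data.** -/
theorem exists_conj_quotient_data {N : ℕ} [NeZero N] (σ : ℂ →+* ℂ) {w : ℤ}
    (H : ModularForm (Gamma0 N) w) (hH : IsConj σ ⇑H ⇑H) (f : CuspForm (Gamma0 N) 2)
    (hsep : ∀ g : SL(2, ℤ), g ∉ Gamma0 N → (⇑H ∣[w] g) ≠ ⇑H) :
    ∃ (μ : ℕ) (kV : ℤ) (U V D Num : ℍ → ℂ)
      (e : (m : Fin μ) → CuspForm 𝒮ℒ (2 * ((μ : ℤ) - ((m : ℕ) : ℤ)))),
      0 < μ ∧ MDiff U ∧ MDiff V ∧ V ≠ 0 ∧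
      (∀ γ ∈ Gamma0 N, U ∣[2 + kV] γ = U) ∧ (∀ γ ∈ Gamma0 N, V ∣[kV] γ = V) ∧
      (∀ z, U z ^ μ + ∑ m : Fin μ, e m z * U z ^ (m : ℕ) * V z ^ (μ - (m : ℕ)) = 0) ∧
      IsConj σ D V ∧ IsConj σ Num U ∧ ⇑f * D = Num ∧ D ≠ 0 := by
  obtain ⟨μ, P, L, Ψ, hμ, hP, hPc, hLΨ, hLc, hΨc, hne⟩ := exists_coset_data H f hsep
  obtain ⟨n, rfl⟩ : ∃ n, μ = n + 1 := ⟨μ - 1, by omega⟩
  -- level one forms and their conjugates
  choose p hp using fun m : Fin (n + 1) => hPc m m.2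
  choose l hl using fun j : Fin (n + 1) => hLc j j.2
  choose ψ hψ using fun j : Fin (n + 1) => hΨc j j.2
  choose p' hp' using fun m : Fin (n + 1) => exists_cuspForm_levelOne_conj σ (p m)
  choose l' hl' using fun j : Fin (n + 1) => exists_cuspForm_levelOne_conj σ (l j)
  choose ψ' hψ' using fun j : Fin (n + 1) => exists_modularForm_levelOne_conj σ (ψ j)
  have cp : ∀ m, IsConj σ ⇑(p m) ⇑(p' m) := fun m =>
    ⟨Nice.of_levelOne (p m), Nice.of_levelOne (p' m), hp' m⟩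
  have cl : ∀ j, IsConj σ ⇑(l j) ⇑(l' j) := fun j =>
    ⟨Nice.of_levelOne (l j), Nice.of_levelOne (l' j), hl' j⟩
  have cψ : ∀ j, IsConj σ ⇑(ψ j) ⇑(ψ' j) := fun j =>
    ⟨Nice.of_levelOne (ψ j), Nice.of_levelOne (ψ' j), hψ' j⟩
  -- the four functions
  set Num : ℍ → ℂ := ∑ j : Fin (n + 1), ⇑(l j) * ⇑H ^ (j : ℕ) with hNum
  set D : ℍ → ℂ := ∑ j : Fin (n + 1), ⇑(ψ j) * ⇑H ^ (j : ℕ) with hD
  set U : ℍ → ℂ := ∑ j : Fin (n + 1), ⇑(l' j) * ⇑H ^ (j : ℕ) with hU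
  set V : ℍ → ℂ := ∑ j : Fin (n + 1), ⇑(ψ' j) * ⇑H ^ (j : ℕ) with hV
  have cNum : IsConj σ Num U := IsConj.sum _ fun j _ => (cl j).mul (hH.pow _)
  have cD : IsConj σ D V := IsConj.sum _ fun j _ => (cψ j).mul (hH.pow _)
  -- pointwise values
  have hNumz : ∀ z, Num z = (L z).eval (H z) := by
    intro z
    rw [eval_eq_sum_range' (hLΨ z).1, Finset.sum_range]
    simp only [hNum, Finset.sum_apply, Pi.mul_apply, Pi.pow_apply, hl]
  have hDz : ∀ z, D z = (Ψ z).eval (H z) := by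
    intro z
    rw [eval_eq_sum_range' (hLΨ z).2.1, Finset.sum_range]
    simp only [hD, Finset.sum_apply, Pi.mul_apply, Pi.pow_apply, hψ]
  have hfD : ⇑f * D = Num := by
    funext z
    rw [Pi.mul_apply, hNumz, hDz, (hLΨ z).2.2]
  have hD0 : D ≠ 0 := by
    obtain ⟨z, hz⟩ := hne
    intro h0
    apply hz
    rw [← hDz, h0, Pi.zero_apply]
  -- the norm equation before conjugation
  have hPz : ∀ z x, (P z).eval x =
      x ^ (n + 1) + ∑ m : Fin (n + 1), p m z * x ^ (m : ℕ) := by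
    intro z x
    obtain ⟨hmon, hdeg, -⟩ := hP z
    conv_lhs => rw [hmon.as_sum, hdeg]
    simp only [eval_add, eval_pow, eval_X, eval_finsetSum, eval_mul, eval_C]
    rw [Finset.sum_range]
    simp only [hp]
  have hrel : Num ^ (n + 1) + ∑ m : Fin (n + 1), ⇑(p m) * Num ^ (m : ℕ) * D ^ (n + 1 - (m : ℕ))
      = 0 := by
    funext z
    have h0 := (hP z).2.2
    rw [hPz] at h0
    simp only [Pi.add_apply, Pi.pow_apply, Finset.sum_apply, Pi.mul_apply, Pi.zero_apply]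
    have hN : Num z = f z * D z := by rw [← hfD, Pi.mul_apply]
    rw [hN]
    have : (f z * D z) ^ (n + 1) + ∑ m : Fin (n + 1),
        p m z * (f z * D z) ^ (m : ℕ) * D z ^ (n + 1 - (m : ℕ)) =
        D z ^ (n + 1) * (f z ^ (n + 1) + ∑ m : Fin (n + 1), p m z * f z ^ (m : ℕ)) := by
      rw [mul_add, Finset.mul_sum, mul_pow]
      congr 1
      · ring
      · refine Finset.sum_congr rfl fun m _ => ?_
        have hm : (m : ℕ) ≤ n + 1 := m.2.le
        have : D z ^ (n + 1) = D z ^ (m : ℕ) * D z ^ (n + 1 - (m : ℕ)) := by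
          rw [← pow_add, Nat.add_sub_cancel' hm]
        rw [this, mul_pow]
        ring
    rw [this, h0, mul_zero]
  have crel : IsConj σ
      (Num ^ (n + 1) + ∑ m : Fin (n + 1), ⇑(p m) * Num ^ (m : ℕ) * D ^ (n + 1 - (m : ℕ)))
      (U ^ (n + 1) + ∑ m : Fin (n + 1), ⇑(p' m) * U ^ (m : ℕ) * V ^ (n + 1 - (m : ℕ))) :=
    (cNum.pow _).add (IsConj.sum _ fun m _ => ((cp m).mul (cNum.pow _)).mul (cD.pow _))
  have hrel' := crel.eq_zero hrel
  -- assemble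
  refine ⟨n + 1, w * (n : ℤ), U, V, D, Num,
    fun m => CuspForm.mcast (by
      have hm : (m : ℕ) ≤ n + 1 := m.2.le
      rw [Nat.cast_sub hm]) (p' m),
    hμ, cNum.right.mdiff, cD.right.mdiff, cD.ne_zero hD0, ?_, ?_, ?_, cD, cNum, hfD, hD0⟩
  · intro γ hγ
    have hHγ : ⇑H ∣[w] γ = ⇑H :=
      SlashInvariantFormClass.slash_action_eq H _ (Subgroup.mem_map_of_mem _ hγ)
    refine slash_sum_mul_pow (k₀ := 2) ⇑H hHγ (fun j => ⇑(l' j)) fun j => ?_
    have := SlashInvariantFormClass.slash_action_eq (l' j) _ ⟨γ, rfl⟩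
    have e : (2 + w * ((n - (j : ℕ) : ℕ) : ℤ)) = 2 + w * ((n + 1 - 1 - (j : ℕ) : ℕ) : ℤ) := by
      rw [Nat.add_sub_cancel]
    rw [e]
    exact this
  · intro γ hγ
    have hHγ : ⇑H ∣[w] γ = ⇑H :=
      SlashInvariantFormClass.slash_action_eq H _ (Subgroup.mem_map_of_mem _ hγ)
    have key := slash_sum_mul_pow (k₀ := 0) ⇑H hHγ (fun j => ⇑(ψ' j)) fun j => by
      have := SlashInvariantFormClass.slash_action_eq (ψ' j) _ ⟨γ, rfl⟩
      have e : (0 + w * ((n - (j : ℕ) : ℕ) : ℤ)) = w * ((n + 1 - 1 - (j : ℕ) : ℕ) : ℤ) := by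
        rw [Nat.add_sub_cancel, zero_add]
      rw [e]
      exact this
    rwa [zero_add] at key
  · intro z
    have := congrFun hrel' z
    simp only [Pi.add_apply, Pi.pow_apply, Finset.sum_apply, Pi.mul_apply, Pi.zero_apply] at this
    exact this

end Fermat.Agent.S23
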