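import Fermat.Agent.S23.Division
import Fermat.Agent.S22.Trivial

/-!
# S23, package (e2): a monic equation with level-one cuspidal coefficients produces a cusp form

`Fermat.Agent.S23.exists_cuspForm_of_monic_equation`: let `U`, `V` be holomorphic on `ℍ`,
slash-invariant under `Γ₀(N)` of weights `k + kV` and `kV`, `V ≠ 0`, satisfying the homogenised
monic equation `U ^ μ + ∑ m < μ, c m * U ^ m * V ^ (μ - m) = 0` whose coefficients `c m` are
continuous, `SL(2, ℤ)`-invariant of weight `k (μ - m)` and zero at `i∞`. Then `U = g * V` for a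
cusp form `g` of weight `k` on `Γ₀(N)`.
-/

set_option autoImplicit false

open Filter Topology UpperHalfPlane ModularForm CongruenceSubgroup Matrix.SpecialLinearGroup
open scoped MatrixGroups ModularForm Manifold

namespace Fermat.Agent.S23

namespace QuotCusp

/-- The slash translate of a root of a monic polynomial with level-one coefficients is a root
of the same polynomial. -/
theorem slash_root (k : ℤ) (μ : ℕ) (g : ℍ → ℂ) (c : Fin μ → ℍ → ℂ)
    (hcinv : ∀ (m : Fin μ) (γ : SL(2, ℤ)), c m ∣[k * ((μ : ℤ) - ((m : ℕ) : ℤ))] γ = c m)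
    (hroot : ∀ z, g z ^ μ + ∑ m : Fin μ, c m z * g z ^ (m : ℕ) = 0) (γ : SL(2, ℤ)) (z : ℍ) :
    (g ∣[k] γ) z ^ μ + ∑ m : Fin μ, c m z * (g ∣[k] γ) z ^ (m : ℕ) = 0 := by
  set w : ℍ := γ • z with hw
  set E : ℂ := denom γ z ^ (-k) with hE
  have hgE : (g ∣[k] γ) z = g w * E := SL_slash_apply g γ z
  have hcE : ∀ m : Fin μ, c m z = c m w * E ^ (μ - (m : ℕ)) := by
    intro m
    have h1 : c m z = (c m ∣[k * ((μ : ℤ) - ((m : ℕ) : ℤ))] γ) z := by rw [hcinv m γ]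
    rw [h1, SL_slash_apply]
    congr 1
    have hm : (m : ℕ) ≤ μ := m.2.le
    rw [hE, ← zpow_natCast, ← zpow_mul, Nat.cast_sub hm]
    congr 1
    ring
  have key : (g ∣[k] γ) z ^ μ + ∑ m : Fin μ, c m z * (g ∣[k] γ) z ^ (m : ℕ)
      = E ^ μ * (g w ^ μ + ∑ m : Fin μ, c m w * g w ^ (m : ℕ)) := by
    rw [hgE, mul_add, Finset.mul_sum, mul_pow]
    congr 1
    · ring
    · refine Finset.sum_congr rfl fun m _ => ?_
      have hm : (m : ℕ) ≤ μ := m.2.le
      have hpow : E ^ μ = E ^ (μ - (m : ℕ)) * E ^ (m : ℕ) := by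
        rw [← pow_add, Nat.sub_add_cancel hm]
      rw [hcE m, mul_pow, hpow]
      ring
  rw [key, hroot w, mul_zero]

end QuotCusp

/-- **A monic equation with level-one cuspidal coefficients produces a cusp form.** -/
theorem exists_cuspForm_of_monic_equation {N : ℕ} (k kV : ℤ) (μ : ℕ) (hμ : 0 < μ)
    (U V : ℍ → ℂ) (c : Fin μ → ℍ → ℂ) (hU : MDiff U) (hV : MDiff V) (hV0 : V ≠ 0)
    (hUinv : ∀ γ ∈ Gamma0 N, U ∣[k + kV] γ = U) (hVinv : ∀ γ ∈ Gamma0 N, V ∣[kV] γ = V)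
    (hc : ∀ m, Continuous (c m))
    (hcinv : ∀ (m : Fin μ) (γ : SL(2, ℤ)), c m ∣[k * ((μ : ℤ) - ((m : ℕ) : ℤ))] γ = c m)
    (hczero : ∀ m, IsZeroAtImInfty (c m))
    (h : ∀ z, U z ^ μ + ∑ m : Fin μ, c m z * U z ^ (m : ℕ) * V z ^ (μ - (m : ℕ)) = 0) :
    ∃ g : CuspForm (Gamma0 N) k, ∀ z, U z = g z * V z := by
  obtain ⟨g, hg, hUV, hroot⟩ := exists_mdifferentiable_quotient μ U V c hU hV hV0 hc h
  have hfun : U = g * V := funext hUV
  have hinv : ∀ γ ∈ Gamma0 N, g ∣[k] γ = g := by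
    intro γ hγ
    refine eq_of_mul_eq_mul_of_ne_zero (g ∣[k] γ) g V
      (hg.slash k (γ : GL (Fin 2) ℝ)) hg hV hV0 fun z => ?_
    have h1 : U ∣[k + kV] γ = g ∣[k] γ * V ∣[kV] γ := by rw [hfun, mul_slash_SL2]
    rw [hUinv γ hγ, hVinv γ hγ] at h1
    have h2 := congrFun h1 z
    rw [Pi.mul_apply] at h2
    rw [← h2, hUV z]
  have hzero : ∀ γ : SL(2, ℤ), IsZeroAtImInfty (g ∣[k] γ) := by
    intro γ
    exact tendsto_zero_of_monic_root atImInfty μ hμ (g ∣[k] γ) c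
      (fun z => QuotCusp.slash_root k μ g c hcinv hroot γ z) hczero
  exact ⟨Fermat.Agent.S22.mkCuspForm g hg hinv hzero, fun z => hUV z⟩

/-- Variant of `exists_cuspForm_of_monic_equation` whose coefficients are level-one cusp
forms. -/
theorem exists_cuspForm_of_monic_equation' {N : ℕ} (k kV : ℤ) (μ : ℕ) (hμ : 0 < μ)
    (U V : ℍ → ℂ) (e : (m : Fin μ) → CuspForm 𝒮ℒ (k * ((μ : ℤ) - ((m : ℕ) : ℤ))))
    (hU : MDiff U) (hV : MDiff V) (hV0 : V ≠ 0)
    (hUinv : ∀ γ ∈ Gamma0 N, U ∣[k + kV] γ = U) (hVinv : ∀ γ ∈ Gamma0 N, V ∣[kV] γ = V)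
    (h : ∀ z, U z ^ μ + ∑ m : Fin μ, e m z * U z ^ (m : ℕ) * V z ^ (μ - (m : ℕ)) = 0) :
    ∃ g : CuspForm (Gamma0 N) k, ∀ z, U z = g z * V z :=
  exists_cuspForm_of_monic_equation k kV μ hμ U V (fun m => ⇑(e m)) hU hV hV0 hUinv hVinv
    (fun m => (CuspFormClass.holo (e m)).continuous)
    (fun m γ => SlashInvariantFormClass.slash_action_eq (e m) _ ⟨γ, rfl⟩)
    (fun m => CuspFormClass.zero_at_infty (e m)) h

end Fermat.Agent.S23
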