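/-
S23 project, wiring part 2: a separator with self-conjugate `q`-expansion gives the conjugate
cusp form.
-/
import Fermat.Agent.S23.CosetConj
import Fermat.Agent.S23.QuotCusp

set_option autoImplicit false

namespace Fermat.Agent.S23

open UpperHalfPlane ModularForm CongruenceSubgroup Matrix.SpecialLinearGroup
open scoped MatrixGroups Manifold Topology

/-- If `H` is a modular form on `Γ₀(N)` which is its own `σ`-conjugate and whose translates by
`SL(2, ℤ)` outside `Γ₀(N)` differ from `H`, then every weight `2` cusp form on `Γ₀(N)` has a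
`σ`-conjugate cusp form. -/
theorem exists_isConj_of_separator {N : ℕ} [NeZero N] (σ : ℂ →+* ℂ) {w : ℤ}
    (H : ModularForm (Gamma0 N) w) (hH : IsConj σ ⇑H ⇑H)
    (hsep : ∀ g : SL(2, ℤ), g ∉ Gamma0 N → (⇑H ∣[w] g) ≠ ⇑H) (f : CuspForm (Gamma0 N) 2) :
    ∃ g : CuspForm (Gamma0 N) 2, IsConj σ ⇑f ⇑g := by
  obtain ⟨μ, kV, U, V, D, Num, e, hμ, hU, hV, hV0, hUinv, hVinv, hrel, cD, cNum, hfD, hD0⟩ :=
    exists_conj_quotient_data σ H hH f hsep
  obtain ⟨g, hg⟩ := exists_cuspForm_of_monic_equation' 2 kV μ hμ U V e hU hV hV0 hUinv hVinv hrel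
  exact ⟨g, IsConj.of_mul_eq (Nice.of_Gamma0 f) (Nice.of_Gamma0 g) cD cNum hfD
    (funext fun z => (hg z).symm) hD0⟩

end Fermat.Agent.S23
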