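/-
S23 package (P2): bounded denominators.

A weight 2 cusp form on `Γ₀(N)` with rational `q`-expansion coefficients has a positive integer
multiple with integral `q`-expansion coefficients.  The input is the finiteness of the Hecke
algebra over `ℤ` (statement S22).
-/
import Fermat.Agent.S22
import Fermat.Prelude.Def_CuspForm_IntegralStructure
import Fermat.Prelude.Def_CuspForm_HeckeAlgebra
import Fermat.Prelude.Thm_ModularFormClass_qCoeff_heckeT
import Fermat.Prelude.Thm_ModularFormClass_qCoeff_heckeU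
import Fermat.Prelude.Thm_CongruenceSubgroup_one_mem_strictPeriods_Gamma0

set_option autoImplicit false

noncomputable section

namespace Fermat.Agent.S23

namespace BoundedDenom

open CuspForm ModularFormClass ModularForm

local notation "Γ₀(" N ")" => CongruenceSubgroup.Gamma0 N

theorem one_mem_strictPeriods (N : ℕ) :
    (1 : ℝ) ∈ (Subgroup.map (Matrix.SpecialLinearGroup.mapGL ℝ) Γ₀(N)).strictPeriods :=
  CongruenceSubgroup.one_mem_strictPeriods_Gamma0 N

/-- The `n`-th `q`-coefficient as a linear functional on cusp forms. -/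
def coeffLin (N : ℕ) (k : ℤ) (n : ℕ) : CuspForm Γ₀(N) k →ₗ[ℂ] ℂ where
  toFun f := qCoeff f n
  map_add' f g := by
    simp only [qCoeff, FunLike.coe_add]
    rw [ModularForm.qExpansion_add one_pos (one_mem_strictPeriods N) f g, map_add]
  map_smul' c f := by
    simp only [qCoeff, FunLike.coe_smul]
    rw [ModularForm.qExpansion_smul one_pos (one_mem_strictPeriods N) c f]
    simp

theorem coeffLin_apply (N : ℕ) (k : ℤ) (n : ℕ) (f : CuspForm Γ₀(N) k) :
    coeffLin N k n f = qCoeff f n := rfl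

theorem coeffLin_zero {N : ℕ} {k : ℤ} (f : CuspForm Γ₀(N) k) : coeffLin N k 0 f = 0 :=
  CuspFormClass.qExpansion_coeff_zero f one_pos (one_mem_strictPeriods N)

theorem coeffLin_heckeTLin {N : ℕ} {k : ℤ} {p : ℕ} (hp : p.Prime) (hpN : ¬ p ∣ N)
    (f : CuspForm Γ₀(N) k) (n : ℕ) :
    coeffLin N k n (CuspForm.heckeTLin k hp hpN f) =
      coeffLin N k (n * p) f + if p ∣ n then (p : ℂ) ^ (k - 1) * coeffLin N k (n / p) f else 0 :=
  ModularFormClass.qCoeff_heckeT f (one_mem_strictPeriods N) hp.ne_zero n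

theorem coeffLin_heckeULin {N : ℕ} [NeZero N] {k : ℤ} {p : ℕ} (hp : p.Prime) (hpN : p ∣ N)
    (f : CuspForm Γ₀(N) k) (n : ℕ) :
    coeffLin N k n (CuspForm.heckeULin k hpN f) = coeffLin N k (n * p) f :=
  ModularFormClass.qCoeff_heckeU f (one_mem_strictPeriods N) hp.ne_zero n

/-- Every `q`-coefficient functional is `a₁ ∘ t` for some `t` in the Hecke algebra. -/
theorem exists_hecke_coeff (N : ℕ) [NeZero N] (n : ℕ) :
    ∃ t ∈ heckeAlgebra N 2 ∅, ∀ g : CuspForm Γ₀(N) 2,
      coeffLin N 2 1 (t g) = coeffLin N 2 n g := by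
  induction n using Nat.strong_induction_on with
  | _ n ih =>
    rcases Nat.lt_or_ge n 2 with hn | hn
    · interval_cases n
      · refine ⟨0, Subalgebra.zero_mem _, fun g => ?_⟩
        rw [LinearMap.zero_apply, map_zero, coeffLin_zero]
      · exact ⟨1, Subalgebra.one_mem _, fun g => rfl⟩
    · -- `n = m * p` with `p` the smallest prime factor
      have hn1 : n ≠ 1 := by omega
      have hp : (n.minFac).Prime := Nat.minFac_prime hn1
      set p := n.minFac with hpdef
      obtain ⟨m, hm⟩ : p ∣ n := Nat.minFac_dvd n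
      have hm' : n = m * p := by rw [hm, mul_comm]
      have hmpos : 0 < m := by
        rcases Nat.eq_zero_or_pos m with h | h
        · rw [h, zero_mul] at hm'; omega
        · exact h
      have hmlt : m < n := by
        rw [hm']
        exact lt_mul_of_one_lt_right hmpos hp.one_lt
      obtain ⟨tm, htm, hm1⟩ := ih m hmlt
      by_cases hpN : p ∣ N
      · refine ⟨tm * CuspForm.heckeULin 2 hpN, Subalgebra.mul_mem _ htm
          (heckeULin_mem_heckeAlgebra hp hpN (Set.notMem_empty p)), fun g => ?_⟩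
        rw [Module.End.mul_apply, hm1, coeffLin_heckeULin hp hpN, ← hm']
      · by_cases hpm : p ∣ m
        · have hlt2 : m / p < n := lt_of_le_of_lt (Nat.div_le_self m p) hmlt
          obtain ⟨tq, htq, hq1⟩ := ih (m / p) hlt2
          refine ⟨tm * CuspForm.heckeTLin 2 hp hpN - (p : ℤ) • tq, Subalgebra.sub_mem _
            (Subalgebra.mul_mem _ htm (heckeTLin_mem_heckeAlgebra hp hpN (Set.notMem_empty p)))
            (Subalgebra.smul_mem _ htq _), fun g => ?_⟩
          rw [LinearMap.sub_apply, map_sub, Module.End.mul_apply, hm1, coeffLin_heckeTLin hp hpN,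
            if_pos hpm, ← hm', LinearMap.smul_apply, map_zsmul, hq1]
          simp
        · refine ⟨tm * CuspForm.heckeTLin 2 hp hpN, Subalgebra.mul_mem _ htm
            (heckeTLin_mem_heckeAlgebra hp hpN (Set.notMem_empty p)), fun g => ?_⟩
          rw [Module.End.mul_apply, hm1, coeffLin_heckeTLin hp hpN, if_neg hpm, ← hm', add_zero]

/-- A finitely generated subgroup of `ℂ` all of whose elements are rational has bounded
denominators. -/
theorem exists_nat_mul_mem_int (M : Submodule ℤ ℂ) (hM : M.FG)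
    (hrat : ∀ x ∈ M, ∃ r : ℚ, (r : ℂ) = x) :
    ∃ D : ℕ, 0 < D ∧ ∀ x ∈ M, ∃ m : ℤ, (D : ℂ) * x = (m : ℂ) := by
  obtain ⟨s, hs⟩ := hM
  have hsM : ∀ x ∈ s, x ∈ M := fun x hx => hs ▸ Submodule.subset_span hx
  choose! r hr using hrat
  refine ⟨∏ x ∈ s, (r x).den, Finset.prod_pos fun x _ => (r x).den_pos, fun x hx => ?_⟩
  rw [← hs] at hx
  induction hx using Submodule.span_induction with
  | mem x hx =>
    obtain ⟨c, hc⟩ := Finset.dvd_prod_of_mem (fun x => (r x).den) hx
    refine ⟨(c : ℤ) * (r x).num, ?_⟩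
    have hx' : ((r x : ℚ) : ℂ) = x := hr x (hsM x hx)
    have h2 : ((r x).den : ℚ) * r x = ((r x).num : ℚ) := by
      rw [mul_comm]
      exact Rat.mul_den_eq_num (r x)
    have h1 : ((r x).den : ℂ) * ((r x : ℚ) : ℂ) = ((r x).num : ℂ) := by
      exact_mod_cast congrArg (fun q : ℚ => (q : ℂ)) h2
    rw [hx'] at h1
    rw [hc]
    push_cast
    rw [mul_comm ((r x).den : ℂ) (c : ℂ), mul_assoc, h1]
  | zero => exact ⟨0, by simp⟩
  | add x y _ _ hx hy =>
    obtain ⟨a, ha⟩ := hx
    obtain ⟨b, hb⟩ := hy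
    exact ⟨a + b, by rw [mul_add, ha, hb]; push_cast; rfl⟩
  | smul c x _ hx =>
    obtain ⟨a, ha⟩ := hx
    refine ⟨c * a, ?_⟩
    rw [zsmul_eq_mul, mul_left_comm, ha]
    push_cast
    rfl

/-- Core statement with the finiteness of the Hecke algebra as a hypothesis. -/
theorem exists_nat_smul_mem_intLattice_of_finite (N : ℕ) [NeZero N]
    (hfin : Module.Finite ℤ (heckeAlgebra N 2 ∅)) (f : CuspForm Γ₀(N) 2)
    (hf : ∀ n : ℕ, ∃ r : ℚ, (r : ℂ) = qCoeff f n) :
    ∃ D : ℕ, 0 < D ∧ (D : ℂ) • f ∈ CuspForm.intLattice N 2 := by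
  -- the `ℤ`-linear map `t ↦ a₁(t f)`
  let φ : Module.End ℂ (CuspForm Γ₀(N) 2) →ₗ[ℤ] ℂ :=
    ((coeffLin N 2 1).restrictScalars ℤ).comp
      ((LinearMap.applyₗ f : Module.End ℂ (CuspForm Γ₀(N) 2) →ₗ[ℂ] CuspForm Γ₀(N) 2).restrictScalars ℤ)
  have hφ : ∀ t, φ t = coeffLin N 2 1 (t f) := fun t => rfl
  -- its image on the Hecke algebra is finitely generated
  have hHfg : (Subalgebra.toSubmodule (heckeAlgebra N 2 ∅)).FG := by
    have := hfin
    exact Module.Finite.iff_fg.mp this
  let M : Submodule ℤ ℂ := (Subalgebra.toSubmodule (heckeAlgebra N 2 ∅)).map φ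
  have hMfg : M.FG := hHfg.map φ
  -- the rational part
  let Q : Submodule ℤ ℂ := LinearMap.range ((algebraMap ℚ ℂ).toIntAlgHom.toLinearMap)
  have hQ : ∀ x, x ∈ Q ↔ ∃ r : ℚ, (r : ℂ) = x := fun x => Iff.rfl
  have : IsNoetherian ℤ M := isNoetherian_of_fg_of_noetherian M hMfg
  have hM'fg : (M ⊓ Q).FG := (isNoetherian_submodule.mp inferInstance) (M ⊓ Q) inf_le_left
  obtain ⟨D, hD, hDint⟩ := exists_nat_mul_mem_int (M ⊓ Q) hM'fg
    (fun x hx => (hQ x).mp hx.2)
  refine ⟨D, hD, Submodule.subset_span fun n => ?_⟩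
  obtain ⟨t, ht, htn⟩ := exists_hecke_coeff N n
  have hmem : qCoeff f n ∈ M ⊓ Q := by
    refine ⟨⟨t, ht, ?_⟩, (hQ _).mpr (hf n)⟩
    rw [hφ, htn]
    rfl
  obtain ⟨m, hm⟩ := hDint _ hmem
  refine ⟨m, ?_⟩
  rw [← hm]
  exact (coeffLin N 2 n).map_smul (D : ℂ) f

end BoundedDenom

open BoundedDenom in
/-- (P2) A weight 2 cusp form on `Γ₀(N)` with rational `q`-coefficients has a positive integer
multiple in the integral lattice. -/
theorem exists_nat_smul_mem_intLattice (N : ℕ) [NeZero N]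
    (f : CuspForm (CongruenceSubgroup.Gamma0 N) 2)
    (hf : ∀ n : ℕ, ∃ r : ℚ, (r : ℂ) = ModularFormClass.qCoeff f n) :
    ∃ D : ℕ, 0 < D ∧ (D : ℂ) • f ∈ CuspForm.intLattice N 2 :=
  exists_nat_smul_mem_intLattice_of_finite N (Fermat.Agent.S22.result N 2 ∅) f hf

/-- (P2, corollary) If the cusp forms with rational `q`-coefficients span, then
`S₂(Γ₀(N))` has an integral structure. -/
theorem hasIntegralStructure_of_span_rational (N : ℕ) [NeZero N]
    (h : Submodule.span ℂ {f : CuspForm (CongruenceSubgroup.Gamma0 N) 2 |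
      ∀ n : ℕ, ∃ r : ℚ, (r : ℂ) = ModularFormClass.qCoeff f n} = ⊤) :
    CuspForm.HasIntegralStructure N 2 := by
  unfold CuspForm.HasIntegralStructure
  rw [eq_top_iff, ← h]
  apply Submodule.span_le.mpr
  intro f hf
  obtain ⟨D, hD, hDf⟩ := exists_nat_smul_mem_intLattice N f hf
  have hD' : (D : ℂ) ≠ 0 := by exact_mod_cast hD.ne'
  have : f = (D : ℂ)⁻¹ • ((D : ℂ) • f) := by rw [smul_smul, inv_mul_cancel₀ hD', one_smul]
  rw [this]
  exact Submodule.smul_mem _ _ (Submodule.subset_span hDf)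

end Fermat.Agent.S23

end
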