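/-
S23 package P1: Galois descent for the automorphism group of `ℂ`.

* the only complex numbers fixed by every ring automorphism of `ℂ` are the rationals;
* a finite-dimensional subspace of a function space `ι → ℂ` which is stable under all
  automorphisms of `ℂ` (acting on values) is spanned by its rational-valued vectors.
-/
import Mathlib.FieldTheory.IsAlgClosed.Classification
import Mathlib.FieldTheory.Galois.Infinite
import Mathlib.FieldTheory.AlgebraicClosure
import Mathlib.Analysis.Complex.Polynomial.Basic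
import Mathlib.LinearAlgebra.Dual.Lemmas
import Mathlib.LinearAlgebra.Dual.Basis

set_option autoImplicit false

namespace Fermat.Agent.S23

namespace Descent

open MvPolynomial Module


open MvPolynomial

/-- An automorphism of the polynomial ring on a transcendence basis extends to an automorphism
of an algebraically closed field. -/
theorem exists_ringEquiv_of_mvPolynomial_equiv {F Ω ι : Type*} [Field F] [Field Ω] [IsAlgClosed Ω]
    [Algebra F Ω] {x : ι → Ω} (hx : IsTranscendenceBasis F x)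
    (ψ : MvPolynomial ι F ≃+* MvPolynomial ι F) :
    ∃ σ : Ω ≃+* Ω, ∀ p : MvPolynomial ι F, σ (aeval x p) = aeval x (ψ p) := by
  have : IsAlgClosure (Algebra.adjoin F (Set.range x)) Ω :=
    IsAlgClosed.isAlgClosure_of_transcendence_basis x hx
  let E : MvPolynomial ι F ≃+* Algebra.adjoin F (Set.range x) := hx.1.aevalEquiv.toRingEquiv
  let e : Algebra.adjoin F (Set.range x) ≃+* Algebra.adjoin F (Set.range x) :=
    E.symm.trans (ψ.trans E)
  refine ⟨IsAlgClosure.equivOfEquiv Ω Ω e, fun p => ?_⟩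
  have h1 : aeval x p = algebraMap (Algebra.adjoin F (Set.range x)) Ω (E p) := rfl
  have h2 : aeval x (ψ p) = algebraMap (Algebra.adjoin F (Set.range x)) Ω (E (ψ p)) := rfl
  rw [h1, h2, IsAlgClosure.equivOfEquiv_algebraMap]
  congr 1
  show E (ψ (E.symm (E p))) = E (ψ p)
  rw [RingEquiv.symm_apply_apply]

theorem exists_ringEquiv_ne_of_transcendental (z : ℂ) (hz : Transcendental ℚ z) :
    ∃ σ : ℂ ≃+* ℂ, σ z ≠ z := by
  classical
  have hind : AlgebraicIndepOn ℚ id ({z} : Set ℂ) :=
    (algebraicIndependent_singleton_iff (⟨z, rfl⟩ : ({z} : Set ℂ))).mpr hz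
  obtain ⟨t, hzt, ht⟩ := exists_isTranscendenceBasis_superset hind
  let z' : t := ⟨z, hzt rfl⟩
  let f : MvPolynomial t ℚ →ₐ[ℚ] MvPolynomial t ℚ :=
    aeval (fun i => if i = z' then X i + 1 else X i)
  let g : MvPolynomial t ℚ →ₐ[ℚ] MvPolynomial t ℚ :=
    aeval (fun i => if i = z' then X i - 1 else X i)
  have hfg : f.comp g = AlgHom.id ℚ _ := by
    apply MvPolynomial.algHom_ext
    intro i
    simp only [f, g, AlgHom.comp_apply, aeval_X, AlgHom.id_apply]
    split_ifs with h
    · simp [h]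
    · simp [h]
  have hgf : g.comp f = AlgHom.id ℚ _ := by
    apply MvPolynomial.algHom_ext
    intro i
    simp only [f, g, AlgHom.comp_apply, aeval_X, AlgHom.id_apply]
    split_ifs with h
    · simp [h]
    · simp [h]
  obtain ⟨σ, hσ⟩ := exists_ringEquiv_of_mvPolynomial_equiv ht
    (AlgEquiv.ofAlgHom f g hfg hgf).toRingEquiv
  refine ⟨σ, ?_⟩
  have h := hσ (X z')
  have h3 : (AlgEquiv.ofAlgHom f g hfg hgf).toRingEquiv (X z') = X z' + 1 := by
    show f (X z') = _
    simp [f]
  rw [h3] at h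
  simp only [aeval_X, map_add, map_one] at h
  have h4 : σ z = z + 1 := h
  rw [h4]
  simp

theorem exists_ringEquiv_ne_of_isAlgebraic (z : ℂ) (hz : IsAlgebraic ℚ z)
    (hq : ∀ r : ℚ, (r : ℂ) ≠ z) : ∃ σ : ℂ ≃+* ℂ, σ z ≠ z := by
  have hzF : z ∈ algebraicClosure ℚ ℂ := (mem_algebraicClosure_iff).mpr hz
  have hcl : IsAlgClosure ℚ (algebraicClosure ℚ ℂ) := algebraicClosure.isAlgClosure ℚ ℂ
  have hgal : IsGalois ℚ (algebraicClosure ℚ ℂ) := IsAlgClosure.isGalois ℚ _
  have hnot : (⟨z, hzF⟩ : algebraicClosure ℚ ℂ) ∉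
      Set.range (algebraMap ℚ (algebraicClosure ℚ ℂ)) := by
    rintro ⟨r, hr⟩
    apply hq r
    have := congrArg (fun a : algebraicClosure ℚ ℂ => (a : ℂ)) hr
    simpa using this
  rw [InfiniteGalois.mem_range_algebraMap_iff_fixed] at hnot
  push Not at hnot
  obtain ⟨f, hf⟩ := hnot
  obtain ⟨s, hs⟩ := exists_isTranscendenceBasis (algebraicClosure ℚ ℂ) ℂ
  obtain ⟨σ, hσ⟩ := exists_ringEquiv_of_mvPolynomial_equiv hs
    (MvPolynomial.mapEquiv s f.toRingEquiv)
  refine ⟨σ, ?_⟩
  have h := hσ (C ⟨z, hzF⟩)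
  have h3 : (MvPolynomial.mapEquiv s f.toRingEquiv) (C ⟨z, hzF⟩) = C (f ⟨z, hzF⟩) := by
    simp
  rw [h3, aeval_C, aeval_C] at h
  have h4 : σ z = ((f ⟨z, hzF⟩ : algebraicClosure ℚ ℂ) : ℂ) := h
  rw [h4]
  intro heq
  exact hf (Subtype.ext heq)

/-- In a finite-dimensional subspace `V` of a function space, finitely many coordinates
`idx k` and vectors `c k ∈ V` can be chosen with `c k (idx j) ∈ {0, 1}` such that a vector of `V`
vanishing at all the `idx j` is zero, and the `c k` span `V`. -/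
theorem exists_coordinate_basis {K : Type*} [Field K] {ι : Type*} (V : Submodule K (ι → K))
    [FiniteDimensional K V] :
    ∃ (n : ℕ) (idx : Fin n → ι) (c : Fin n → (ι → K)),
      (∀ k, c k ∈ V) ∧ (∀ j k, c k (idx j) = 0 ∨ c k (idx j) = 1) ∧
      (∀ v ∈ V, (∀ j, v (idx j) = 0) → v = 0) ∧
      Submodule.span K (Set.range c) = V := by
  classical
  let φ : ι → Dual K V := fun i => (LinearMap.proj i).comp V.subtype
  have hφ : ∀ i (v : V), φ i v = (v : ι → K) i := fun i v => rfl
  have hspan : Submodule.span K (Set.range φ) = ⊤ := by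
    have h1 : (Submodule.span K (Set.range φ)).dualCoannihilator = ⊥ := by
      rw [eq_bot_iff]
      intro v hv
      rw [Submodule.mem_dualCoannihilator] at hv
      rw [Submodule.mem_bot]
      apply Subtype.ext
      funext i
      exact hv (φ i) (Submodule.subset_span ⟨i, rfl⟩)
    have h2 := Subspace.dualCoannihilator_dualAnnihilator_eq
      (W := Submodule.span K (Set.range φ))
    rw [h1, Submodule.dualAnnihilator_bot] at h2
    exact h2.symm
  obtain ⟨b, hb, hbspan, hli⟩ := exists_linearIndependent K (Set.range φ)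
  have hb' : ⊤ ≤ Submodule.span K (Set.range ((↑) : b → Dual K V)) := by
    rw [Subtype.range_coe, hbspan, hspan]
  let B : Basis b K (Dual K V) := Basis.mk hli hb'
  have hB : ∀ j : b, B j = (j : Dual K V) := fun j => Basis.mk_apply hli hb' j
  have hfin : Finite b := Module.Finite.finite_basis B
  choose idx hidx using fun j : b => hb j.2
  let c : Basis b K V := B.dualBasis.map (Module.evalEquiv K V).symm
  have hc : ∀ j k : b, B j (c k) = if j = k then 1 else 0 := by
    intro j k
    show B j ((Module.evalEquiv K V).symm (B.dualBasis k)) = _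
    rw [Module.apply_evalEquiv_symm_apply, Basis.dualBasis_apply_self]
  have hBφ : ∀ (j : b) (v : V), B j v = (v : ι → K) (idx j) := by
    intro j v
    rw [hB j, ← hidx j, hφ]
  let e : b ≃ Fin (Nat.card b) := Finite.equivFin b
  refine ⟨Nat.card b, fun k => idx (e.symm k), fun k => (c (e.symm k) : ι → K),
    fun k => (c (e.symm k)).2, ?_, ?_, ?_⟩
  · intro j k
    show (c (e.symm k) : ι → K) (idx (e.symm j)) = 0 ∨ (c (e.symm k) : ι → K) (idx (e.symm j)) = 1
    rw [← hBφ (e.symm j) (c (e.symm k)), hc]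
    by_cases hjk : e.symm j = e.symm k
    · right; rw [if_pos hjk]
    · left; rw [if_neg hjk]
  · intro v hv h0
    have h1 : Module.Dual.eval K V ⟨v, hv⟩ = 0 := by
      apply B.ext
      intro j
      rw [Module.Dual.eval_apply, hBφ, LinearMap.zero_apply]
      have : v (idx (e.symm (e j))) = 0 := h0 (e j)
      rwa [Equiv.symm_apply_apply] at this
    have h2 : (⟨v, hv⟩ : V) = 0 := by
      rw [← Module.forall_dual_apply_eq_zero_iff K]
      intro ψ
      have := LinearMap.congr_fun h1 ψ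
      simpa using this
    exact congrArg Subtype.val h2
  · have h1 : Set.range (fun k => (c (e.symm k) : ι → K)) = V.subtype '' Set.range c := by
      rw [← Set.range_comp]
      exact (e.symm.surjective.range_comp (fun k : b => (c k : ι → K)))
    rw [h1, Submodule.span_image, c.span_eq, Submodule.map_top, Submodule.range_subtype]

theorem span_fixed_eq_of_stable {ι : Type*} (V : Submodule ℂ (ι → ℂ)) [FiniteDimensional ℂ V]
    (P : ℂ → Prop) (hP : ∀ z : ℂ, (∀ σ : ℂ ≃+* ℂ, σ z = z) → P z)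
    (hV : ∀ (σ : ℂ ≃+* ℂ), ∀ v ∈ V, (fun i => σ (v i)) ∈ V) :
    Submodule.span ℂ {v : ι → ℂ | v ∈ V ∧ ∀ i, P (v i)} = V := by
  classical
  obtain ⟨n, idx, c, hcV, hcδ, hinj, hcspan⟩ := exists_coordinate_basis V
  apply le_antisymm
  · rw [Submodule.span_le]
    exact fun v hv => hv.1
  · refine le_of_eq_of_le hcspan.symm ?_
    rw [Submodule.span_le]
    rintro _ ⟨k, rfl⟩
    apply Submodule.subset_span
    refine ⟨hcV k, fun i => hP _ fun σ => ?_⟩
    have h1 : (fun i => σ (c k i)) - c k = 0 := by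
      apply hinj _ (V.sub_mem (hV σ _ (hcV k)) (hcV k))
      intro j
      rw [Pi.sub_apply]
      rcases hcδ j k with h | h <;> simp [h]
    have h2 := congrFun h1 i
    rw [Pi.sub_apply, Pi.zero_apply, sub_eq_zero] at h2
    exact h2

end Descent

open Descent

theorem exists_ringEquiv_apply_ne (z : ℂ) (hz : ∀ r : ℚ, (r : ℂ) ≠ z) :
    ∃ σ : ℂ ≃+* ℂ, σ z ≠ z := by
  by_cases h : IsAlgebraic ℚ z
  · exact exists_ringEquiv_ne_of_isAlgebraic z h hz
  · exact exists_ringEquiv_ne_of_transcendental z h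

theorem exists_rat_of_forall_ringEquiv_fixed (z : ℂ) (h : ∀ σ : ℂ ≃+* ℂ, σ z = z) :
    ∃ r : ℚ, (r : ℂ) = z := by
  by_contra hne
  push Not at hne
  obtain ⟨σ, hσ⟩ := exists_ringEquiv_apply_ne z hne
  exact hσ (h σ)

/-- A finite-dimensional subspace of `ι → ℂ` stable under all automorphisms of `ℂ` is spanned
by its rational-valued vectors. -/
theorem span_rational_eq_of_stable {ι : Type*} (V : Submodule ℂ (ι → ℂ)) [FiniteDimensional ℂ V]
    (hV : ∀ (σ : ℂ ≃+* ℂ), ∀ v ∈ V, (fun i => σ (v i)) ∈ V) :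
    Submodule.span ℂ {v : ι → ℂ | v ∈ V ∧ ∀ i, ∃ r : ℚ, (r : ℂ) = v i} = V :=
  span_fixed_eq_of_stable V (fun z => ∃ r : ℚ, (r : ℂ) = z)
    exists_rat_of_forall_ringEquiv_fixed hV

/-- Descent for a finite-dimensional space `S` embedded in a function space by an injective
linear map `c` ("coefficients"): if for all `σ` and `f` some `g` has coefficients
`σ (c f i)`, then `S` is spanned by the elements with rational coefficients. -/
theorem span_rational_eq_top_of_stable {S ι : Type*} [AddCommGroup S] [Module ℂ S]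
    [FiniteDimensional ℂ S] (c : S →ₗ[ℂ] (ι → ℂ)) (hc : Function.Injective c)
    (h : ∀ (σ : ℂ ≃+* ℂ) (f : S), ∃ g : S, ∀ i, c g i = σ (c f i)) :
    Submodule.span ℂ {f : S | ∀ i, ∃ r : ℚ, (r : ℂ) = c f i} = ⊤ := by
  have hV : ∀ (σ : ℂ ≃+* ℂ), ∀ v ∈ LinearMap.range c, (fun i => σ (v i)) ∈ LinearMap.range c := by
    rintro σ _ ⟨f, rfl⟩
    obtain ⟨g, hg⟩ := h σ f
    exact ⟨g, funext hg⟩
  have h1 := span_rational_eq_of_stable (LinearMap.range c) hV
  have h2 : {v : ι → ℂ | v ∈ LinearMap.range c ∧ ∀ i, ∃ r : ℚ, (r : ℂ) = v i} =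
      c '' {f : S | ∀ i, ∃ r : ℚ, (r : ℂ) = c f i} := by
    ext v
    constructor
    · rintro ⟨⟨f, rfl⟩, hf⟩
      exact ⟨f, hf, rfl⟩
    · rintro ⟨f, hf, rfl⟩
      exact ⟨⟨f, rfl⟩, hf⟩
  rw [h2, Submodule.span_image, ← Submodule.map_top] at h1
  exact Submodule.map_injective_of_injective hc h1

end Fermat.Agent.S23
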