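/-
S23: reduction of the statement to the conjugation property (P3).

`HasIntegralStructure N 2` follows from: for every ring automorphism `σ` of `ℂ` and every
`f ∈ S₂(Γ₀(N))` there is `g ∈ S₂(Γ₀(N))` whose `q`-expansion is the `σ`-conjugate of that of `f`.
Uses (P1) Galois descent (`Descent.lean`) and (P2) bounded denominators (`BoundedDenom.lean`).
-/
import Fermat.Agent.S23.Descent
import Fermat.Agent.S23.BoundedDenom
import Fermat.Prelude.Thm_CuspForm_intLattice_fg

set_option autoImplicit false

noncomputable section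

namespace Fermat.Agent.S23

namespace Reduce

open CuspForm ModularFormClass ModularForm BoundedDenom

local notation "Γ₀(" N ")" => CongruenceSubgroup.Gamma0 N

/-- All `q`-coefficients, as a linear map to sequences. -/
def coeffSeq (N : ℕ) (k : ℤ) : CuspForm Γ₀(N) k →ₗ[ℂ] (ℕ → ℂ) :=
  LinearMap.pi fun n => coeffLin N k n

theorem coeffSeq_apply (N : ℕ) (k : ℤ) (f : CuspForm Γ₀(N) k) (n : ℕ) :
    coeffSeq N k f n = qCoeff f n := rfl

/-- A cusp form on `Γ₀(N)` is determined by its `q`-expansion (Sturm bound). -/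
theorem coeffSeq_injective (N : ℕ) [NeZero N] (k : ℤ) : Function.Injective (coeffSeq N k) := by
  intro f g h
  apply P2MW.S_CuspForm_intLattice_fg.W3WsD.trunc_injective N k
  funext i
  exact congrFun h i

/-- The first `B + 1` coefficients, `B` the Sturm bound. -/
def coeffTrunc (N : ℕ) (k : ℤ) :
    CuspForm Γ₀(N) k →ₗ[ℂ] (Fin (P2MW.S_CuspForm_intLattice_fg.W3WsD.sturmB N k + 1) → ℂ) :=
  LinearMap.pi fun i => coeffLin N k i

theorem coeffTrunc_injective (N : ℕ) [NeZero N] (k : ℤ) :
    Function.Injective (coeffTrunc N k) := by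
  intro f g h
  apply P2MW.S_CuspForm_intLattice_fg.W3WsD.trunc_injective N k
  funext i
  exact congrFun h i

/-- The space of cusp forms on `Γ₀(N)` is finite dimensional. -/
theorem finiteDimensional_cuspForm (N : ℕ) [NeZero N] (k : ℤ) :
    FiniteDimensional ℂ (CuspForm Γ₀(N) k) :=
  FiniteDimensional.of_injective (coeffTrunc N k) (coeffTrunc_injective N k)

end Reduce

open Reduce in
/-- S23 from the conjugation property (P3). -/
theorem hasIntegralStructure_of_conj (N : ℕ) [NeZero N]
    (hconj : ∀ (σ : ℂ ≃+* ℂ) (f : CuspForm (CongruenceSubgroup.Gamma0 N) 2),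
      ∃ g : CuspForm (CongruenceSubgroup.Gamma0 N) 2,
        ∀ n : ℕ, ModularFormClass.qCoeff g n = σ (ModularFormClass.qCoeff f n)) :
    CuspForm.HasIntegralStructure N 2 := by
  have : FiniteDimensional ℂ (CuspForm (CongruenceSubgroup.Gamma0 N) 2) :=
    finiteDimensional_cuspForm N 2
  exact hasIntegralStructure_of_span_rational N
    (span_rational_eq_top_of_stable (coeffSeq N 2) (coeffSeq_injective N 2) hconj)

end Fermat.Agent.S23

end
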