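import Mathlib
import Fermat.Prelude.Def_ModularForm_HeckeOperator
import Fermat.Prelude.Thm_CongruenceSubgroup_one_mem_strictPeriods_Gamma0

/-!
# S23, package (a): the separator `sepForm N = N³ · E₄(N τ)`

A modular form of weight `4` on `Γ₀(N)` with rational `q`-expansion whose `SL(2, ℤ)`-translates
are pairwise distinct.
-/

set_option autoImplicit false

open UpperHalfPlane ModularForm Matrix.SpecialLinearGroup CongruenceSubgroup Filter Topology
open scoped MatrixGroups ModularForm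

namespace Fermat.Agent.S23

namespace Separator

/-- For `γ = !![a, b; c, d] ∈ Γ₀(N)`, the matrix `!![a, N b; c / N, d]`. -/
def conjMat (N : ℕ) (γ : SL(2, ℤ)) (hγ : γ ∈ Gamma0 N) : SL(2, ℤ) :=
  ⟨!![γ 0 0, N * γ 0 1; γ 1 0 / N, γ 1 1], by
    have hdvd : (N : ℤ) ∣ γ 1 0 := by
      rw [Gamma0_mem] at hγ
      exact (ZMod.intCast_zmod_eq_zero_iff_dvd _ _).mp hγ
    obtain ⟨c, hc⟩ := hdvd
    have hdet := γ.det_coe
    rw [Matrix.det_fin_two] at hdet
    rw [Matrix.det_fin_two_of]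
    rcases eq_or_ne (N : ℤ) 0 with hN | hN
    · rw [hN] at hc ⊢
      simp only [zero_mul] at hc
      rw [hc] at hdet
      simpa using hdet
    · rw [hc, Int.mul_ediv_cancel_left _ hN]
      rw [hc] at hdet
      linarith⟩

theorem mapGL_apply (g : SL(2, ℤ)) (i j : Fin 2) :
    (mapGL ℝ g : GL (Fin 2) ℝ) i j = ((g i j : ℤ) : ℝ) := rfl

theorem conjMat_zero_zero (N : ℕ) (γ : SL(2, ℤ)) (hγ : γ ∈ Gamma0 N) :
    (conjMat N γ hγ) 0 0 = γ 0 0 := rfl

theorem conjMat_zero_one (N : ℕ) (γ : SL(2, ℤ)) (hγ : γ ∈ Gamma0 N) :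
    (conjMat N γ hγ) 0 1 = N * γ 0 1 := rfl

theorem conjMat_one_zero (N : ℕ) (γ : SL(2, ℤ)) (hγ : γ ∈ Gamma0 N) :
    (conjMat N γ hγ) 1 0 = γ 1 0 / N := rfl

theorem conjMat_one_one (N : ℕ) (γ : SL(2, ℤ)) (hγ : γ ∈ Gamma0 N) :
    (conjMat N γ hγ) 1 1 = γ 1 1 := rfl

theorem diag_mul_mapGL (N : ℕ) [NeZero N] (γ : SL(2, ℤ)) (hγ : γ ∈ Gamma0 N) :
    heckeDiagMatrix N * mapGL ℝ γ = mapGL ℝ (conjMat N γ hγ) * heckeDiagMatrix N := by
  have hN : (N : ℤ) ≠ 0 := by exact_mod_cast NeZero.ne N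
  have hdvd : (N : ℤ) ∣ γ 1 0 := by
    rw [Gamma0_mem] at hγ
    exact (ZMod.intCast_zmod_eq_zero_iff_dvd _ _).mp hγ
  obtain ⟨c, hc⟩ := hdvd
  have h10 : (conjMat N γ hγ) 1 0 = c := by
    rw [conjMat_one_zero, hc, Int.mul_ediv_cancel_left _ hN]
  apply Units.ext
  rw [Units.val_mul, Units.val_mul, val_heckeDiagMatrix (NeZero.ne N)]
  ext i j
  fin_cases i <;> fin_cases j
  · simp [Matrix.mul_apply, Fin.sum_univ_two, conjMat_zero_zero, mul_comm]
  · simp [Matrix.mul_apply, Fin.sum_univ_two, conjMat_zero_one]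
  · have h : ((γ 1 0 : ℤ) : ℝ) = (((conjMat N γ hγ) 1 0 : ℤ) : ℝ) * (N : ℝ) := by
      rw [h10, hc]; push_cast; ring
    simpa [Matrix.mul_apply, Fin.sum_univ_two] using h
  · simp [Matrix.mul_apply, Fin.sum_univ_two, conjMat_one_one]

open ConjAct Pointwise in
theorem gamma0_le_conj (N : ℕ) [NeZero N] :
    ((Gamma0 N : Subgroup SL(2, ℤ)) : Subgroup (GL (Fin 2) ℝ)) ≤
      toConjAct (heckeDiagMatrix N)⁻¹ • 𝒮ℒ := by
  rintro _ ⟨γ, hγ, rfl⟩
  rw [Subgroup.mem_pointwise_smul_iff_inv_smul_mem]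
  refine ⟨conjMat N γ hγ, ?_⟩
  rw [← map_inv, ConjAct.toConjAct_smul, inv_inv, diag_mul_mapGL N γ hγ]
  group

end Separator

open Separator

/-- The separator: the modular form `τ ↦ N³ · E₄(N τ)` of weight `4` on `Γ₀(N)`. -/
noncomputable def sepForm (N : ℕ) [NeZero N] : ModularForm (Gamma0 N) 4 where
  toFun := ⇑E₄ ∣[(4 : ℤ)] heckeDiagMatrix N
  slash_action_eq' := by
    rintro _ ⟨γ, hγ, rfl⟩
    rw [← SlashAction.slash_mul, diag_mul_mapGL N γ hγ, SlashAction.slash_mul]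
    congr 1
    exact SlashInvariantFormClass.slash_action_eq E₄ _ ⟨conjMat N γ hγ, rfl⟩
  holo' := (ModularForm.translate E₄ (heckeDiagMatrix N)).holo'
  bdd_at_cusps' hc :=
    (ModularForm.translate E₄ (heckeDiagMatrix N)).bdd_at_cusps' (hc.mono (gamma0_le_conj N))

theorem coe_sepForm (N : ℕ) [NeZero N] :
    ⇑(sepForm N) = ⇑E₄ ∣[(4 : ℤ)] heckeDiagMatrix N := rfl

theorem sepForm_apply (N : ℕ) [NeZero N] (τ : ℍ) :
    sepForm N τ = (N : ℂ) ^ 3 * E₄ (heckeDiagMatrix N • τ) := by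
  rw [coe_sepForm, ModularForm.slash_apply, σ_heckeDiagMatrix, denom_heckeDiagMatrix (NeZero.ne N),
    det_heckeDiagMatrix (NeZero.ne N)]
  simp
  ring


namespace Separator

open Function.Periodic in
theorem qParam_diag (N : ℕ) [NeZero N] (τ : ℍ) :
    qParam 1 ((heckeDiagMatrix N • τ : ℍ) : ℂ) = qParam 1 (τ : ℂ) ^ N := by
  rw [coe_heckeDiagMatrix_smul (NeZero.ne N), qParam, qParam, ← Complex.exp_nat_mul]
  congr 1
  push_cast
  ring

/-- The `q`-expansion coefficients of `sepForm N`. -/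
noncomputable def sepCoeff (N : ℕ) (n : ℕ) : ℂ :=
  if N ∣ n then (N : ℂ) ^ 3 * (qExpansion 1 E₄).coeff (n / N) else 0

open Function.Periodic in
theorem hasSum_sepForm (N : ℕ) [NeZero N] (τ : ℍ) :
    HasSum (fun n : ℕ => sepCoeff N n • qParam 1 (τ : ℂ) ^ n) (sepForm N τ) := by
  have hN : N ≠ 0 := NeZero.ne N
  have h1 := ModularForm.hasSum_qExpansion (f := E₄) one_pos
    one_mem_strictPeriods_SL (heckeDiagMatrix N • τ)
  rw [qParam_diag] at h1
  have h2 := h1.mul_left ((N : ℂ) ^ 3)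
  rw [← sepForm_apply] at h2
  have hinj : Function.Injective (fun m : ℕ => N * m) := fun a b h =>
    Nat.eq_of_mul_eq_mul_left (Nat.pos_of_ne_zero hN) h
  rw [← hinj.hasSum_iff]
  · have hfun : ((fun n : ℕ => sepCoeff N n • qParam 1 (τ : ℂ) ^ n) ∘ fun m : ℕ => N * m) =
        fun i => (N : ℂ) ^ 3 * ((qExpansion 1 E₄).coeff i * (qParam 1 (τ : ℂ) ^ N) ^ i) := by
      funext m
      simp only [Function.comp_apply, sepCoeff, dvd_mul_right, if_true,
        Nat.mul_div_cancel_left _ (Nat.pos_of_ne_zero hN), smul_eq_mul, pow_mul]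
      ring
    rw [hfun]
    exact h2
  · intro n hn
    have : ¬ N ∣ n := fun ⟨m, hm⟩ => hn ⟨m, hm.symm⟩
    simp [sepCoeff, this]

end Separator

/-- The `q`-expansion of the separator. -/
theorem sepForm_qExpansion_coeff (N : ℕ) [NeZero N] (n : ℕ) :
    (qExpansion 1 (sepForm N)).coeff n =
      if N ∣ n then (N : ℂ) ^ 3 * (qExpansion 1 E₄).coeff (n / N) else 0 :=
  (ModularFormClass.qExpansion_coeff_unique one_pos
    (CongruenceSubgroup.one_mem_strictPeriods_Gamma0 N) (hasSum_sepForm N) n).symm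


namespace Separator

theorem E₄_qExpansion_rat (m : ℕ) : ∃ r : ℚ, (r : ℂ) = (qExpansion 1 E₄).coeff m := by
  rw [EisensteinSeries.E_qExpansion_coeff (by norm_num : 3 ≤ 4) ⟨2, rfl⟩ m]
  split_ifs with h
  · exact ⟨1, by simp⟩
  · exact ⟨-(2 * 4 / bernoulli 4) * (ArithmeticFunction.sigma (4 - 1) m : ℚ), by push_cast; ring⟩

end Separator

/-- The `q`-expansion of the separator is rational. -/
theorem sepForm_qExpansion_rat (N : ℕ) [NeZero N] (n : ℕ) :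
    ∃ r : ℚ, (r : ℂ) = (qExpansion 1 (sepForm N)).coeff n := by
  rw [sepForm_qExpansion_coeff]
  split_ifs with h
  · obtain ⟨r, hr⟩ := E₄_qExpansion_rat (n / N)
    exact ⟨(N : ℚ) ^ 3 * r, by rw [← hr]; push_cast; ring⟩
  · exact ⟨0, by simp⟩

/-- The `q`-expansion of the separator is fixed by every ring endomorphism of `ℂ`. -/
theorem sepForm_qExpansion_map (N : ℕ) [NeZero N] (σ : ℂ →+* ℂ) :
    (qExpansion 1 (sepForm N)).map σ = qExpansion 1 (sepForm N) := by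
  ext n
  obtain ⟨r, hr⟩ := sepForm_qExpansion_rat N n
  rw [PowerSeries.coeff_map, ← hr, map_ratCast]


namespace Separator

theorem exists_SL2 (a b c d : ℤ) (h : a * d - b * c = 1) :
    ∃ g : SL(2, ℤ), g 0 0 = a ∧ g 0 1 = b ∧ g 1 0 = c ∧ g 1 1 = d :=
  ⟨⟨!![a, b; c, d], by rw [Matrix.det_fin_two_of]; exact h⟩, rfl, rfl, rfl, rfl⟩

/-- Decomposition `diag(N, 1) * γ = g * u` with `g ∈ SL(2, ℤ)` and `u = !![t, y; 0, z]` an upper
triangular integer matrix with `t * z = N`, `0 < t`, `t ∣ γ 1 0`. -/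
theorem exists_decomp (N : ℕ) [NeZero N] (γ : SL(2, ℤ)) :
    ∃ (g : SL(2, ℤ)) (t y z : ℤ) (htz : (t : ℝ) * (z : ℝ) ≠ 0), t * z = N ∧ 0 < t ∧ t ∣ γ 1 0 ∧
      heckeDiagMatrix N * mapGL ℝ γ = mapGL ℝ g * upperTriangularGL t y z htz := by
  have hN : (N : ℤ) ≠ 0 := by exact_mod_cast NeZero.ne N
  have hdet := γ.det_coe
  rw [Matrix.det_fin_two] at hdet
  obtain ⟨x, hx⟩ : ∃ x : ℤ, x = N * γ 0 0 := ⟨_, rfl⟩
  obtain ⟨c, hc⟩ : ∃ c : ℤ, c = γ 1 0 := ⟨_, rfl⟩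
  have hxc : x ≠ 0 ∨ c ≠ 0 := by
    by_contra hcon
    obtain ⟨h1, h2⟩ := not_or.mp hcon
    rw [not_not] at h1 h2
    rw [hx] at h1
    rw [hc] at h2
    have h3 : γ 0 0 = 0 := by
      rcases mul_eq_zero.mp h1 with h | h
      · exact absurd h hN
      · exact h
    rw [h3, h2] at hdet
    simp at hdet
  have ht : (0 : ℤ) < (Int.gcd x c : ℤ) := by
    exact_mod_cast Int.gcd_pos_iff.mpr hxc
  obtain ⟨x', hx'⟩ : (Int.gcd x c : ℤ) ∣ x := Int.gcd_dvd_left x c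
  obtain ⟨c', hc'⟩ : (Int.gcd x c : ℤ) ∣ c := Int.gcd_dvd_right x c
  have hbez : (Int.gcd x c : ℤ) = x * Int.gcdA x c + c * Int.gcdB x c := Int.gcd_eq_gcd_ab x c
  obtain ⟨t, htdef⟩ : ∃ t : ℤ, t = (Int.gcd x c : ℤ) := ⟨_, rfl⟩
  obtain ⟨A, hA⟩ : ∃ A : ℤ, A = Int.gcdA x c := ⟨_, rfl⟩
  obtain ⟨B, hB⟩ : ∃ B : ℤ, B = Int.gcdB x c := ⟨_, rfl⟩
  rw [← htdef] at ht hx' hc' hbez
  rw [← hA, ← hB] at hbez
  have h1 : x' * A + c' * B = 1 := by
    have h : t * (x' * A + c' * B) = t * 1 := by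
      rw [mul_one]
      linear_combination (-1 : ℤ) * hbez + (-A) * hx' + (-B) * hc'
    exact mul_left_cancel₀ ht.ne' h
  obtain ⟨g, g00, g01, g10, g11⟩ := exists_SL2 x' (-B) c' A (by linarith)
  have htz : t * (x' * γ 1 1 - c' * N * γ 0 1) = N := by
    linear_combination (N : ℤ) * hdet + (-(γ 1 1)) * hx' + (γ 1 1) * hx + (N * γ 0 1) * hc'
      + (-(N * γ 0 1 : ℤ)) * hc
  have htzR : (t : ℝ) * ((x' * γ 1 1 - c' * N * γ 0 1 : ℤ) : ℝ) ≠ 0 := by
    have : ((t * (x' * γ 1 1 - c' * N * γ 0 1) : ℤ) : ℝ) ≠ 0 := by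
      rw [htz]
      exact_mod_cast NeZero.ne N
    simpa using this
  refine ⟨g, t, A * N * γ 0 1 + B * γ 1 1, x' * γ 1 1 - c' * N * γ 0 1, htzR, htz, ht,
    ⟨c', by rw [← hc]; exact hc'⟩, ?_⟩
  apply Units.ext
  rw [Units.val_mul, Units.val_mul, val_heckeDiagMatrix (NeZero.ne N), val_upperTriangularGL]
  have e00 : (N : ℤ) * γ 0 0 = g 0 0 * t := by rw [g00, ← hx, hx']; ring
  have e01 : (N : ℤ) * γ 0 1 =
      g 0 0 * (A * N * γ 0 1 + B * γ 1 1) + g 0 1 * (x' * γ 1 1 - c' * N * γ 0 1) := by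
    rw [g00, g01]
    linear_combination (-(N * γ 0 1 : ℤ)) * h1
  have e10 : γ 1 0 = g 1 0 * t := by rw [g10, ← hc, hc']; ring
  have e11 : γ 1 1 =
      g 1 0 * (A * N * γ 0 1 + B * γ 1 1) + g 1 1 * (x' * γ 1 1 - c' * N * γ 0 1) := by
    rw [g10, g11]
    linear_combination (-(γ 1 1 : ℤ)) * h1
  ext i j
  fin_cases i <;> fin_cases j
  · have := congrArg (fun n : ℤ => (n : ℝ)) e00
    simpa [Matrix.mul_apply, Fin.sum_univ_two, mapGL_apply] using this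
  · have := congrArg (fun n : ℤ => (n : ℝ)) e01
    simpa [Matrix.mul_apply, Fin.sum_univ_two, mapGL_apply] using this
  · have := congrArg (fun n : ℤ => (n : ℝ)) e10
    simpa [Matrix.mul_apply, Fin.sum_univ_two, mapGL_apply] using this
  · have := congrArg (fun n : ℤ => (n : ℝ)) e11
    simpa [Matrix.mul_apply, Fin.sum_univ_two, mapGL_apply] using this

end Separator


namespace Separator

theorem tendsto_E₄ : Tendsto (⇑E₄ : ℍ → ℂ) atImInfty (𝓝 1) := by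
  have hper := SlashInvariantFormClass.periodic_comp_ofComplex E₄ one_mem_strictPeriods_SL
  have han := ModularFormClass.analyticAt_cuspFunction_zero E₄ one_pos one_mem_strictPeriods_SL
  have h0 : cuspFunction 1 E₄ 0 = 1 := by
    have h := EisensteinSeries.E_qExpansion_coeff_zero (by norm_num : 3 ≤ 4) ⟨2, rfl⟩
    rw [qExpansion_coeff] at h
    simpa using h
  have hcomp : (cuspFunction 1 E₄ ∘ fun τ : ℍ ↦ Function.Periodic.qParam 1 τ) = E₄ := by
    funext τ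
    simpa using eq_cuspFunction τ one_ne_zero hper
  have h := han.continuousAt.tendsto.comp (qParam_tendsto_atImInfty one_pos)
  rw [h0, hcomp] at h
  exact h

theorem det_upper (t y z : ℝ) (htz : t * z ≠ 0) :
    ((upperTriangularGL t y z htz).det : ℝ) = t * z := by
  rw [Matrix.GeneralLinearGroup.val_det_apply, val_upperTriangularGL, Matrix.det_fin_two_of]
  ring

theorem slash_upper_apply (f : ℍ → ℂ) (k : ℤ) (t y z : ℝ) (htz : t * z ≠ 0) (hpos : 0 < t * z)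
    (τ : ℍ) :
    (f ∣[k] upperTriangularGL t y z htz) τ =
      f (upperTriangularGL t y z htz • τ) * ((t * z : ℝ) : ℂ) ^ (k - 1) * (z : ℂ) ^ (-k) := by
  have hdet : 0 < ((upperTriangularGL t y z htz).det : ℝ) := by rw [det_upper]; exact hpos
  have hσ : UpperHalfPlane.σ (upperTriangularGL t y z htz) = .refl ℝ ℂ := by
    rw [UpperHalfPlane.σ, if_pos hdet]
  have hden : UpperHalfPlane.denom (upperTriangularGL t y z htz) τ = z := by
    simp [UpperHalfPlane.denom, val_upperTriangularGL]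
  rw [ModularForm.slash_apply, hσ, hden, det_upper, abs_of_pos hpos]
  simp

theorem tendsto_slash_upper (t y z : ℝ) (htz : t * z ≠ 0) (hpos : 0 < t * z) :
    Tendsto (⇑E₄ ∣[(4 : ℤ)] upperTriangularGL t y z htz) atImInfty
      (𝓝 (((t * z : ℝ) : ℂ) ^ ((4 : ℤ) - 1) * (z : ℂ) ^ (-(4 : ℤ)))) := by
  have h10 : (upperTriangularGL t y z htz) 1 0 = 0 := by simp [val_upperTriangularGL]
  have h1 : Tendsto (fun τ : ℍ => E₄ (upperTriangularGL t y z htz • τ)) atImInfty (𝓝 1) :=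
    tendsto_E₄.comp (tendsto_smul_atImInfty h10)
  have h2 := (h1.mul_const (((t * z : ℝ) : ℂ) ^ ((4 : ℤ) - 1))).mul_const ((z : ℂ) ^ (-(4 : ℤ)))
  rw [one_mul] at h2
  refine h2.congr fun τ => ?_
  rw [slash_upper_apply _ _ _ _ _ htz hpos]

end Separator


/-- The separator tends to `N ^ 3` at `i∞`. -/
theorem tendsto_sepForm (N : ℕ) [NeZero N] :
    Tendsto (⇑(sepForm N)) atImInfty (𝓝 ((N : ℂ) ^ 3)) := by
  have h10 : (heckeDiagMatrix N) 1 0 = 0 := by simp [val_heckeDiagMatrix (NeZero.ne N)]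
  have h := (tendsto_E₄.comp (tendsto_smul_atImInfty h10)).const_mul ((N : ℂ) ^ 3)
  rw [mul_one] at h
  exact h.congr fun τ => (sepForm_apply N τ).symm

/-- The stabiliser of the separator in `SL(2, ℤ)` is exactly `Γ₀(N)`: a translate by an element
outside `Γ₀(N)` is a different function. -/
theorem sepForm_slash_ne (N : ℕ) [NeZero N] (γ : SL(2, ℤ)) (hγ : γ ∉ Gamma0 N) :
    (⇑(sepForm N)) ∣[(4 : ℤ)] γ ≠ ⇑(sepForm N) := by
  intro heq
  obtain ⟨g, t, y, z, htz, htzN, ht, htdvd, hdec⟩ := exists_decomp N γ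
  have hNpos : (0 : ℤ) < (N : ℤ) := by exact_mod_cast Nat.pos_of_ne_zero (NeZero.ne N)
  have h1 : (⇑(sepForm N)) ∣[(4 : ℤ)] γ = ⇑E₄ ∣[(4 : ℤ)] upperTriangularGL t y z htz := by
    rw [coe_sepForm]
    change (⇑E₄ ∣[(4 : ℤ)] heckeDiagMatrix N) ∣[(4 : ℤ)] (mapGL ℝ γ) = _
    rw [← SlashAction.slash_mul, hdec, SlashAction.slash_mul]
    congr 1
    exact SlashInvariantFormClass.slash_action_eq E₄ _ ⟨g, rfl⟩
  have hposR : (0 : ℝ) < (t : ℝ) * (z : ℝ) := by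
    have : (0 : ℤ) < t * z := by rw [htzN]; exact hNpos
    exact_mod_cast this
  have hlim1 := tendsto_slash_upper t y z htz hposR
  rw [← h1, heq] at hlim1
  have huniq := tendsto_nhds_unique hlim1 (tendsto_sepForm N)
  have htzC : (((t : ℝ) * (z : ℝ) : ℝ) : ℂ) = (N : ℂ) := by
    have : ((t * z : ℤ) : ℂ) = ((N : ℤ) : ℂ) := by rw [htzN]
    push_cast at this ⊢
    exact this
  rw [htzC] at huniq
  have hN0 : (N : ℂ) ≠ 0 := by exact_mod_cast NeZero.ne N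
  have hz0 : z ≠ 0 := by
    rintro rfl
    rw [mul_zero] at htzN
    exact absurd htzN.symm hNpos.ne'
  have hzC : (z : ℂ) ≠ 0 := by exact_mod_cast hz0
  have hz4 : (z : ℂ) ^ (4 : ℕ) = 1 := by
    have h3 : (N : ℂ) ^ ((4 : ℤ) - 1) ≠ 0 := zpow_ne_zero _ hN0
    have h4 : (N : ℂ) ^ ((4 : ℤ) - 1) = (N : ℂ) ^ 3 := by norm_num [zpow_ofNat]
    rw [h4] at huniq
    have h5 : ((z : ℂ) ^ (-(4 : ℤ))) = 1 := by
      have h6 : (N : ℂ) ^ 3 * (z : ℂ) ^ (-(4 : ℤ)) = (N : ℂ) ^ 3 * 1 := by rw [mul_one]; exact huniq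
      exact mul_left_cancel₀ (pow_ne_zero 3 hN0) h6
    rw [zpow_neg, inv_eq_one] at h5
    exact_mod_cast h5
  have hz4' : z ^ 4 = 1 := by exact_mod_cast hz4
  have hzpos : 0 < z := by
    by_contra hneg
    have hz' : z ≤ 0 := not_lt.mp hneg
    have : t * z ≤ 0 := mul_nonpos_of_nonneg_of_nonpos ht.le hz'
    rw [htzN] at this
    exact absurd this (not_le.mpr hNpos)
  have hz1 : z = 1 := (pow_eq_one_iff_of_nonneg hzpos.le (by norm_num)).mp hz4'
  rw [hz1, mul_one] at htzN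
  apply hγ
  rw [Gamma0_mem]
  rw [htzN] at htdvd
  exact (ZMod.intCast_zmod_eq_zero_iff_dvd _ _).mpr htdvd

end Fermat.Agent.S23
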