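import Fermat.Agent.S23.ConjWire
import Fermat.Agent.S23.Reduce

/-!
# S23: the conjugation property (P3) and the integral structure, given a separator

If there is a modular form `H` on `Γ₀(N)` with rational `q`-expansion whose translates by
the elements of `SL(2, ℤ)` outside `Γ₀(N)` differ from `H`, then the space of cusp forms of
weight `2` on `Γ₀(N)` is stable under every automorphism of `ℂ` acting on `q`-expansions, and
hence has an integral structure.
-/

set_option autoImplicit false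

open UpperHalfPlane ModularForm CongruenceSubgroup
open scoped MatrixGroups ModularForm Manifold

namespace Fermat.Agent.S23

/-- **(P3)**, given a rational separator `H`: the `q`-expansion of a weight `2` cusp form on
`Γ₀(N)`, conjugated by a ring automorphism of `ℂ`, is again the `q`-expansion of such a form. -/
theorem exists_conj_of_sep {N : ℕ} [NeZero N] {w : ℤ} (H : ModularForm (Gamma0 N) w)
    (hrat : ∀ n : ℕ, ∃ r : ℚ, (r : ℂ) = (qExpansion 1 (H : ℍ → ℂ)).coeff n)
    (hsep : ∀ g : SL(2, ℤ), g ∉ Gamma0 N → ((H : ℍ → ℂ) ∣[w] g) ≠ (H : ℍ → ℂ))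
    (σ : ℂ ≃+* ℂ) (f : CuspForm (Gamma0 N) 2) :
    ∃ g : CuspForm (Gamma0 N) 2,
      ∀ n : ℕ, ModularFormClass.qCoeff g n = σ (ModularFormClass.qCoeff f n) := by
  obtain ⟨g, hg⟩ := exists_isConj_of_sep (σ : ℂ →+* ℂ) H
    (IsConj.of_rat _ (Nice.of_Gamma0 H) hrat) hsep f
  exact ⟨g, fun n => hg.coeff n⟩

/-- S23, given a rational separator `H`. -/
theorem hasIntegralStructure_of_sep (N : ℕ) [NeZero N] {w : ℤ} (H : ModularForm (Gamma0 N) w)
    (hrat : ∀ n : ℕ, ∃ r : ℚ, (r : ℂ) = (qExpansion 1 (H : ℍ → ℂ)).coeff n)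
    (hsep : ∀ g : SL(2, ℤ), g ∉ Gamma0 N → ((H : ℍ → ℂ) ∣[w] g) ≠ (H : ℍ → ℂ)) :
    CuspForm.HasIntegralStructure N 2 :=
  hasIntegralStructure_of_conj N fun σ f => exists_conj_of_sep H hrat hsep σ f

end Fermat.Agent.S23
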