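/-
S23 package (d): conjugation of level one modular forms.

For every ring homomorphism `σ : ℂ →+* ℂ` and every level one modular form `e` there is a level
one modular form of the same weight whose `q`-expansion is the `σ`-conjugate of that of `e`
(coefficientwise); the same for cusp forms.
-/
import Mathlib.NumberTheory.ModularForms.LevelOne.GradedRing

set_option autoImplicit false

noncomputable section

namespace Fermat.Agent.S23

open UpperHalfPlane ModularForm ModularFormClass MatrixGroups EisensteinSeries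

namespace LevelOneConj

/-- The subring of power series with rational coefficients. -/
def ratSeries : Subring (PowerSeries ℂ) := (PowerSeries.map (algebraMap ℚ ℂ)).range

theorem mem_ratSeries_iff (p : PowerSeries ℂ) :
    p ∈ ratSeries ↔ ∀ n : ℕ, ∃ r : ℚ, (r : ℂ) = PowerSeries.coeff n p := by
  constructor
  · rintro ⟨p0, rfl⟩ n
    exact ⟨PowerSeries.coeff n p0, by rw [PowerSeries.coeff_map]; rfl⟩
  · intro h
    choose r hr using h
    refine ⟨PowerSeries.mk r, ?_⟩
    ext n
    rw [PowerSeries.coeff_map, PowerSeries.coeff_mk, ← hr n]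
    rfl

/-- Power series with rational coefficients are fixed by coefficientwise conjugation. -/
theorem map_eq_of_mem_ratSeries (σ : ℂ →+* ℂ) {p : PowerSeries ℂ} (hp : p ∈ ratSeries) :
    p.map σ = p := by
  ext n
  obtain ⟨r, hr⟩ := (mem_ratSeries_iff p).mp hp n
  rw [PowerSeries.coeff_map, ← hr, map_ratCast]

theorem smul_mem_ratSeries (r : ℚ) {p : PowerSeries ℂ} (hp : p ∈ ratSeries) :
    (r : ℂ) • p ∈ ratSeries := by
  rw [mem_ratSeries_iff] at hp ⊢
  intro n
  obtain ⟨s, hs⟩ := hp n
  exact ⟨r * s, by rw [PowerSeries.coeff_smul, ← hs, smul_eq_mul]; push_cast; rfl⟩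

/-- The Eisenstein series have rational `q`-expansions. -/
theorem qExpansion_E_mem_ratSeries {k : ℕ} (hk : 3 ≤ k) (hk2 : Even k) :
    qExpansion 1 (E hk) ∈ ratSeries := by
  rw [mem_ratSeries_iff]
  intro n
  rw [E_qExpansion_coeff hk hk2]
  split_ifs
  · exact ⟨1, by simp⟩
  · exact ⟨-(2 * k / bernoulli k) * (ArithmeticFunction.sigma (k - 1) n), by push_cast; rfl⟩

/-- The discriminant has a rational `q`-expansion. -/
theorem qExpansion_discriminant_mem_ratSeries :
    qExpansion 1 ModularForm.discriminant ∈ ratSeries := by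
  let F : ModularForm 𝒮ℒ 12 :=
    ModularForm.mcast (by decide) (E₄.pow 3) - ModularForm.mcast (by decide) (E₆.pow 2)
  have hF : qExpansion 1 F = qExpansion 1 E₄ ^ 3 - qExpansion 1 E₆ ^ 2 := by
    simp only [F, FunLike.coe_sub, ModularForm.qExpansion_sub one_pos one_mem_strictPeriods_SL,
      ModularForm.qExpansion_mcast, ModularForm.qExpansion_pow one_pos one_mem_strictPeriods_SL]
  have hΔ : (ModularForm.discriminant : ℍ → ℂ) = ⇑(((1 / 1728 : ℚ) : ℂ) • F) := by
    funext z
    rw [discriminant_eq_E₄_cube_sub_E₆_sq z]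
    simp only [F, smul_apply, sub_apply, coe_mcast, coe_pow, Pi.pow_apply, smul_eq_mul]
    push_cast
    ring
  rw [hΔ, FunLike.coe_smul, ModularForm.qExpansion_smul one_pos one_mem_strictPeriods_SL, hF]
  exact smul_mem_ratSeries _ (ratSeries.sub_mem
    (ratSeries.pow_mem (qExpansion_E_mem_ratSeries _ ⟨2, rfl⟩) 3)
    (ratSeries.pow_mem (qExpansion_E_mem_ratSeries _ ⟨3, rfl⟩) 2))

/-- The property to be proved, for a given weight. -/
def HasConj (σ : ℂ →+* ℂ) (k : ℤ) : Prop :=
  ∀ e : ModularForm 𝒮ℒ k, ∃ e' : ModularForm 𝒮ℒ k, qExpansion 1 e' = (qExpansion 1 e).map σ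

theorem hasConj_of_forall_eq_zero (σ : ℂ →+* ℂ) {k : ℤ}
    (h : ∀ e : ModularForm 𝒮ℒ k, (e : ℍ → ℂ) = 0) : HasConj σ k := by
  intro e
  refine ⟨0, ?_⟩
  rw [h e, h 0, qExpansion_zero, map_zero]

theorem hasConj_zero (σ : ℂ →+* ℂ) : HasConj σ 0 := by
  intro e
  obtain ⟨c, hc⟩ := levelOne_weight_zero_const e
  have h1 : ∀ a : ℂ, qExpansion 1 (⇑(a • (1 : ModularForm 𝒮ℒ 0))) = PowerSeries.C a := by
    intro a
    rw [FunLike.coe_smul, ModularForm.qExpansion_smul one_pos one_mem_strictPeriods_SL,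
      ModularForm.qExpansion_one, PowerSeries.smul_eq_C_mul, mul_one]
  have he : (e : ℍ → ℂ) = ⇑(c • (1 : ModularForm 𝒮ℒ 0)) := by
    rw [hc]
    funext z
    simp
  refine ⟨σ c • (1 : ModularForm 𝒮ℒ 0), ?_⟩
  rw [h1, he, h1, PowerSeries.map_C]

/-- The inductive step at an even weight `k ≥ 4`. -/
theorem hasConj_of_sub_twelve (σ : ℂ →+* ℂ) {k : ℕ} (hk : 3 ≤ k) (hk2 : Even k)
    (h : HasConj σ ((k : ℤ) - 12)) : HasConj σ (k : ℤ) := by
  intro e
  set a₀ : ℂ := PowerSeries.coeff 0 (qExpansion 1 e) with ha₀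
  -- subtract the Eisenstein series
  let e₁ : ModularForm 𝒮ℒ (k : ℤ) := e - a₀ • E hk
  have hq₁ : qExpansion 1 e₁ = qExpansion 1 e - a₀ • qExpansion 1 (E hk) := by
    show qExpansion 1 (⇑(e - a₀ • E hk)) = _
    rw [FunLike.coe_sub, ModularForm.qExpansion_sub one_pos one_mem_strictPeriods_SL,
      FunLike.coe_smul, ModularForm.qExpansion_smul one_pos one_mem_strictPeriods_SL]
  have hcusp : PowerSeries.coeff 0 (qExpansion 1 e₁) = 0 := by
    rw [hq₁, map_sub, PowerSeries.coeff_smul, E_qExpansion_coeff_zero hk hk2, smul_eq_mul, mul_one,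
      sub_self]
  have hfac := qExpansion_eq_qExpansion_discriminant_mul e₁ hcusp
  obtain ⟨g', hg'⟩ := h (CuspForm.discriminantEquiv (toCuspForm e₁ hcusp))
  -- the conjugate
  let e' : ModularForm 𝒮ℒ (k : ℤ) :=
    σ a₀ • E hk + CuspForm.toModularFormₗ (CuspForm.ofMulDiscriminant g')
  have hmul : qExpansion 1 (⇑(CuspForm.toModularFormₗ (CuspForm.ofMulDiscriminant g'))) =
      qExpansion 1 ModularForm.discriminant * qExpansion 1 g' := by
    have : (⇑(CuspForm.toModularFormₗ (CuspForm.ofMulDiscriminant g')) : ℍ → ℂ) =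
        ⇑CuspForm.discriminant * ⇑g' := by
      funext z
      rfl
    rw [this]
    exact ModularForm.qExpansion_mul_coe one_pos one_mem_strictPeriods_SL _ _
  refine ⟨e', ?_⟩
  have hq' : qExpansion 1 e' = σ a₀ • qExpansion 1 (E hk) +
      qExpansion 1 ModularForm.discriminant * qExpansion 1 g' := by
    show qExpansion 1 (⇑(σ a₀ • E hk +
      CuspForm.toModularFormₗ (CuspForm.ofMulDiscriminant g'))) = _
    rw [FunLike.coe_add, ModularForm.qExpansion_add one_pos one_mem_strictPeriods_SL,
      FunLike.coe_smul, ModularForm.qExpansion_smul one_pos one_mem_strictPeriods_SL, hmul]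
  have hqe : qExpansion 1 e = a₀ • qExpansion 1 (E hk) +
      qExpansion 1 ModularForm.discriminant *
        qExpansion 1 (CuspForm.discriminantEquiv (toCuspForm e₁ hcusp)) := by
    rw [← hfac, hq₁]
    ring
  rw [hq', hqe, map_add, map_mul, hg', map_eq_of_mem_ratSeries σ qExpansion_discriminant_mem_ratSeries,
    PowerSeries.smul_eq_C_mul, PowerSeries.smul_eq_C_mul, map_mul, PowerSeries.map_C,
    map_eq_of_mem_ratSeries σ (qExpansion_E_mem_ratSeries hk hk2)]

/-- All weights `≤ m` have conjugates. -/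
theorem hasConj_of_le (σ : ℂ →+* ℂ) (m : ℕ) : ∀ k : ℤ, k ≤ m → HasConj σ k := by
  induction m with
  | zero =>
    intro k hk
    rcases lt_or_eq_of_le hk with hk | hk
    · exact hasConj_of_forall_eq_zero σ fun e => levelOne_neg_weight_eq_zero (by simpa using hk) e
    · rw [hk]
      exact hasConj_zero σ
  | succ m ih =>
    intro k hk
    rcases lt_or_eq_of_le hk with hk | hk
    · exact ih k (by push_cast at hk; omega)
    · -- `k = m + 1 ≥ 1`
      rcases Int.even_or_odd k with hev | hodd
      · have hk2 : (2 : ℤ) ≤ k := by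
          obtain ⟨r, hr⟩ := hev
          push_cast at hk
          omega
        rcases eq_or_lt_of_le hk2 with h2 | h2
        · rw [← h2]
          exact hasConj_of_forall_eq_zero σ fun e => by
            rw [rank_zero_iff_forall_zero.mp levelOne_weight_two_rank_zero e]
            rfl
        · obtain ⟨n, rfl⟩ : ∃ n : ℕ, k = n := ⟨k.toNat, by omega⟩
          have hn3 : 3 ≤ n := by omega
          have hn2 : Even n := by exact_mod_cast hev
          exact hasConj_of_sub_twelve σ hn3 hn2 (ih _ (by push_cast at hk ⊢; omega))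
      · exact hasConj_of_forall_eq_zero σ fun e => by
          rw [levelOne_odd_weight_eq_zero hodd e]
          rfl

end LevelOneConj

open LevelOneConj in
/-- (d) Level one modular forms can be conjugated by any ring homomorphism of `ℂ`. -/
theorem exists_modularForm_levelOne_conj (σ : ℂ →+* ℂ) {k : ℤ} (e : ModularForm 𝒮ℒ k) :
    ∃ e' : ModularForm 𝒮ℒ k,
      UpperHalfPlane.qExpansion 1 e' = (UpperHalfPlane.qExpansion 1 e).map σ :=
  hasConj_of_le σ k.toNat k (Int.self_le_toNat k) e

/-- (d) Level one cusp forms can be conjugated by any ring homomorphism of `ℂ`. -/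
theorem exists_cuspForm_levelOne_conj (σ : ℂ →+* ℂ) {k : ℤ} (e : CuspForm 𝒮ℒ k) :
    ∃ e' : CuspForm 𝒮ℒ k,
      UpperHalfPlane.qExpansion 1 e' = (UpperHalfPlane.qExpansion 1 e).map σ := by
  obtain ⟨e', he'⟩ := exists_modularForm_levelOne_conj σ (CuspForm.toModularFormₗ e)
  have he : (⇑(CuspForm.toModularFormₗ e) : ℍ → ℂ) = ⇑e := rfl
  rw [he] at he'
  have h0 : PowerSeries.coeff 0 (qExpansion 1 e') = 0 := by
    rw [he', PowerSeries.coeff_map,
      CuspFormClass.qExpansion_coeff_zero e one_pos one_mem_strictPeriods_SL, map_zero]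
  exact ⟨toCuspForm e' h0, he'⟩

end Fermat.Agent.S23

end
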