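import Fermat.Agent.S23.ConjCalc
import Fermat.Agent.S23.LevelOneConj
import Fermat.Agent.S23.QuotCusp
import Fermat.Agent.S23.Coset

/-!
# S23, package (f): wiring of the conjugation theorem (P3)

Given a cusp form `f` of weight `2` on `Γ₀(N)` and a "separator" `H` (a modular form of weight
`w` on `Γ₀(N)` whose `q`-expansion is fixed by `σ` and whose translates by elements of
`SL(2, ℤ)` outside `Γ₀(N)` differ from `H`), the `σ`-conjugate of `f` exists as a cusp form on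
`Γ₀(N)` (`Fermat.Agent.S23.exists_isConj_of_sep`).

The proof combines the coset data (`exists_coset_data`: `f * D = Num` with `D`, `Num`
polynomials in `H` with level one coefficients, and the monic norm equation of `f`), the
conjugation of level one forms, the conjugation calculus and the division lemma
(`exists_cuspForm_of_monic_equation`).
-/

set_option autoImplicit false

open UpperHalfPlane ModularForm CongruenceSubgroup
open scoped MatrixGroups ModularForm Manifold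

namespace Fermat.Agent.S23

namespace ConjWire

/-- Slash invariance of weight `k` under `Γ₀(N)`. -/
def SlInv (N : ℕ) (k : ℤ) (u : ℍ → ℂ) : Prop := ∀ γ ∈ Gamma0 N, u ∣[k] γ = u

namespace SlInv

variable {N : ℕ} {k k₁ k₂ : ℤ} {u v : ℍ → ℂ}

theorem weight_congr (h : k₁ = k₂) (hu : SlInv N k₁ u) : SlInv N k₂ u := h ▸ hu

theorem mul (hu : SlInv N k₁ u) (hv : SlInv N k₂ v) : SlInv N (k₁ + k₂) (u * v) :=
  fun γ hγ => by rw [mul_slash_SL2, hu γ hγ, hv γ hγ]

theorem one : SlInv N 0 (1 : ℍ → ℂ) := fun _ _ => is_invariant_one _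

theorem pow (hu : SlInv N k u) (n : ℕ) : SlInv N ((n : ℤ) * k) (u ^ n) := by
  induction n with
  | zero =>
    rw [pow_zero]
    exact weight_congr (by simp) one
  | succ n ih =>
    rw [pow_succ]
    exact weight_congr (by push_cast; ring) (ih.mul hu)

theorem zero : SlInv N k (0 : ℍ → ℂ) := fun _ _ => SlashAction.zero_slash _ _

theorem smul (c : ℂ) (hu : SlInv N k u) : SlInv N k (c • u) :=
  fun γ hγ => by rw [SL_smul_slash, hu γ hγ]

theorem add (hu : SlInv N k u) (hv : SlInv N k v) : SlInv N k (u + v) :=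
  fun γ hγ => by rw [SlashAction.add_slash, hu γ hγ, hv γ hγ]

theorem sum {ι : Type*} (s : Finset ι) {F : ι → ℍ → ℂ} (h : ∀ i ∈ s, SlInv N k (F i)) :
    SlInv N k (∑ i ∈ s, F i) := by
  intro γ hγ
  rw [SlashAction.sum_slash]
  exact Finset.sum_congr rfl fun i hi => h i hi γ hγ

theorem of_levelOne {F : Type*} [FunLike F ℍ ℂ] [SlashInvariantFormClass F 𝒮ℒ k] (φ : F) :
    SlInv N k (φ : ℍ → ℂ) :=
  fun γ _ => SlashInvariantFormClass.slash_action_eq φ _ ⟨γ, rfl⟩

end SlInv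

end ConjWire

open ConjWire Polynomial in
/-- **(P3), given a separator**: if `H` is a modular form on `Γ₀(N)` whose `q`-expansion is
fixed by `σ` and which separates the cosets of `Γ₀(N)` in `SL(2, ℤ)`, then every cusp form of
weight `2` on `Γ₀(N)` has a `σ`-conjugate. -/
theorem exists_isConj_of_sep {N : ℕ} [NeZero N] (σ : ℂ →+* ℂ) {w : ℤ}
    (H : ModularForm (Gamma0 N) w) (hH : IsConj σ (H : ℍ → ℂ) (H : ℍ → ℂ))
    (hsep : ∀ g : SL(2, ℤ), g ∉ Gamma0 N → ((H : ℍ → ℂ) ∣[w] g) ≠ (H : ℍ → ℂ))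
    (f : CuspForm (Gamma0 N) 2) :
    ∃ g : CuspForm (Gamma0 N) 2, IsConj σ (f : ℍ → ℂ) (g : ℍ → ℂ) := by
  classical
  obtain ⟨μ, P, L, Ψ, hμ, hP, hPe, hLΨ, hLe, hΨe, hne⟩ := exists_coset_data H f hsep
  -- the level one coefficient forms and their conjugates
  choose e he using fun m : Fin μ => hPe m m.2
  choose lam hlam using fun j : Fin μ => hLe j j.2
  choose psi hpsi using fun j : Fin μ => hΨe j j.2
  choose e' he' using fun m => exists_cuspForm_levelOne_conj σ (e m)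
  choose lam' hlam' using fun j => exists_cuspForm_levelOne_conj σ (lam j)
  choose psi' hpsi' using fun j => exists_modularForm_levelOne_conj σ (psi j)
  have hce : ∀ m, IsConj σ (e m : ℍ → ℂ) (e' m : ℍ → ℂ) := fun m =>
    ⟨Nice.of_levelOne _, Nice.of_levelOne _, he' m⟩
  have hclam : ∀ j, IsConj σ (lam j : ℍ → ℂ) (lam' j : ℍ → ℂ) := fun j =>
    ⟨Nice.of_levelOne _, Nice.of_levelOne _, hlam' j⟩
  have hcpsi : ∀ j, IsConj σ (psi j : ℍ → ℂ) (psi' j : ℍ → ℂ) := fun j =>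
    ⟨Nice.of_levelOne _, Nice.of_levelOne _, hpsi' j⟩
  -- denominator and numerator, and their conjugates
  set D : ℍ → ℂ := ∑ j : Fin μ, (psi j : ℍ → ℂ) * (H : ℍ → ℂ) ^ (j : ℕ) with hD
  set Num : ℍ → ℂ := ∑ j : Fin μ, (lam j : ℍ → ℂ) * (H : ℍ → ℂ) ^ (j : ℕ) with hNum
  set D' : ℍ → ℂ := ∑ j : Fin μ, (psi' j : ℍ → ℂ) * (H : ℍ → ℂ) ^ (j : ℕ) with hD'
  set Num' : ℍ → ℂ := ∑ j : Fin μ, (lam' j : ℍ → ℂ) * (H : ℍ → ℂ) ^ (j : ℕ) with hNum'
  have hDz : ∀ z, D z = (Ψ z).eval (H z) := by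
    intro z
    rw [eval_eq_sum_range' (hLΨ z).2.1, ← Fin.sum_univ_eq_sum_range
      (fun i => (Ψ z).coeff i * H z ^ i) μ, hD]
    simp only [Finset.sum_apply, Pi.mul_apply, Pi.pow_apply]
    exact Finset.sum_congr rfl fun j _ => by rw [hpsi j z]
  have hNumz : ∀ z, Num z = (L z).eval (H z) := by
    intro z
    rw [eval_eq_sum_range' (hLΨ z).1, ← Fin.sum_univ_eq_sum_range
      (fun i => (L z).coeff i * H z ^ i) μ, hNum]
    simp only [Finset.sum_apply, Pi.mul_apply, Pi.pow_apply]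
    exact Finset.sum_congr rfl fun j _ => by rw [hlam j z]
  have hfD : (f : ℍ → ℂ) * D = Num := by
    funext z
    rw [Pi.mul_apply, hDz z, hNumz z, (hLΨ z).2.2]
  have hD0 : D ≠ 0 := by
    obtain ⟨z, hz⟩ := hne
    intro h0
    apply hz
    rw [← hDz z, h0, Pi.zero_apply]
  have hmon : ∀ z, f z ^ μ + ∑ m : Fin μ, e m z * f z ^ (m : ℕ) = 0 := by
    intro z
    obtain ⟨hmonic, hdeg, hroot⟩ := hP z
    have h1 := hmonic.as_sum
    rw [hdeg] at h1
    rw [h1] at hroot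
    simp only [eval_add, eval_pow, eval_X, eval_finsetSum, eval_mul, eval_C] at hroot
    rw [← Fin.sum_univ_eq_sum_range (fun i => (P z).coeff i * f z ^ i) μ] at hroot
    rw [← hroot]
    congr 1
    exact Finset.sum_congr rfl fun m _ => by rw [he m z]
  have hcD : IsConj σ D D' := IsConj.sum _ fun j _ => (hcpsi j).mul (hH.pow _)
  have hcNum : IsConj σ Num Num' := IsConj.sum _ fun j _ => (hclam j).mul (hH.pow _)
  -- the homogenised norm equation and its conjugate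
  have hE : Num ^ μ + ∑ m : Fin μ, (e m : ℍ → ℂ) * Num ^ (m : ℕ) * D ^ (μ - (m : ℕ)) = 0 := by
    rw [← hfD]
    funext z
    simp only [Pi.add_apply, Pi.pow_apply, Pi.mul_apply, Finset.sum_apply, Pi.zero_apply]
    have h1 : ∀ m : Fin μ, e m z * (f z * D z) ^ (m : ℕ) * D z ^ (μ - (m : ℕ)) =
        D z ^ μ * (e m z * f z ^ (m : ℕ)) := by
      intro m
      have hm : (m : ℕ) + (μ - (m : ℕ)) = μ := Nat.add_sub_cancel' m.2.le
      calc e m z * (f z * D z) ^ (m : ℕ) * D z ^ (μ - (m : ℕ))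
          = e m z * f z ^ (m : ℕ) * (D z ^ (m : ℕ) * D z ^ (μ - (m : ℕ))) := by
            rw [mul_pow]; ring
        _ = D z ^ μ * (e m z * f z ^ (m : ℕ)) := by rw [← pow_add, hm]; ring
    rw [Finset.sum_congr rfl fun m _ => h1 m, ← Finset.mul_sum, mul_pow]
    have := hmon z
    linear_combination D z ^ μ * this
  have hcE : IsConj σ (Num ^ μ + ∑ m : Fin μ, (e m : ℍ → ℂ) * Num ^ (m : ℕ) * D ^ (μ - (m : ℕ)))
      (Num' ^ μ + ∑ m : Fin μ, (e' m : ℍ → ℂ) * Num' ^ (m : ℕ) * D' ^ (μ - (m : ℕ))) :=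
    (hcNum.pow μ).add (IsConj.sum _ fun m _ => ((hce m).mul (hcNum.pow _)).mul (hcD.pow _))
  have hE' := hcE.eq_zero hE
  have hE'z : ∀ z, Num' z ^ μ + ∑ m : Fin μ, e' m z * Num' z ^ (m : ℕ) *
      D' z ^ (μ - (m : ℕ)) = 0 := by
    intro z
    have := congrFun hE' z
    simpa only [Pi.add_apply, Pi.pow_apply, Pi.mul_apply, Finset.sum_apply, Pi.zero_apply]
      using this
  -- slash invariance
  have hHinv : SlInv N w (H : ℍ → ℂ) := fun γ hγ =>
    SlashInvariantFormClass.slash_action_eq H _ ⟨γ, hγ, rfl⟩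
  have hVinv : SlInv N (w * ((μ : ℤ) - 1)) D' := by
    refine SlInv.sum _ fun j _ => ?_
    refine SlInv.weight_congr ?_ ((SlInv.of_levelOne (psi' j)).mul (hHinv.pow (j : ℕ)))
    have : ((μ - 1 - (j : ℕ) : ℕ) : ℤ) = (μ : ℤ) - 1 - ((j : ℕ) : ℤ) := by
      have := j.2
      omega
    rw [this]
    ring
  have hUinv : SlInv N (2 + w * ((μ : ℤ) - 1)) Num' := by
    refine SlInv.sum _ fun j _ => ?_
    refine SlInv.weight_congr ?_ ((SlInv.of_levelOne (lam' j)).mul (hHinv.pow (j : ℕ)))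
    have : ((μ - 1 - (j : ℕ) : ℕ) : ℤ) = (μ : ℤ) - 1 - ((j : ℕ) : ℤ) := by
      have := j.2
      omega
    rw [this]
    ring
  obtain ⟨g, hg⟩ := exists_cuspForm_of_monic_equation (N := N) 2 (w * ((μ : ℤ) - 1)) μ hμ
    Num' D' (fun m => (e' m : ℍ → ℂ)) hcNum.right.mdiff hcD.right.mdiff (hcD.ne_zero hD0)
    hUinv hVinv (fun m => (CuspFormClass.holo (e' m)).continuous)
    (fun m γ => by
      have hw : (2 : ℤ) * ((μ : ℤ) - ((m : ℕ) : ℤ)) = 2 * ((μ - (m : ℕ) : ℕ) : ℤ) := by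
        have := m.2
        omega
      rw [hw]
      exact SlashInvariantFormClass.slash_action_eq (e' m) _ ⟨γ, rfl⟩)
    (fun m => CuspFormClass.zero_at_infty (e' m)) hE'z
  exact ⟨g, IsConj.of_mul_eq (Nice.of_Gamma0 f) (Nice.of_Gamma0 g) hcD hcNum hfD
    (funext fun z => (hg z).symm) hD0⟩

end Fermat.Agent.S23
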