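import Mathlib.Analysis.Complex.RemovableSingularity
import Mathlib.Analysis.Analytic.IsolatedZeros
import Mathlib.Analysis.Complex.UpperHalfPlane.Manifold
import Mathlib.Analysis.SpecialFunctions.Pow.Real

/-!
# S23, package (e): the division lemma and the root bound

* `Fermat.Agent.S23.norm_le_max_one_of_monic_root`, `norm_le_of_monic_root`,
  `tendsto_zero_of_monic_root`: bounds for roots of monic polynomials.
* `Fermat.Agent.S23.exists_mdifferentiable_quotient`: if `U, V` are holomorphic on `ℍ`,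
  `V ≠ 0`, and `U ^ μ + ∑ m < μ, c m * U ^ m * V ^ (μ - m) = 0` with continuous `c m`, then
  `U = g * V` for a holomorphic `g` which is a root of `X ^ μ + ∑ m < μ, c m * X ^ m`.
* `Fermat.Agent.S23.eq_of_mul_eq_mul_of_ne_zero`: cancellation of a nonzero holomorphic factor.
-/

set_option autoImplicit false

open Filter Topology Set UpperHalfPlane
open scoped Manifold

namespace Fermat.Agent.S23

namespace Division

/-- The crude root bound, real form. -/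
theorem norm_pow_le (μ : ℕ) (x : ℂ) (a : Fin μ → ℂ)
    (h : x ^ μ + ∑ m : Fin μ, a m * x ^ (m : ℕ) = 0) :
    ‖x‖ ^ μ ≤ ∑ m : Fin μ, ‖a m‖ * ‖x‖ ^ (m : ℕ) := by
  have h1 : x ^ μ = -∑ m : Fin μ, a m * x ^ (m : ℕ) := eq_neg_of_add_eq_zero_left h
  calc ‖x‖ ^ μ = ‖x ^ μ‖ := (norm_pow x μ).symm
    _ = ‖∑ m : Fin μ, a m * x ^ (m : ℕ)‖ := by rw [h1, norm_neg]
    _ ≤ ∑ m : Fin μ, ‖a m * x ^ (m : ℕ)‖ := norm_sum_le _ _
    _ = ∑ m : Fin μ, ‖a m‖ * ‖x‖ ^ (m : ℕ) := by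
        refine Finset.sum_congr rfl fun m _ => ?_
        rw [norm_mul, norm_pow]

theorem norm_le_sum_of_one_le (μ : ℕ) (x : ℂ) (a : Fin μ → ℂ)
    (h : x ^ μ + ∑ m : Fin μ, a m * x ^ (m : ℕ) = 0) (hx : 1 ≤ ‖x‖) :
    ‖x‖ ≤ ∑ m : Fin μ, ‖a m‖ := by
  rcases Nat.eq_zero_or_pos μ with rfl | hμ
  · simp at h
  have h1 := norm_pow_le μ x a h
  have h2 : ∑ m : Fin μ, ‖a m‖ * ‖x‖ ^ (m : ℕ) ≤ (∑ m : Fin μ, ‖a m‖) * ‖x‖ ^ (μ - 1) := by
    rw [Finset.sum_mul]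
    refine Finset.sum_le_sum fun m _ => ?_
    exact mul_le_mul_of_nonneg_left (pow_le_pow_right₀ hx (by have := m.2; omega))
      (norm_nonneg _)
  have h3 : ‖x‖ ^ μ = ‖x‖ * ‖x‖ ^ (μ - 1) := by
    rw [← pow_succ', Nat.sub_add_cancel hμ]
  have hpos : 0 < ‖x‖ ^ (μ - 1) := pow_pos (lt_of_lt_of_le one_pos hx) _
  rw [h3] at h1
  exact le_of_mul_le_mul_right (h1.trans h2) hpos

theorem norm_pow_le_sum_of_le_one (μ : ℕ) (x : ℂ) (a : Fin μ → ℂ)
    (h : x ^ μ + ∑ m : Fin μ, a m * x ^ (m : ℕ) = 0) (hx : ‖x‖ ≤ 1) :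
    ‖x‖ ^ μ ≤ ∑ m : Fin μ, ‖a m‖ := by
  refine (norm_pow_le μ x a h).trans (Finset.sum_le_sum fun m _ => ?_)
  exact mul_le_of_le_one_right (norm_nonneg _) (pow_le_one₀ (norm_nonneg _) hx)

end Division

/-- A root of the monic polynomial `X ^ μ + ∑ m < μ, a m * X ^ m` has norm at most
`max 1 (∑ ‖a m‖)`. -/
theorem norm_le_max_one_of_monic_root (μ : ℕ) (x : ℂ) (a : Fin μ → ℂ)
    (h : x ^ μ + ∑ m : Fin μ, a m * x ^ (m : ℕ) = 0) :
    ‖x‖ ≤ max 1 (∑ m : Fin μ, ‖a m‖) := by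
  rcases le_total ‖x‖ 1 with hx | hx
  · exact le_max_of_le_left hx
  · exact le_max_of_le_right (Division.norm_le_sum_of_one_le μ x a h hx)

/-- A root of the monic polynomial `X ^ μ + ∑ m < μ, a m * X ^ m` has norm at most
`max S (S ^ (1 / μ))`, `S = ∑ ‖a m‖`. -/
theorem norm_le_of_monic_root (μ : ℕ) (x : ℂ) (a : Fin μ → ℂ)
    (h : x ^ μ + ∑ m : Fin μ, a m * x ^ (m : ℕ) = 0) :
    ‖x‖ ≤ max (∑ m : Fin μ, ‖a m‖) ((∑ m : Fin μ, ‖a m‖) ^ ((1 : ℝ) / μ)) := by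
  rcases Nat.eq_zero_or_pos μ with rfl | hμ
  · simp at h
  rcases le_total ‖x‖ 1 with hx | hx
  · refine le_max_of_le_right ?_
    have h1 := Division.norm_pow_le_sum_of_le_one μ x a h hx
    have h2 : ‖x‖ = (‖x‖ ^ μ) ^ ((1 : ℝ) / μ) := by
      rw [one_div, Real.pow_rpow_inv_natCast (norm_nonneg _) hμ.ne']
    rw [h2]
    exact Real.rpow_le_rpow (pow_nonneg (norm_nonneg _) _) h1 (by positivity)
  · exact le_max_of_le_left (Division.norm_le_sum_of_one_le μ x a h hx)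

/-- If the coefficients of a family of monic polynomials of fixed degree `μ > 0` tend to zero,
then so does any family of roots. -/
theorem tendsto_zero_of_monic_root {ι : Type*} (l : Filter ι) (μ : ℕ) (_hμ : 0 < μ)
    (x : ι → ℂ) (a : Fin μ → ι → ℂ)
    (h : ∀ i, x i ^ μ + ∑ m : Fin μ, a m i * x i ^ (m : ℕ) = 0)
    (ha : ∀ m, Tendsto (a m) l (𝓝 0)) : Tendsto x l (𝓝 0) := by
  have hS : Tendsto (fun i => ∑ m : Fin μ, ‖a m i‖) l (𝓝 0) := by
    have : Tendsto (fun i => ∑ m : Fin μ, ‖a m i‖) l (𝓝 (∑ _m : Fin μ, (0 : ℝ))) :=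
      tendsto_finsetSum _ fun m _ => by simpa using (ha m).norm
    simpa using this
  rw [Metric.tendsto_nhds]
  intro ε hε
  set δ : ℝ := min ε 1 with hδ
  have hδpos : 0 < δ := lt_min hε one_pos
  have hev : ∀ᶠ i in l, ∑ m : Fin μ, ‖a m i‖ < δ ^ μ :=
    (tendsto_order.1 hS).2 _ (pow_pos hδpos μ)
  filter_upwards [hev] with i hi
  rw [dist_zero_right]
  have hδ1 : δ ^ μ ≤ 1 := pow_le_one₀ hδpos.le (min_le_right _ _)
  have hx1 : ‖x i‖ ≤ 1 := by
    by_contra hcon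
    have := Division.norm_le_sum_of_one_le μ (x i) (fun m => a m i) (h i) (not_le.mp hcon).le
    linarith
  have h1 := Division.norm_pow_le_sum_of_le_one μ (x i) (fun m => a m i) (h i) hx1
  have h2 : ‖x i‖ ^ μ < δ ^ μ := lt_of_le_of_lt h1 hi
  have h3 : ‖x i‖ < δ := lt_of_pow_lt_pow_left₀ μ hδpos.le h2
  exact lt_of_lt_of_le h3 (min_le_left _ _)

namespace Division

/-- The quotient `u / v` is a root of the monic polynomial wherever `v ≠ 0`. -/
theorem quotient_root (μ : ℕ) (u v : ℂ) (a : Fin μ → ℂ) (hv : v ≠ 0)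
    (h : u ^ μ + ∑ m : Fin μ, a m * u ^ (m : ℕ) * v ^ (μ - (m : ℕ)) = 0) :
    (u / v) ^ μ + ∑ m : Fin μ, a m * (u / v) ^ (m : ℕ) = 0 := by
  have hvμ : v ^ μ ≠ 0 := pow_ne_zero _ hv
  have key : ((u / v) ^ μ + ∑ m : Fin μ, a m * (u / v) ^ (m : ℕ)) * v ^ μ
      = u ^ μ + ∑ m : Fin μ, a m * u ^ (m : ℕ) * v ^ (μ - (m : ℕ)) := by
    rw [add_mul, Finset.sum_mul, div_pow, div_mul_cancel₀ _ hvμ]
    congr 1
    refine Finset.sum_congr rfl fun m _ => ?_
    have hm : (m : ℕ) ≤ μ := m.2.le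
    have : v ^ μ = v ^ (m : ℕ) * v ^ (μ - (m : ℕ)) := by
      rw [← pow_add, Nat.add_sub_cancel' hm]
    rw [this, div_pow]
    field_simp
  rw [h] at key
  exact (mul_eq_zero.mp key).resolve_right hvμ

/-- If `v = 0` then the equation forces `u = 0`. -/
theorem eq_zero_of_eq_zero (μ : ℕ) (u v : ℂ) (a : Fin μ → ℂ) (hv : v = 0)
    (h : u ^ μ + ∑ m : Fin μ, a m * u ^ (m : ℕ) * v ^ (μ - (m : ℕ)) = 0) : u = 0 := by
  have hsum : ∑ m : Fin μ, a m * u ^ (m : ℕ) * v ^ (μ - (m : ℕ)) = 0 := by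
    refine Finset.sum_eq_zero fun m _ => ?_
    have hm : μ - (m : ℕ) ≠ 0 := by have := m.2; omega
    rw [hv, zero_pow hm, mul_zero]
  rw [hsum, add_zero] at h
  exact pow_eq_zero_iff (fun hμ => by subst hμ; simp at h) |>.mp h

/-- The division lemma on an open preconnected subset of `ℂ`. -/
theorem exists_differentiableOn_quotient {Ω : Set ℂ} (hΩ : IsOpen Ω) (hconn : IsPreconnected Ω)
    (μ : ℕ) (u v : ℂ → ℂ) (c : Fin μ → ℂ → ℂ)
    (hu : DifferentiableOn ℂ u Ω) (hv : DifferentiableOn ℂ v Ω) (hv0 : ∃ z ∈ Ω, v z ≠ 0)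
    (hc : ∀ m, ContinuousOn (c m) Ω)
    (h : ∀ z ∈ Ω, u z ^ μ + ∑ m : Fin μ, c m z * u z ^ (m : ℕ) * v z ^ (μ - (m : ℕ)) = 0) :
    ∃ g : ℂ → ℂ, DifferentiableOn ℂ g Ω ∧ (∀ z ∈ Ω, u z = g z * v z) ∧
      ∀ z ∈ Ω, g z ^ μ + ∑ m : Fin μ, c m z * g z ^ (m : ℕ) = 0 := by
  classical
  -- zeros of `v` are isolated
  have hvan : AnalyticOnNhd ℂ v Ω := hv.analyticOnNhd hΩ
  have hiso : ∀ z₀ ∈ Ω, ∀ᶠ z in 𝓝[≠] z₀, v z ≠ 0 := by
    intro z₀ hz₀
    rcases (hvan z₀ hz₀).eventually_eq_zero_or_eventually_ne_zero with h0 | h0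
    · exfalso
      obtain ⟨w, hw, hvw⟩ := hv0
      exact hvw (hvan.eqOn_zero_of_preconnected_of_eventuallyEq_zero hconn hz₀ h0 hw)
    · exact h0
  set q : ℂ → ℂ := fun z => u z / v z with hq
  set g : ℂ → ℂ := fun z => limUnder (𝓝[≠] z) q with hg
  -- `g = q` where `v ≠ 0`
  have hgq : ∀ z ∈ Ω, v z ≠ 0 → g z = q z := by
    intro z hz hvz
    have hcont : ContinuousAt q z :=
      ((hu.differentiableAt (hΩ.mem_nhds hz)).continuousAt).div
        ((hv.differentiableAt (hΩ.mem_nhds hz)).continuousAt) hvz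
    exact (hcont.tendsto.mono_left nhdsWithin_le_nhds).limUnder_eq
  -- the root property of `q`
  have hqroot : ∀ z ∈ Ω, v z ≠ 0 → q z ^ μ + ∑ m : Fin μ, c m z * q z ^ (m : ℕ) = 0 :=
    fun z hz hvz => quotient_root μ (u z) (v z) (fun m => c m z) hvz (h z hz)
  -- local structure near each point
  have hloc : ∀ z₀ ∈ Ω, ∃ s ∈ 𝓝 z₀, s ⊆ Ω ∧ (∀ z ∈ s, z ≠ z₀ → v z ≠ 0) ∧
      DifferentiableOn ℂ g s := by
    intro z₀ hz₀
    -- a neighbourhood where the coefficients are bounded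
    have hbd : ∀ᶠ z in 𝓝 z₀, ∑ m : Fin μ, ‖c m z‖ < ∑ m : Fin μ, ‖c m z₀‖ + 1 := by
      have hcontS : ContinuousAt (fun z => ∑ m : Fin μ, ‖c m z‖) z₀ :=
        tendsto_finsetSum _ fun m _ => ((hc m).continuousAt (hΩ.mem_nhds hz₀)).norm
      exact hcontS.eventually_lt continuousAt_const (lt_add_one _)
    have hne : ∀ᶠ z in 𝓝 z₀, z ≠ z₀ → v z ≠ 0 := eventually_nhdsWithin_iff.mp (hiso z₀ hz₀)
    have hmem : ∀ᶠ z in 𝓝 z₀, z ∈ Ω := hΩ.mem_nhds hz₀
    obtain ⟨s, hs, hsprop⟩ := (hbd.and (hne.and hmem)).exists_mem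
    obtain ⟨t, hts, htopen, hz₀t⟩ := mem_nhds_iff.mp hs
    have htΩ : t ⊆ Ω := fun z hz => (hsprop z (hts hz)).2.2
    have htne : ∀ z ∈ t, z ≠ z₀ → v z ≠ 0 := fun z hz => (hsprop z (hts hz)).2.1
    have htn : t ∈ 𝓝 z₀ := htopen.mem_nhds hz₀t
    refine ⟨t, htn, htΩ, htne, ?_⟩
    have hqd : DifferentiableOn ℂ q (t \ {z₀}) := by
      intro z hz
      have hzΩ : z ∈ Ω := htΩ hz.1
      have hvz : v z ≠ 0 := htne z hz.1 hz.2
      exact ((hu.differentiableAt (hΩ.mem_nhds hzΩ)).div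
        (hv.differentiableAt (hΩ.mem_nhds hzΩ)) hvz).differentiableWithinAt
    have hqb : BddAbove (norm ∘ q '' (t \ {z₀})) := by
      refine ⟨max 1 (∑ m : Fin μ, ‖c m z₀‖ + 1), ?_⟩
      rintro _ ⟨z, hz, rfl⟩
      have hzΩ : z ∈ Ω := htΩ hz.1
      have hvz : v z ≠ 0 := htne z hz.1 hz.2
      have h1 := norm_le_max_one_of_monic_root μ (q z) (fun m => c m z) (hqroot z hzΩ hvz)
      exact h1.trans (max_le_max le_rfl (hsprop z (hts hz.1)).1.le)
    have hupd := Complex.differentiableOn_update_limUnder_of_bddAbove htn hqd hqb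
    refine hupd.congr fun z hz => ?_
    by_cases hzz : z = z₀
    · subst hzz
      simp [hg]
    · rw [Function.update_of_ne hzz]
      exact hgq z (htΩ hz) (htne z hz hzz)
  have hgdiff : DifferentiableOn ℂ g Ω := by
    intro z₀ hz₀
    obtain ⟨s, hs, -, -, hgs⟩ := hloc z₀ hz₀
    exact (hgs.differentiableAt hs).differentiableWithinAt
  refine ⟨g, hgdiff, ?_, ?_⟩
  · intro z hz
    by_cases hvz : v z = 0
    · rw [hvz, mul_zero]
      exact eq_zero_of_eq_zero μ (u z) (v z) (fun m => c m z) hvz (h z hz)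
    · rw [hgq z hz hvz, hq]
      simp only
      rw [div_mul_cancel₀ _ hvz]
  · intro z₀ hz₀
    by_cases hvz : v z₀ = 0
    · -- by continuity
      obtain ⟨s, hs, hsΩ, hsne, -⟩ := hloc z₀ hz₀
      set P : ℂ → ℂ := fun z => g z ^ μ + ∑ m : Fin μ, c m z * g z ^ (m : ℕ) with hP
      have hgc : ContinuousAt g z₀ := (hgdiff.differentiableAt (hΩ.mem_nhds hz₀)).continuousAt
      have hPc : ContinuousAt P z₀ :=
        (hgc.pow μ).add (tendsto_finsetSum _ fun m _ =>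
          ((hc m).continuousAt (hΩ.mem_nhds hz₀)).mul (hgc.pow _))
      have hP0 : ∀ᶠ z in 𝓝[≠] z₀, P z = 0 := by
        have : ∀ᶠ z in 𝓝[≠] z₀, z ∈ s := nhdsWithin_le_nhds hs
        filter_upwards [this, self_mem_nhdsWithin] with z hzs hzne
        have hvz' : v z ≠ 0 := hsne z hzs hzne
        simp only [hP]
        rw [hgq z (hsΩ hzs) hvz']
        exact hqroot z (hsΩ hzs) hvz'
      have ht1 : Tendsto P (𝓝[≠] z₀) (𝓝 (P z₀)) := hPc.tendsto.mono_left nhdsWithin_le_nhds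
      have ht2 : Tendsto P (𝓝[≠] z₀) (𝓝 0) := tendsto_const_nhds.congr' (by
        filter_upwards [hP0] with z hz using hz.symm)
      exact tendsto_nhds_unique ht1 ht2
    · rw [hgq z₀ hz₀ hvz]
      exact hqroot z₀ hz₀ hvz

end Division

namespace Division

theorem isOpen_upperHalfPlaneSet : IsOpen {z : ℂ | 0 < z.im} :=
  isOpen_lt continuous_const Complex.continuous_im

theorem isPreconnected_upperHalfPlaneSet : IsPreconnected {z : ℂ | 0 < z.im} :=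
  (convex_halfSpace_im_gt 0).isPreconnected

theorem continuousOn_comp_ofComplex {f : ℍ → ℂ} (hf : Continuous f) :
    ContinuousOn (f ∘ ofComplex) {z : ℂ | 0 < z.im} := fun _ hz =>
  (hf.continuousAt.comp (mdifferentiableAt_ofComplex hz).continuousAt).continuousWithinAt

end Division

/-- **Division lemma.** Let `U, V` be holomorphic on `ℍ` with `V ≠ 0`, and assume the
homogenised monic equation `U ^ μ + ∑ m < μ, c m * U ^ m * V ^ (μ - m) = 0` with continuous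
coefficients `c m`. Then `U = g * V` for a holomorphic function `g` on `ℍ` which is a root of
`X ^ μ + ∑ m < μ, c m * X ^ m` at every point. -/
theorem exists_mdifferentiable_quotient (μ : ℕ) (U V : ℍ → ℂ) (c : Fin μ → ℍ → ℂ)
    (hU : MDifferentiable 𝓘(ℂ) 𝓘(ℂ) U) (hV : MDifferentiable 𝓘(ℂ) 𝓘(ℂ) V) (hV0 : V ≠ 0)
    (hc : ∀ m, Continuous (c m))
    (h : ∀ z, U z ^ μ + ∑ m : Fin μ, c m z * U z ^ (m : ℕ) * V z ^ (μ - (m : ℕ)) = 0) :
    ∃ g : ℍ → ℂ, MDifferentiable 𝓘(ℂ) 𝓘(ℂ) g ∧ (∀ z, U z = g z * V z) ∧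
      ∀ z, g z ^ μ + ∑ m : Fin μ, c m z * g z ^ (m : ℕ) = 0 := by
  have hV0' : ∃ z ∈ {z : ℂ | 0 < z.im}, (V ∘ ofComplex) z ≠ 0 := by
    by_contra hcon
    push Not at hcon
    apply hV0
    funext τ
    have := hcon (τ : ℂ) τ.im_pos
    simpa [ofComplex_apply] using this
  obtain ⟨g, hg, hgUV, hgroot⟩ := Division.exists_differentiableOn_quotient
    Division.isOpen_upperHalfPlaneSet Division.isPreconnected_upperHalfPlaneSet μ
    (U ∘ ofComplex) (V ∘ ofComplex) (fun m => c m ∘ ofComplex)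
    (UpperHalfPlane.mdifferentiable_iff.mp hU) (UpperHalfPlane.mdifferentiable_iff.mp hV) hV0'
    (fun m => Division.continuousOn_comp_ofComplex (hc m))
    (fun z _ => by simpa using h (ofComplex z))
  refine ⟨fun τ => g (τ : ℂ), ?_, ?_, ?_⟩
  · rw [UpperHalfPlane.mdifferentiable_iff]
    refine hg.congr fun z hz => ?_
    simp only [Function.comp_apply]
    rw [ofComplex_apply_of_im_pos hz]
  · intro τ
    have := hgUV (τ : ℂ) τ.im_pos
    simpa [ofComplex_apply] using this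
  · intro τ
    have := hgroot (τ : ℂ) τ.im_pos
    simpa [ofComplex_apply] using this

/-- Holomorphic functions on `ℍ` can be cancelled by a nonzero holomorphic factor. -/
theorem eq_of_mul_eq_mul_of_ne_zero (g₁ g₂ V : ℍ → ℂ)
    (hg₁ : MDifferentiable 𝓘(ℂ) 𝓘(ℂ) g₁) (hg₂ : MDifferentiable 𝓘(ℂ) 𝓘(ℂ) g₂)
    (hV : MDifferentiable 𝓘(ℂ) 𝓘(ℂ) V) (hV0 : V ≠ 0)
    (h : ∀ z, g₁ z * V z = g₂ z * V z) : g₁ = g₂ := by
  have hΩ := Division.isOpen_upperHalfPlaneSet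
  have hd : AnalyticOnNhd ℂ ((g₁ ∘ ofComplex) - (g₂ ∘ ofComplex)) {z : ℂ | 0 < z.im} :=
    ((UpperHalfPlane.mdifferentiable_iff.mp hg₁).sub (UpperHalfPlane.mdifferentiable_iff.mp hg₂)).analyticOnNhd hΩ
  have hv : AnalyticOnNhd ℂ (V ∘ ofComplex) {z : ℂ | 0 < z.im} :=
    (UpperHalfPlane.mdifferentiable_iff.mp hV).analyticOnNhd hΩ
  have hmul : ∀ z ∈ {z : ℂ | 0 < z.im},
      ((g₁ ∘ ofComplex) - (g₂ ∘ ofComplex)) z * (V ∘ ofComplex) z = 0 := by
    intro z _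
    simp only [Pi.sub_apply, Function.comp_apply, sub_mul, h, sub_self]
  rcases hd.eq_zero_or_eq_zero_of_mul_eq_zero hv hmul
    Division.isPreconnected_upperHalfPlaneSet with h0 | h0
  · funext τ
    have := h0 (τ : ℂ) τ.im_pos
    simpa [ofComplex_apply, sub_eq_zero] using this
  · exfalso
    apply hV0
    funext τ
    have := h0 (τ : ℂ) τ.im_pos
    simpa [ofComplex_apply] using this

end Fermat.Agent.S23
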